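/-
S56, wall W2-EC, step 5, leaf EC5-L (helper54), part A: additive invariants of finite
`𝔽_p[C]`-modules and subquotients.

* `FinCMod p C` : a finite abelian group killed by `p` with an action of `C`, bundled (`Type`);
* `IsAdditive d` : `d : FinCMod p C → ℤ` is additive on short exact sequences;
* `SubQ p C M` : a pair `bot ≤ top` of `C`-stable subgroups of `M` with `p • top ≤ bot`;
  `Q.obj` : the subquotient `top / bot` as a `FinCMod` (`M` a finitely generated abelian group);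
* `IsAdditive.subQ_chain` (P1) : `d(D/A) = d(D/B) + d(B/A)` for `A ≤ B ≤ D`;
* `IsAdditive.subQ_map` (P2) : an equivariant map inducing a bijection of subquotients preserves `d`.
-/
import Mathlib

set_option autoImplicit false

noncomputable section

namespace Fermat.Agent.S56.EC

/-- A finite abelian group killed by `p` with an action of `C`, bundled. -/
structure FinCMod (p : ℕ) (C : Type) [Group C] where
  /-- the underlying type -/
  carrier : Type
  [isAddCommGroup : AddCommGroup carrier]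
  [isAction : DistribMulAction C carrier]
  [isFinite : Finite carrier]
  killed : ∀ x : carrier, p • x = 0

attribute [instance] FinCMod.isAddCommGroup FinCMod.isAction FinCMod.isFinite

section Additive

variable {p : ℕ} {C : Type} [Group C]

/-- `d` is additive on equivariant short exact sequences. -/
def IsAdditive (d : FinCMod p C → ℤ) : Prop :=
  ∀ (A E B : FinCMod p C) (i : A.carrier →+ E.carrier) (q : E.carrier →+ B.carrier),
    (∀ (c : C) (a : A.carrier), i (c • a) = c • i a) →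
    (∀ (c : C) (e : E.carrier), q (c • e) = c • q e) →
    Function.Injective i → Function.Surjective q → (∀ e, q e = 0 ↔ e ∈ i.range) →
    d E = d A + d B

/-- An additive invariant vanishes on trivial modules. -/
theorem IsAdditive.eq_zero_of_subsingleton {d : FinCMod p C → ℤ} (hd : IsAdditive d)
    (Z : FinCMod p C) [Subsingleton Z.carrier] : d Z = 0 := by
  have := hd Z Z Z 0 0 (fun c a => Subsingleton.elim _ _) (fun c a => Subsingleton.elim _ _)
    (fun a b _ => Subsingleton.elim _ _) (fun b => ⟨b, Subsingleton.elim _ _⟩)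
    (fun e => ⟨fun _ => ⟨e, Subsingleton.elim _ _⟩, fun _ => Subsingleton.elim _ _⟩)
  linarith

/-- An additive invariant is invariant under equivariant bijections. -/
theorem IsAdditive.eq_of_bijective {d : FinCMod p C → ℤ} (hd : IsAdditive d)
    (A B : FinCMod p C) (φ : A.carrier →+ B.carrier)
    (hφ : ∀ (c : C) (a : A.carrier), φ (c • a) = c • φ a) (hbij : Function.Bijective φ) :
    d A = d B := by
  -- the zero module
  let Z : FinCMod p C :=
    { carrier := PUnit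
      isAction :=
        { smul := fun _ _ => PUnit.unit
          one_smul := fun _ => rfl
          mul_smul := fun _ _ _ => rfl
          smul_zero := fun _ => rfl
          smul_add := fun _ _ _ => rfl }
      killed := fun _ => rfl }
  have hZ : d Z = 0 := hd.eq_zero_of_subsingleton Z
  have := hd A B Z φ 0 hφ (fun c e => rfl) hbij.1 (fun b => ⟨0, Subsingleton.elim _ _⟩)
    (fun e => ⟨fun _ => hbij.2 e, fun _ => rfl⟩)
  linarith

end Additive

section SubQ

variable {p : ℕ} {C : Type} [Group C]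

/-- A pair `bot ≤ top` of `C`-stable subgroups of `M` with `p • top ≤ bot`. -/
structure SubQ (p : ℕ) (C : Type) [Group C] (M : Type) [AddCommGroup M]
    [DistribMulAction C M] where
  /-- the smaller subgroup -/
  bot : AddSubgroup M
  /-- the larger subgroup -/
  top : AddSubgroup M
  le : bot ≤ top
  stable_bot : ∀ (c : C) (x : M), x ∈ bot → c • x ∈ bot
  stable_top : ∀ (c : C) (x : M), x ∈ top → c • x ∈ top
  killed : ∀ x ∈ top, p • x ∈ bot

variable {M : Type} [AddCommGroup M] [DistribMulAction C M]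

namespace SubQ

variable (Q : SubQ p C M)

/-- The underlying type of the subquotient. -/
abbrev Carrier : Type := ↥Q.top ⧸ Q.bot.addSubgroupOf Q.top

/-- The class of an element of `top`. -/
def cls : ↥Q.top →+ Q.Carrier := QuotientAddGroup.mk' (Q.bot.addSubgroupOf Q.top)

lemma cls_surjective : Function.Surjective Q.cls := QuotientAddGroup.mk'_surjective _

lemma cls_eq_zero_iff (x : ↥Q.top) : Q.cls x = 0 ↔ (x : M) ∈ Q.bot := by
  unfold cls
  rw [QuotientAddGroup.mk'_apply, QuotientAddGroup.eq_zero_iff]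
  rfl

lemma cls_eq_cls_iff (x y : ↥Q.top) : Q.cls x = Q.cls y ↔ (x : M) - (y : M) ∈ Q.bot := by
  rw [← sub_eq_zero, ← map_sub, cls_eq_zero_iff]
  rfl

/-- The action of `c` on `top`. -/
def actTop (c : C) : ↥Q.top →+ ↥Q.top where
  toFun x := ⟨c • (x : M), Q.stable_top c _ x.2⟩
  map_zero' := Subtype.ext (smul_zero c)
  map_add' x y := Subtype.ext (smul_add c (x : M) (y : M))

/-- The action of `c` on the subquotient. -/
def act (c : C) : Q.Carrier →+ Q.Carrier :=
  QuotientAddGroup.map _ _ (Q.actTop c) (fun x hx => Q.stable_bot c _ hx)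

lemma act_cls (c : C) (x : ↥Q.top) : Q.act c (Q.cls x) = Q.cls (Q.actTop c x) := rfl

instance : DistribMulAction C Q.Carrier where
  smul c x := Q.act c x
  one_smul x := by
    obtain ⟨x, rfl⟩ := Q.cls_surjective x
    show Q.act 1 (Q.cls x) = Q.cls x
    rw [act_cls]
    congr 1
    exact Subtype.ext (one_smul C (x : M))
  mul_smul c c' x := by
    obtain ⟨x, rfl⟩ := Q.cls_surjective x
    show Q.act (c * c') (Q.cls x) = Q.act c (Q.act c' (Q.cls x))
    rw [act_cls, act_cls, act_cls]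
    congr 1
    exact Subtype.ext (mul_smul c c' (x : M))
  smul_zero c := map_zero (Q.act c)
  smul_add c x y := map_add (Q.act c) x y

lemma smul_cls (c : C) (x : ↥Q.top) : c • Q.cls x = Q.cls (Q.actTop c x) := rfl

lemma killed_carrier (x : Q.Carrier) : p • x = 0 := by
  obtain ⟨x, rfl⟩ := Q.cls_surjective x
  rw [← map_nsmul, cls_eq_zero_iff]
  exact Q.killed _ x.2

/-- Subquotients of a finitely generated abelian group which are killed by `p ≠ 0` are finite. -/
lemma finite_carrier [Module.Finite ℤ M] (hp : p ≠ 0) : Finite Q.Carrier := by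
  haveI : IsNoetherian ℤ M := inferInstance
  haveI : Module.Finite ℤ ↥(AddSubgroup.toIntSubmodule Q.top) :=
    Module.Finite.of_fg (IsNoetherian.noetherian _)
  haveI : Module.Finite ℤ ↥Q.top := ‹Module.Finite ℤ ↥(AddSubgroup.toIntSubmodule Q.top)›
  haveI : Module.Finite ℤ Q.Carrier :=
    Module.Finite.of_surjective (Q.cls.toIntLinearMap) Q.cls_surjective
  refine Module.finite_of_fg_torsion _ ?_
  intro x
  refine ⟨⟨(p : ℤ), ?_⟩, ?_⟩
  · exact mem_nonZeroDivisors_of_ne_zero (by exact_mod_cast hp)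
  · show (p : ℤ) • x = 0
    rw [natCast_zsmul]
    exact Q.killed_carrier x

/-- The subquotient as a bundled finite module. -/
def obj [Module.Finite ℤ M] (hp : p ≠ 0) : FinCMod p C :=
  { carrier := Q.Carrier
    isFinite := Q.finite_carrier hp
    killed := Q.killed_carrier }

/-! ### Induced maps -/

variable {N : Type} [AddCommGroup N] [DistribMulAction C N]

/-- The map of subquotients induced by an additive map. -/
def map (Q' : SubQ p C N) (φ : M →+ N) (htop : ∀ x ∈ Q.top, φ x ∈ Q'.top)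
    (hbot : ∀ x ∈ Q.bot, φ x ∈ Q'.bot) : Q.Carrier →+ Q'.Carrier :=
  QuotientAddGroup.map _ _
    ((φ.comp Q.top.subtype).codRestrict Q'.top (fun x => htop x.1 x.2))
    (fun x hx => hbot _ hx)

lemma map_cls (Q' : SubQ p C N) (φ : M →+ N) (htop : ∀ x ∈ Q.top, φ x ∈ Q'.top)
    (hbot : ∀ x ∈ Q.bot, φ x ∈ Q'.bot) (x : ↥Q.top) :
    Q.map Q' φ htop hbot (Q.cls x) = Q'.cls ⟨φ x, htop x x.2⟩ := rfl

lemma map_smul (Q' : SubQ p C N) (φ : M →+ N) (htop : ∀ x ∈ Q.top, φ x ∈ Q'.top)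
    (hbot : ∀ x ∈ Q.bot, φ x ∈ Q'.bot) (hφ : ∀ (c : C) (x : M), φ (c • x) = c • φ x)
    (c : C) (y : Q.Carrier) :
    Q.map Q' φ htop hbot (c • y) = c • Q.map Q' φ htop hbot y := by
  obtain ⟨x, rfl⟩ := Q.cls_surjective y
  rw [smul_cls, map_cls, map_cls, smul_cls]
  congr 1
  exact Subtype.ext (hφ c x)

lemma map_eq_zero_iff (Q' : SubQ p C N) (φ : M →+ N) (htop : ∀ x ∈ Q.top, φ x ∈ Q'.top)
    (hbot : ∀ x ∈ Q.bot, φ x ∈ Q'.bot) (x : ↥Q.top) :
    Q.map Q' φ htop hbot (Q.cls x) = 0 ↔ φ x ∈ Q'.bot := by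
  rw [map_cls, cls_eq_zero_iff]

lemma map_injective (Q' : SubQ p C N) (φ : M →+ N) (htop : ∀ x ∈ Q.top, φ x ∈ Q'.top)
    (hbot : ∀ x ∈ Q.bot, φ x ∈ Q'.bot) (h : ∀ x ∈ Q.top, φ x ∈ Q'.bot → x ∈ Q.bot) :
    Function.Injective (Q.map Q' φ htop hbot) := by
  rw [injective_iff_map_eq_zero]
  intro y hy
  obtain ⟨x, rfl⟩ := Q.cls_surjective y
  rw [map_eq_zero_iff] at hy
  rw [cls_eq_zero_iff]
  exact h _ x.2 hy

lemma map_surjective (Q' : SubQ p C N) (φ : M →+ N) (htop : ∀ x ∈ Q.top, φ x ∈ Q'.top)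
    (hbot : ∀ x ∈ Q.bot, φ x ∈ Q'.bot) (h : ∀ y ∈ Q'.top, ∃ x ∈ Q.top, y - φ x ∈ Q'.bot) :
    Function.Surjective (Q.map Q' φ htop hbot) := by
  intro z
  obtain ⟨y, rfl⟩ := Q'.cls_surjective z
  obtain ⟨x, hx, hxy⟩ := h y y.2
  refine ⟨Q.cls ⟨x, hx⟩, ?_⟩
  rw [map_cls, cls_eq_cls_iff]
  have : φ x - (y : N) = -((y : N) - φ x) := by abel
  show φ x - (y : N) ∈ Q'.bot
  rw [this]
  exact Q'.bot.neg_mem hxy

end SubQ

end SubQ

section Principles

variable {p : ℕ} {C : Type} [Group C]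
variable {M : Type} [AddCommGroup M] [DistribMulAction C M] [Module.Finite ℤ M]
variable {N : Type} [AddCommGroup N] [DistribMulAction C N] [Module.Finite ℤ N]

/-- **(P2)** an equivariant map which induces a bijection of subquotients preserves `d`. -/
theorem IsAdditive.subQ_map {d : FinCMod p C → ℤ} (hd : IsAdditive d) (hp : p ≠ 0)
    (Q : SubQ p C M) (Q' : SubQ p C N) (φ : M →+ N)
    (hφ : ∀ (c : C) (x : M), φ (c • x) = c • φ x)
    (htop : ∀ x ∈ Q.top, φ x ∈ Q'.top)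
    (hbot : ∀ x ∈ Q.top, (φ x ∈ Q'.bot ↔ x ∈ Q.bot))
    (hsurj : ∀ y ∈ Q'.top, ∃ x ∈ Q.top, y - φ x ∈ Q'.bot) :
    d (Q.obj hp) = d (Q'.obj hp) := by
  have hbot' : ∀ x ∈ Q.bot, φ x ∈ Q'.bot := fun x hx => (hbot x (Q.le hx)).mpr hx
  exact hd.eq_of_bijective (Q.obj hp) (Q'.obj hp) (Q.map Q' φ htop hbot')
    (Q.map_smul Q' φ htop hbot' hφ)
    ⟨Q.map_injective Q' φ htop hbot' (fun x hx h => (hbot x hx).mp h),
      Q.map_surjective Q' φ htop hbot' hsurj⟩

/-- `d` depends only on the two subgroups. -/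
theorem IsAdditive.subQ_congr {d : FinCMod p C → ℤ} (hd : IsAdditive d) (hp : p ≠ 0)
    (Q Q' : SubQ p C M) (hb : Q.bot = Q'.bot) (ht : Q.top = Q'.top) :
    d (Q.obj hp) = d (Q'.obj hp) := by
  refine hd.subQ_map hp Q Q' (AddMonoidHom.id M) (fun _ _ => rfl) (fun x hx => ht ▸ hx)
    (fun x _ => by rw [hb]; rfl) (fun y hy => ⟨y, ht ▸ hy, ?_⟩)
  simp only [AddMonoidHom.id_apply, sub_self]
  exact Q'.bot.zero_mem

/-- **(P1)** `d(D/A) = d(B/A) + d(D/B)` for `A ≤ B ≤ D`. -/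
theorem IsAdditive.subQ_chain {d : FinCMod p C → ℤ} (hd : IsAdditive d) (hp : p ≠ 0)
    (Q₁ Q₂ Q₃ : SubQ p C M) (h1 : Q₁.bot = Q₃.bot) (h2 : Q₁.top = Q₂.bot)
    (h3 : Q₂.top = Q₃.top) :
    d (Q₃.obj hp) = d (Q₁.obj hp) + d (Q₂.obj hp) := by
  have ht13 : ∀ x ∈ Q₁.top, (AddMonoidHom.id M) x ∈ Q₃.top := fun x hx => by
    rw [← h3]
    exact Q₂.le (h2 ▸ hx)
  have hb13 : ∀ x ∈ Q₁.bot, (AddMonoidHom.id M) x ∈ Q₃.bot := fun x hx => h1 ▸ hx
  have ht32 : ∀ x ∈ Q₃.top, (AddMonoidHom.id M) x ∈ Q₂.top := fun x hx => h3 ▸ hx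
  have hb32 : ∀ x ∈ Q₃.bot, (AddMonoidHom.id M) x ∈ Q₂.bot := fun x hx => by
    rw [← h2]
    exact Q₁.le (h1 ▸ hx)
  refine hd (Q₁.obj hp) (Q₃.obj hp) (Q₂.obj hp) (Q₁.map Q₃ (AddMonoidHom.id M) ht13 hb13)
    (Q₃.map Q₂ (AddMonoidHom.id M) ht32 hb32)
    (Q₁.map_smul Q₃ _ ht13 hb13 (fun _ _ => rfl))
    (Q₃.map_smul Q₂ _ ht32 hb32 (fun _ _ => rfl))
    (Q₁.map_injective Q₃ _ ht13 hb13 (fun x _ h => by rw [h1]; exact h))
    (Q₃.map_surjective Q₂ _ ht32 hb32 (fun y hy => ⟨y, h3 ▸ hy, by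
      simp only [AddMonoidHom.id_apply, sub_self]; exact Q₂.bot.zero_mem⟩)) ?_
  intro e
  obtain ⟨x, rfl⟩ := Q₃.cls_surjective e
  show Q₃.map Q₂ (AddMonoidHom.id M) ht32 hb32 (Q₃.cls x) = 0 ↔ _
  rw [SubQ.map_eq_zero_iff]
  constructor
  · intro hx
    have hx' : (x : M) ∈ Q₁.top := by rw [h2]; exact hx
    exact ⟨Q₁.cls ⟨x, hx'⟩, rfl⟩
  · rintro ⟨y, hy⟩
    obtain ⟨y, rfl⟩ := Q₁.cls_surjective y
    have hy' : Q₁.map Q₃ (AddMonoidHom.id M) ht13 hb13 (Q₁.cls y) = Q₃.cls x := hy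
    rw [SubQ.map_cls, SubQ.cls_eq_cls_iff] at hy'
    have h4 : (y : M) - (x : M) ∈ Q₂.bot := by
      rw [← h2]
      exact Q₁.le (h1 ▸ hy')
    have h5 : (y : M) ∈ Q₂.bot := h2 ▸ y.2
    have : (x : M) = (y : M) - ((y : M) - (x : M)) := by abel
    show (x : M) ∈ Q₂.bot
    rw [this]
    exact Q₂.bot.sub_mem h5 h4

end Principles

end Fermat.Agent.S56.EC
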