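/-
S56, wall W2-EC (sub-architect: helper58): Tate's global Euler characteristic.  DEFINITIONS.  FIXED.

Route (helper1's `Ψ`-form of Tate's proof; board notes of helper1 and helper58):

* `psiK S KC N = h¹(G_S, N) - h⁰(G_ℚ, N) - dim Hom_G(N, K_C) - dim N^{c = -1}`   (`KC = D.KC`);
  Tate's formula for `N` is `psiK S KC N = 0`  (`dim Hom_G(N, K_C) = h²(G_S, N)` by duality);
* (A)  `psiK` is additive on short exact sequences            (`EC/Additive.lean`, helper32);
* (B)  Brauer/Artin induction: an additive function on finite `𝔽_p[Γ]`-modules which vanishes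
       on the modules `Hom(𝔽_p[Γ/C], A)`, `C` cyclic of order prime to `p`, vanishes
                                                              (`EC/Brauer/*.lean`, helper58);
* (C)  Shapiro: `psiK` of a coinduced module = the same expression over `U`
                                                              (`EC/Sh/*.lean`, helper48);
* (D)  the case `U/W` of order prime to `p`, `μ_p` fixed by `W`: Kummer theory + the `S`-unit
       theorem with Galois action                             (`EC/Cyclic/*.lean`; units: helper54);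
* (E)  `ECLower` from `psiK = 0`: second-variable long exact sequence in degrees `0, 1`
                                                              (`EC/Lower.lean`).
-/
import Fermat.Agent.S56.W2.Interfaces
import Fermat.Agent.F4.Coind.Basic

set_option autoImplicit false

namespace Fermat.Agent.S56.EC

open Fermat.Agent.F4 ExtCitation

variable {p : ℕ} [Fact p.Prime]

/-- `d` is **additive**: `d A = d A' + d A''` for every short exact sequence
`0 → A' → A → A'' → 0` of finite `𝔽_p[Γ]`-modules (given by equivariant linear maps). -/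
def IsAdditiveFn {Γ : Type} [Group Γ] (d : Rep.{0} (ZMod p) Γ → ℤ) : Prop :=
  ∀ (A' A A'' : Rep.{0} (ZMod p) Γ) (f : A' →ₗ[ZMod p] A) (g : A →ₗ[ZMod p] A''),
    Module.Finite (ZMod p) A →
    (∀ (γ : Γ) (x : A'), f (A'.ρ γ x) = A.ρ γ (f x)) →
    (∀ (γ : Γ) (x : A), g (A.ρ γ x) = A''.ρ γ (g x)) →
    Function.Injective f → Function.Surjective g → LinearMap.range f = LinearMap.ker g →
    d A = d A' + d A''

/-- `N^{c = -1}`: the `(-1)`-eigenspace of complex conjugation. -/
noncomputable def negArch (N : Rep.{0} (ZMod p) GQ) : Submodule (ZMod p) N where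
  carrier := {n | N.ρ complexConjugation n = -n}
  add_mem' := fun {a b} ha hb => by
    show N.ρ complexConjugation (a + b) = -(a + b)
    rw [map_add, show N.ρ complexConjugation a = -a from ha,
      show N.ρ complexConjugation b = -b from hb, neg_add]
  zero_mem' := by
    show N.ρ complexConjugation 0 = -0
    rw [map_zero, neg_zero]
  smul_mem' := fun c a ha => by
    show N.ρ complexConjugation (c • a) = -(c • a)
    rw [map_smul, show N.ρ complexConjugation a = -a from ha, smul_neg]

/-- **`Ψ(N)`** `= h¹(G_S, N) - h⁰(G_ℚ, N) - dim Hom_G(N, K_C) - dim N^{c = -1}`. -/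
noncomputable def psiK (S : Finset Nat.Primes) (KC : Cx (ZMod p) GQ)
    (N : Rep.{0} (ZMod p) GQ) : ℤ :=
  (Module.finrank (ZMod p) (H1sm (levelsS S) N) : ℤ)
    - (Module.finrank (ZMod p) (H0glob N) : ℤ)
    - (Module.finrank (ZMod p) (HH0 (homCx N KC)) : ℤ)
    - (Module.finrank (ZMod p) (negArch N) : ℤ)

/-- `Hom_G(N, K_C)` is finite for every finite smooth `N`. -/
def FiniteHom0 (S : Finset Nat.Primes) (KC : Cx (ZMod p) GQ) : Prop :=
  ∀ N : Rep.{0} (ZMod p) GQ, IsSmooth (levelsS S) N → Module.Finite (ZMod p) N →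
    Module.Finite (ZMod p) (HH0 (homCx N KC))

/-- **(A)** `Ψ` is additive on short exact sequences of finite smooth modules. -/
def PsiAdditive (S : Finset Nat.Primes) (KC : Cx (ZMod p) GQ) : Prop :=
  ∀ (A' A A'' : Rep.{0} (ZMod p) GQ) (f : A' →ₗ[ZMod p] A) (g : A →ₗ[ZMod p] A''),
    Module.Finite (ZMod p) A → IsSmooth (levelsS S) A →
    (∀ (γ : GQ) (x : A'), f (A'.ρ γ x) = A.ρ γ (f x)) →
    (∀ (γ : GQ) (x : A), g (A.ρ γ x) = A''.ρ γ (g x)) →
    Function.Injective f → Function.Surjective g → LinearMap.range f = LinearMap.ker g →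
    psiK S KC A = psiK S KC A' + psiK S KC A''

/-- **Tate's formula** for all finite smooth modules. -/
def PsiZero (S : Finset Nat.Primes) (KC : Cx (ZMod p) GQ) : Prop :=
  ∀ N : Rep.{0} (ZMod p) GQ, IsSmooth (levelsS S) N → Module.Finite (ZMod p) N →
    psiK S KC N = 0

/-- **(C) + (D)** Tate's formula for the modules coinduced from an open subgroup `U ⊇ W`,
`W` a level fixing `μ_p`, `[U : W]` prime to `p`, and a finite `U`-module `X` on which `W` acts
trivially. -/
def PsiCoindZero (S : Finset Nat.Primes) (KC : Cx (ZMod p) GQ) : Prop :=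
  ∀ (W U : Subgroup GQ), W ∈ (levelsS S).sets → W ≤ U → W ≤ MonoidHom.ker (cycloChar p) →
    ¬ p ∣ (W.subgroupOf U).index →
    ∀ X : Rep.{0} (ZMod p) ↥U, Module.Finite (ZMod p) X →
      (∀ (u : ↥U), (u : GQ) ∈ W → ∀ x : X, X.ρ u x = x) →
      psiK S KC (coInd U.subtype (levelsS S) X) = 0

/-- **(B)** Brauer–Artin induction for the finite group `Γ`: an additive function which
vanishes on `Hom(𝔽_p[Γ/C], A)` for all cyclic `C ≤ Γ` of order prime to `p` and all finite `A`
vanishes on all finite modules. -/
def BrauerInduction (p : ℕ) [Fact p.Prime] (Γ : Type) [Group Γ] : Prop :=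
  ∀ d : Rep.{0} (ZMod p) Γ → ℤ, IsAdditiveFn d →
    (∀ C : Subgroup Γ, IsCyclic C → ¬ p ∣ Nat.card C → ∀ A : Rep.{0} (ZMod p) Γ,
      Module.Finite (ZMod p) A → d (homRep (permRep (ZMod p) C) A) = 0) →
    ∀ A : Rep.{0} (ZMod p) Γ, Module.Finite (ZMod p) A → d A = 0

end Fermat.Agent.S56.EC
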