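/-
S56, wall W2-EC, seat ADDITIVITY (helper32; sub-architect helper58, route of helper1).

For a class formation datum `(K, inv)` on `(G, 𝓤)` (in the application `K = D.KC`, the complex of
the `S`-idele class group) and a finite smooth `k[G]`-module `N` put

    `ψ(N) = dim H¹(G, N) - dim H⁰(G, N) - dim HH⁰(Hom(N, K))`.

If `α¹ : HH¹(Hom(N, K)) → H¹(N)^*` is bijective (Tate duality in degree 1), then `ψ` is additive
on short exact sequences `0 → N' → N → N'' → 0`: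

* the cohomology sequence of `N' → N → N''` in degrees `0`, `1` gives
  `(h¹ - h⁰)(N) = (h¹ - h⁰)(N') + (h¹ - h⁰)(N'') - dim coker(H¹(N) → H¹(N''))`;
* the first-variable sequence `0 → Hom(N'', K) → Hom(N, K) → Hom(N', K) → 0` in degrees `0`, `1`
  gives `e(N) = e(N') + e(N'') - dim ker(HH¹(Hom(N'', K)) → HH¹(Hom(N, K)))`;
* `α¹` identifies that kernel with the dual of that cokernel.

Main statements: `ecadd_hside`, `ecadd_eside`, `ecadd_ker_eq_coker`, `psi0_additive`.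
-/
import Fermat.Agent.F4.DDT.Main
import Fermat.Agent.F4.PT.Abs.Iota
import Fermat.Agent.S56.W2.EC.Defs

set_option autoImplicit false

open CategoryTheory groupCohomology ExtCitation Module

namespace Fermat.Agent.S56.EC

open Fermat.Agent.F4

/-! ### The cohomology sequence of a short exact sequence of complexes in degrees `0`, `1` -/

section Generic

variable {k G : Type} [Field k] [Group G] {𝓤 : Levels G} {K' K K'' : Cx k G}
  {f : CxHom K' K} {g : CxHom K K''}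

lemma ecadd_hh0_injective (h : CxShortExact f g) : Function.Injective f.hh0 := by
  intro x y hxy
  apply Subtype.ext
  apply h.inj0
  exact congrArg Subtype.val hxy

lemma ecadd_exact_HH0_mid (h : CxShortExact f g) (x : ↥(HH0 K)) :
    g.hh0 x = 0 ↔ ∃ x' : ↥(HH0 K'), f.hh0 x' = x := by
  constructor
  · intro h0
    have h1 : g.f0 (x : K.K0) = 0 := congrArg Subtype.val h0
    obtain ⟨y, hy⟩ := (h.exact0 _).1 h1
    have hmem : y ∈ HH0 K' := by
      show D0 K' y = 0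
      apply h.f_t1_injective
      rw [← f.D0_t, hy, map_zero]
      exact x.2
    exact ⟨⟨y, hmem⟩, Subtype.ext hy⟩
  · rintro ⟨x', rfl⟩
    apply Subtype.ext
    exact h.g_f0 _

/-- The dimension count of `0 → HH⁰(K') → HH⁰(K) → HH⁰(K'') → HH¹(K') → HH¹(K)`. -/
theorem ecadd_les_count (h : CxShortExact f g) (hK : K.Smooth 𝓤)
    [Module.Finite k ↥(HH0 K')] [Module.Finite k ↥(HH0 K)] [Module.Finite k ↥(HH0 K'')] :
    finrank k ↥(HH0 K') + finrank k ↥(HH0 K'') =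
      finrank k ↥(HH0 K) + finrank k ↥(LinearMap.ker (f.hh1 𝓤)) := by
  have r1 := LinearMap.finrank_range_add_finrank_ker (g.hh0 (K := K) (L := K''))
  have r2 := LinearMap.finrank_range_add_finrank_ker (CxShortExact.conn0 (𝓤 := 𝓤) h hK)
  have e1 : LinearMap.ker (g.hh0 (K := K) (L := K'')) = LinearMap.range (f.hh0 (K := K') (L := K)) := by
    ext x
    rw [LinearMap.mem_ker, LinearMap.mem_range]
    exact ecadd_exact_HH0_mid h x
  have e2 : LinearMap.ker (CxShortExact.conn0 (𝓤 := 𝓤) h hK) =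
      LinearMap.range (g.hh0 (K := K) (L := K'')) := by
    ext x
    rw [LinearMap.mem_ker, LinearMap.mem_range]
    exact CxShortExact.exact_HH0_right h hK x
  have e3 : LinearMap.ker (f.hh1 𝓤) = LinearMap.range (CxShortExact.conn0 (𝓤 := 𝓤) h hK) := by
    ext y
    rw [LinearMap.mem_ker, LinearMap.mem_range]
    exact CxShortExact.exact_HH1_left h hK y
  have e4 : finrank k ↥(LinearMap.range (f.hh0 (K := K') (L := K))) = finrank k ↥(HH0 K') :=
    LinearMap.finrank_range_of_inj (ecadd_hh0_injective h)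
  rw [e1, e4] at r1
  rw [e2] at r2
  rw [e3]
  omega

end Generic

/-! ### Modules as complexes in degree `0` -/

section Deg0

variable {k G : Type} [Field k] [Group G] (𝓤 : Levels G)

/-- The morphism of complexes in degree `0` induced by an equivariant map. -/
def ecaddDeg0Hom {N N' : Rep.{0} k G} (φ : N →ₗ[k] N')
    (hφ : ∀ (g : G) (n : N), φ (N.ρ g n) = N'.ρ g (φ n)) : CxHom (Cx.deg0 N) (Cx.deg0 N') where
  f0 := φ
  f1 := LinearMap.id
  comm0 := hφ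
  comm1 _ _ := rfl
  commd _ := rfl

lemma ecadd_deg0_smooth (N : Rep.{0} k G) (hN : IsSmooth 𝓤 N) : (Cx.deg0 N).Smooth 𝓤 := by
  refine ⟨hN, fun x => ?_⟩
  obtain ⟨U, hU⟩ := 𝓤.nonempty
  exact ⟨U, hU, fun g _ => rfl⟩

lemma ecadd_deg0_shortExact {N' N N'' : Rep.{0} k G} {i : N' →ₗ[k] N} {q : N →ₗ[k] N''}
    (h : RepSES i q) : CxShortExact (ecaddDeg0Hom i h.hi) (ecaddDeg0Hom q h.hq) where
  inj0 := h.inj
  inj1 := fun _ _ hxy => hxy
  surj0 := h.surj
  surj1 := fun x => ⟨x, rfl⟩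
  exact0 := h.exact
  exact1 := fun x => ⟨fun _ => ⟨x, rfl⟩, fun _ => rfl⟩

/-- `HH⁰` of a module in degree `0` is the module of invariants. -/
lemma ecadd_HH0_deg0 (N : Rep.{0} k G) : HH0 (Cx.deg0 N) = ddtInv N := by
  ext x
  show D0 (Cx.deg0 N) x = 0 ↔ ∀ g : G, N.ρ g x = x
  rw [D0_apply, Prod.mk_eq_zero]
  constructor
  · rintro ⟨h1, -⟩ g
    have := congrFun h1 g
    rw [δ0_apply] at this
    exact sub_eq_zero.1 this
  · intro h
    refine ⟨funext fun g => ?_, rfl⟩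
    rw [δ0_apply]
    exact sub_eq_zero.2 (h g)

variable (N : Rep.{0} k G)

lemma ecadd_mem_ZZ1_deg0 (ab : T1 (Cx.deg0 N)) :
    ab ∈ ZZ1 𝓤 (Cx.deg0 N) ↔ (show G → N from ab.1) ∈ Z1 𝓤 N := by
  rw [mem_ZZ1_iff]
  constructor
  · rintro ⟨h1, -, h3⟩
    exact ⟨h1, h3⟩
  · rintro ⟨h1, h3⟩
    exact ⟨h1, rfl, h3⟩

lemma ecadd_mem_BB1_deg0 (ab : T1 (Cx.deg0 N)) :
    ab ∈ BB1 (Cx.deg0 N) ↔ (show G → N from ab.1) ∈ B1 N := by
  rw [mem_BB1_iff, mem_B1_iff]
  constructor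
  · rintro ⟨x, rfl⟩
    exact ⟨x, rfl⟩
  · rintro ⟨x, hx⟩
    exact ⟨x, Prod.ext hx rfl⟩

lemma ecadd_finrank_HH0_deg0 : finrank k ↥(HH0 (Cx.deg0 N)) = finrank k ↥(ddtInv N) :=
  LinearEquiv.finrank_eq (LinearEquiv.ofEq _ _ (ecadd_HH0_deg0 N))

lemma ecadd_finite_HH0_deg0 [hfin : Module.Finite k N] :
    Module.Finite k ↥(HH0 (Cx.deg0 N)) := by
  have : Module.Finite k ↑(Cx.deg0 N).K0 := hfin
  infer_instance

/-- Smooth total `1`-cocycles of `N` in degree `0` are smooth `1`-cocycles of `N`. -/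
def ecaddZ1 : ↥(ZZ1 𝓤 (Cx.deg0 N)) ≃ₗ[k] ↥(Z1 𝓤 N) where
  toFun z := ⟨z.1.1, (ecadd_mem_ZZ1_deg0 𝓤 N z.1).1 z.2⟩
  invFun y := ⟨(y.1, 0), (ecadd_mem_ZZ1_deg0 𝓤 N (y.1, 0)).2 y.2⟩
  map_add' _ _ := rfl
  map_smul' _ _ := rfl
  left_inv _ := rfl
  right_inv _ := rfl

@[simp] lemma ecaddZ1_coe (z : ↥(ZZ1 𝓤 (Cx.deg0 N))) :
    ((ecaddZ1 𝓤 N z : ↥(Z1 𝓤 N)) : G → N) = z.1.1 := rfl

/-- `HH¹` of a module in degree `0` is its smooth `H¹`. -/
def ecaddH1 : HH1 𝓤 (Cx.deg0 N) ≃ₗ[k] H1sm 𝓤 N :=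
  Submodule.Quotient.equiv _ _ (ecaddZ1 𝓤 N) (by
    ext y
    rw [Submodule.mem_map, Submodule.mem_comap]
    constructor
    · rintro ⟨z, hz, rfl⟩
      rw [Submodule.mem_comap] at hz
      exact (ecadd_mem_BB1_deg0 N z.1).1 hz
    · intro hy
      refine ⟨(ecaddZ1 𝓤 N).symm y, ?_, (ecaddZ1 𝓤 N).apply_symm_apply y⟩
      rw [Submodule.mem_comap]
      exact (ecadd_mem_BB1_deg0 N _).2 hy)

lemma ecaddH1_mk (z : ↥(ZZ1 𝓤 (Cx.deg0 N))) :
    ecaddH1 𝓤 N (HH1π 𝓤 (Cx.deg0 N) z) = H1smπ 𝓤 N (ecaddZ1 𝓤 N z) := rfl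

variable {N}

/-- Naturality of `HH¹(N[0]) = H¹(N)`. -/
lemma ecaddH1_natural {N' : Rep.{0} k G} (φ : N →ₗ[k] N')
    (hφ : ∀ (g : G) (n : N), φ (N.ρ g n) = N'.ρ g (φ n)) (x : HH1 𝓤 (Cx.deg0 N)) :
    ecaddH1 𝓤 N' ((ecaddDeg0Hom φ hφ).hh1 𝓤 x) = H1smMap 𝓤 φ hφ (ecaddH1 𝓤 N x) := by
  obtain ⟨z, rfl⟩ := HH1π_surjective 𝓤 _ x
  rfl

lemma ecadd_finrank_ker {N' : Rep.{0} k G} (φ : N →ₗ[k] N')
    (hφ : ∀ (g : G) (n : N), φ (N.ρ g n) = N'.ρ g (φ n)) :
    finrank k ↥(LinearMap.ker ((ecaddDeg0Hom φ hφ).hh1 𝓤)) =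
      finrank k ↥(LinearMap.ker (H1smMap 𝓤 φ hφ)) := by
  have e : (LinearMap.ker ((ecaddDeg0Hom φ hφ).hh1 𝓤)).map
      ((ecaddH1 𝓤 N : HH1 𝓤 (Cx.deg0 N) ≃ₗ[k] H1sm 𝓤 N) :
        HH1 𝓤 (Cx.deg0 N) →ₗ[k] H1sm 𝓤 N) = LinearMap.ker (H1smMap 𝓤 φ hφ) := by
    ext y
    rw [Submodule.mem_map, LinearMap.mem_ker]
    constructor
    · rintro ⟨x, hx, rfl⟩
      rw [LinearMap.mem_ker] at hx
      show H1smMap 𝓤 φ hφ (ecaddH1 𝓤 N x) = 0
      rw [← ecaddH1_natural, hx, map_zero]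
    · intro hy
      refine ⟨(ecaddH1 𝓤 N).symm y, ?_, (ecaddH1 𝓤 N).apply_symm_apply y⟩
      rw [LinearMap.mem_ker]
      apply (ecaddH1 𝓤 N').injective
      rw [ecaddH1_natural, LinearEquiv.apply_symm_apply, hy, map_zero]
  rw [← e, LinearEquiv.finrank_map_eq]

end Deg0

/-! ### The `H`-side -/

section HSide

variable {k G : Type} [Field k] [Group G] (𝓤 : Levels G)
  {N' N N'' : Rep.{0} k G} {i : N' →ₗ[k] N} {q : N →ₗ[k] N''}

/-- The `H`-side of the count: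
`h¹(N) + h⁰(N') + h⁰(N'') = h¹(N') + h⁰(N) + rank(H¹(N) → H¹(N''))`. -/
theorem ecadd_hside (h : RepSES i q) (hN : IsSmooth 𝓤 N)
    [Module.Finite k N'] [Module.Finite k N] [Module.Finite k N'']
    [Module.Finite k (H1sm 𝓤 N')] [Module.Finite k (H1sm 𝓤 N)] :
    finrank k (H1sm 𝓤 N) + finrank k ↥(ddtInv N') + finrank k ↥(ddtInv N'') =
      finrank k (H1sm 𝓤 N') + finrank k ↥(ddtInv N) +
        finrank k ↥(LinearMap.range (H1smMap 𝓤 q h.hq)) := by
  have i1 : Module.Finite k ↥(HH0 (Cx.deg0 N')) := ecadd_finite_HH0_deg0 N'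
  have i2 : Module.Finite k ↥(HH0 (Cx.deg0 N)) := ecadd_finite_HH0_deg0 N
  have i3 : Module.Finite k ↥(HH0 (Cx.deg0 N'')) := ecadd_finite_HH0_deg0 N''
  have c1 := ecadd_les_count (𝓤 := 𝓤) (ecadd_deg0_shortExact h) (ecadd_deg0_smooth 𝓤 N hN)
  rw [ecadd_finrank_ker, ecadd_finrank_HH0_deg0, ecadd_finrank_HH0_deg0,
    ecadd_finrank_HH0_deg0] at c1
  have c2 := LinearMap.finrank_range_add_finrank_ker (H1smMap 𝓤 i h.hi)
  have c3 := LinearMap.finrank_range_add_finrank_ker (H1smMap 𝓤 q h.hq)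
  have c4 : LinearMap.ker (H1smMap 𝓤 q h.hq) = LinearMap.range (H1smMap 𝓤 i h.hi) := by
    ext x
    rw [LinearMap.mem_ker, LinearMap.mem_range]
    constructor
    · intro hx
      exact h.H1sm_exact_mid 𝓤 hN x hx
    · rintro ⟨x', rfl⟩
      obtain ⟨y', rfl⟩ := H1smπ_surjective 𝓤 N' x'
      rw [H1smMap_mk, H1smMap_mk, H1smπ_eq_zero_iff]
      refine ⟨0, funext fun g => ?_⟩
      rw [map_zero]
      show (0 : N'') = q (i (y'.1 g))
      rw [h.q_i]
  rw [c4] at c3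
  omega

end HSide

/-! ### The `Hom(-, K)`-side and the comparison by `α¹` -/

section ESide

variable {k G : Type} [Field k] [Group G] (𝓤 : Levels G) (K : Cx k G)
  {N' N N'' : Rep.{0} k G} {i : N' →ₗ[k] N} {q : N →ₗ[k] N''}

/-- The `Hom(-, K)`-side of the count:
`e(N'') + e(N') = e(N) + dim ker(HH¹(Hom(N'', K)) → HH¹(Hom(N, K)))`. -/
theorem ecadd_eside (hK : K.Smooth 𝓤) (h : RepSES i q) (hN : IsSmooth 𝓤 N)
    (hfin : Module.Finite k N)
    [Module.Finite k ↥(HH0 (homCx N'' K))] [Module.Finite k ↥(HH0 (homCx N K))]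
    [Module.Finite k ↥(HH0 (homCx N' K))] :
    finrank k ↥(HH0 (homCx N'' K)) + finrank k ↥(HH0 (homCx N' K)) =
      finrank k ↥(HH0 (homCx N K)) +
        finrank k ↥(LinearMap.ker ((homCxMap q h.hq K).hh1 𝓤)) :=
  ecadd_les_count (𝓤 := 𝓤) (homCx_shortExact K h) (homCx_smooth 𝓤 K hK N hN hfin)

variable (inv : HH2 𝓤 K →ₗ[k] k)

/-- Naturality of `α¹` in the module: `α¹_N (q^* x'') = α¹_{N''} (x'') ∘ H¹(q)`. -/
lemma ecadd_ptA1_natural (h : RepSES i q) (hN : IsSmooth 𝓤 N) (hfin : Module.Finite k N)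
    (hN'' : IsSmooth 𝓤 N'') (hfin'' : Module.Finite k N'') (x'' : HH1 𝓤 (homCx N'' K))
    (y : H1sm 𝓤 N) :
    ptA1 𝓤 K inv N hN hfin ((homCxMap q h.hq K).hh1 𝓤 x'') y =
      ptA1 𝓤 K inv N'' hN'' hfin'' x'' (H1smMap 𝓤 q h.hq y) := by
  obtain ⟨e'', rfl⟩ := HH1π_surjective 𝓤 _ x''
  obtain ⟨z, rfl⟩ := H1smπ_surjective 𝓤 N y
  rw [CxHom.hh1_mk, H1smMap_mk, ptA1_mk, ptA1_mk, ddt_cupZ1_q 𝓤 K h hN hfin hN'' hfin'']

/-- `α¹` identifies `ker(HH¹(Hom(N'', K)) → HH¹(Hom(N, K)))` with the dual of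
`coker(H¹(N) → H¹(N''))`. -/
theorem ecadd_ker_eq_coker (h : RepSES i q) (hN : IsSmooth 𝓤 N) (hfin : Module.Finite k N)
    (hN'' : IsSmooth 𝓤 N'') (hfin'' : Module.Finite k N'')
    (hinj : A1Inj 𝓤 K N inv hN hfin) (hinj'' : A1Inj 𝓤 K N'' inv hN'' hfin'')
    (hsurj'' : A1Surj 𝓤 K N'' inv hN'' hfin'') [Module.Finite k (H1sm 𝓤 N'')] :
    finrank k ↥(LinearMap.ker ((homCxMap q h.hq K).hh1 𝓤)) +
      finrank k ↥(LinearMap.range (H1smMap 𝓤 q h.hq)) = finrank k (H1sm 𝓤 N'') := by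
  set α'' : HH1 𝓤 (homCx N'' K) ≃ₗ[k] Dual k (H1sm 𝓤 N'') :=
    LinearEquiv.ofBijective (ptA1 𝓤 K inv N'' hN'' hfin'')
      ⟨ptA1_injective 𝓤 K inv N'' hN'' hfin'' hinj'',
        ptA1_surjective 𝓤 K inv N'' hN'' hfin'' hsurj''⟩ with hα''
  have hα''_apply : ∀ x, α'' x = ptA1 𝓤 K inv N'' hN'' hfin'' x := fun _ => rfl
  have e : (LinearMap.ker ((homCxMap q h.hq K).hh1 𝓤)).map
      (α'' : HH1 𝓤 (homCx N'' K) →ₗ[k] Dual k (H1sm 𝓤 N'')) =
        (LinearMap.range (H1smMap 𝓤 q h.hq)).dualAnnihilator := by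
    ext φ
    rw [Submodule.mem_map, Submodule.mem_dualAnnihilator]
    constructor
    · rintro ⟨x'', hx'', rfl⟩ w ⟨y, rfl⟩
      rw [LinearMap.mem_ker] at hx''
      show α'' x'' (H1smMap 𝓤 q h.hq y) = 0
      rw [hα''_apply, ← ecadd_ptA1_natural 𝓤 K inv h hN hfin hN'' hfin'', hx'', map_zero,
        LinearMap.zero_apply]
    · intro hφ
      refine ⟨α''.symm φ, ?_, α''.apply_symm_apply φ⟩
      rw [LinearMap.mem_ker]
      apply ptA1_injective 𝓤 K inv N hN hfin hinj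
      rw [map_zero]
      refine LinearMap.ext fun y => ?_
      rw [ecadd_ptA1_natural 𝓤 K inv h hN hfin hN'' hfin'', ← hα''_apply,
        LinearEquiv.apply_symm_apply, LinearMap.zero_apply]
      exact hφ _ ⟨y, rfl⟩
  have e1 := LinearEquiv.finrank_map_eq α'' (LinearMap.ker ((homCxMap q h.hq K).hh1 𝓤))
  rw [e] at e1
  have e2 := Subspace.finrank_add_finrank_dualAnnihilator_eq
    (LinearMap.range (H1smMap 𝓤 q h.hq))
  omega

/-- **Additivity** of `ψ₀(N) = h¹(N) - h⁰(N) - dim HH⁰(Hom(N, K))`, in additive form. -/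
theorem ecadd_psi0 (hK : K.Smooth 𝓤) (h : RepSES i q) (hfin' : Module.Finite k N')
    (hN : IsSmooth 𝓤 N) (hfin : Module.Finite k N)
    (hN'' : IsSmooth 𝓤 N'') (hfin'' : Module.Finite k N'')
    (hinj : A1Inj 𝓤 K N inv hN hfin) (hinj'' : A1Inj 𝓤 K N'' inv hN'' hfin'')
    (hsurj'' : A1Surj 𝓤 K N'' inv hN'' hfin'')
    [Module.Finite k (H1sm 𝓤 N')] [Module.Finite k (H1sm 𝓤 N)] [Module.Finite k (H1sm 𝓤 N'')]
    [Module.Finite k ↥(HH0 (homCx N'' K))] [Module.Finite k ↥(HH0 (homCx N K))]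
    [Module.Finite k ↥(HH0 (homCx N' K))] :
    (finrank k (H1sm 𝓤 N) : ℤ) - finrank k ↥(ddtInv N) - finrank k ↥(HH0 (homCx N K)) =
      ((finrank k (H1sm 𝓤 N') : ℤ) - finrank k ↥(ddtInv N') - finrank k ↥(HH0 (homCx N' K))) +
      ((finrank k (H1sm 𝓤 N'') : ℤ) - finrank k ↥(ddtInv N'') -
        finrank k ↥(HH0 (homCx N'' K))) := by
  have c1 := ecadd_hside 𝓤 h hN
  have c2 := ecadd_eside 𝓤 K hK h hN hfin
  have c3 := ecadd_ker_eq_coker 𝓤 K inv h hN hfin hN'' hfin'' hinj hinj'' hsurj''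
  omega

end ESide

/-! ### The `(-1)`-eigenspace of complex conjugation is exact (`p` odd) -/

section NegArch

variable {p : ℕ} [Fact p.Prime]

lemma ecadd_two_ne_zero (hp2 : p ≠ 2) : (2 : ZMod p) ≠ 0 := by
  intro h
  have h2 : ((2 : ℕ) : ZMod p) = 0 := by exact_mod_cast h
  have hdvd : p ∣ 2 := (ZMod.natCast_eq_zero_iff 2 p).1 h2
  exact hp2 ((Nat.prime_dvd_prime_iff_eq Fact.out Nat.prime_two).1 hdvd)

lemma ecadd_conj_conj (N : Rep.{0} (ZMod p) GQ) (n : N) :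
    N.ρ complexConjugation (N.ρ complexConjugation n) = n := by
  rw [← Module.End.mul_apply, ← map_mul, complexConjugation_mul_self, map_one]
  rfl

variable {N' N N'' : Rep.{0} (ZMod p) GQ} {i : N' →ₗ[ZMod p] N} {q : N →ₗ[ZMod p] N''}

/-- `q` on the `(-1)`-eigenspaces. -/
noncomputable def ecaddNegQ (h : RepSES i q) : ↥(negArch N) →ₗ[ZMod p] ↥(negArch N'') :=
  (q.comp (negArch N).subtype).codRestrict (negArch N'') fun n => by
    show N''.ρ complexConjugation (q n.1) = -(q n.1)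
    rw [← h.hq, show N.ρ complexConjugation n.1 = -n.1 from n.2, map_neg]

/-- `i` on the `(-1)`-eigenspaces. -/
noncomputable def ecaddNegI (h : RepSES i q) : ↥(negArch N') →ₗ[ZMod p] ↥(negArch N) :=
  (i.comp (negArch N').subtype).codRestrict (negArch N) fun n => by
    show N.ρ complexConjugation (i n.1) = -(i n.1)
    rw [← h.hi, show N'.ρ complexConjugation n.1 = -n.1 from n.2, map_neg]

lemma ecaddNegQ_surjective (h : RepSES i q) (hp2 : p ≠ 2) :
    Function.Surjective (ecaddNegQ h) := by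
  rintro ⟨n'', hn''⟩
  have hn''' : N''.ρ complexConjugation n'' = -n'' := hn''
  obtain ⟨n, rfl⟩ := h.surj n''
  have h2 := ecadd_two_ne_zero hp2
  have hmem : (2 : ZMod p)⁻¹ • (n - N.ρ complexConjugation n) ∈ negArch N := by
    show N.ρ complexConjugation ((2 : ZMod p)⁻¹ • (n - N.ρ complexConjugation n)) =
      -((2 : ZMod p)⁻¹ • (n - N.ρ complexConjugation n))
    rw [map_smul, map_sub, ecadd_conj_conj, ← smul_neg, neg_sub]
  refine ⟨⟨_, hmem⟩, Subtype.ext ?_⟩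
  show q ((2 : ZMod p)⁻¹ • (n - N.ρ complexConjugation n)) = q n
  rw [map_smul, map_sub, h.hq, hn''', sub_neg_eq_add, ← two_smul (ZMod p) (q n), smul_smul,
    inv_mul_cancel₀ h2, one_smul]

lemma ecaddNegI_injective (h : RepSES i q) : Function.Injective (ecaddNegI h) := by
  intro x y hxy
  apply Subtype.ext
  apply h.inj
  exact congrArg Subtype.val hxy

lemma ecadd_negArch_exact (h : RepSES i q) :
    LinearMap.ker (ecaddNegQ h) = LinearMap.range (ecaddNegI h) := by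
  ext n
  rw [LinearMap.mem_ker, LinearMap.mem_range]
  constructor
  · intro hn
    have h0 : q n.1 = 0 := congrArg Subtype.val hn
    obtain ⟨n', hn'⟩ := (h.exact _).1 h0
    have hmem : n' ∈ negArch N' := by
      show N'.ρ complexConjugation n' = -n'
      apply h.inj
      rw [h.hi, map_neg, hn']
      exact n.2
    exact ⟨⟨n', hmem⟩, Subtype.ext hn'⟩
  · rintro ⟨n', rfl⟩
    apply Subtype.ext
    exact h.q_i _

/-- `dim N^{c=-1}` is additive (`p` odd). -/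
theorem ecadd_negArch (h : RepSES i q) (hp2 : p ≠ 2) [Module.Finite (ZMod p) N] :
    finrank (ZMod p) ↥(negArch N) =
      finrank (ZMod p) ↥(negArch N') + finrank (ZMod p) ↥(negArch N'') := by
  have r := LinearMap.finrank_range_add_finrank_ker (ecaddNegQ h)
  have e1 : finrank (ZMod p) ↥(LinearMap.range (ecaddNegQ h)) =
      finrank (ZMod p) ↥(negArch N'') := by
    rw [LinearMap.range_eq_top.2 (ecaddNegQ_surjective h hp2), finrank_top]
  have e2 : finrank (ZMod p) ↥(LinearMap.ker (ecaddNegQ h)) =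
      finrank (ZMod p) ↥(negArch N') := by
    rw [ecadd_negArch_exact h]
    exact LinearMap.finrank_range_of_inj (ecaddNegI_injective h)
  omega

end NegArch

/-! ### Additivity of `Ψ` -/

section Psi

variable {p : ℕ} [Fact p.Prime]

lemma ecadd_H0glob_eq (N : Rep.{0} (ZMod p) GQ) : H0glob N = ddtInv N :=
  Submodule.ext fun _ => Iff.rfl

/-- **(A), generic form.**  `Ψ` is additive, for a smooth complex `KC` with an invariant map
for which `α¹` is bijective on all finite smooth modules, `H¹` is finite and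
`Hom_G(N, K_C)` is finite. -/
theorem psiAdditive_of (hp2 : p ≠ 2) (S : Finset Nat.Primes) (KC : Cx (ZMod p) GQ)
    (hK : KC.Smooth (levelsS S)) (inv : HH2 (levelsS S) KC →ₗ[ZMod p] ZMod p)
    (hinj : ∀ (N : Rep.{0} (ZMod p) GQ) (hN : IsSmooth (levelsS S) N)
      (hfin : Module.Finite (ZMod p) N), A1Inj (levelsS S) KC N inv hN hfin)
    (hsurj : ∀ (N : Rep.{0} (ZMod p) GQ) (hN : IsSmooth (levelsS S) N)
      (hfin : Module.Finite (ZMod p) N), A1Surj (levelsS S) KC N inv hN hfin)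
    (hH1 : ∀ (N : Rep.{0} (ZMod p) GQ), IsSmooth (levelsS S) N → Module.Finite (ZMod p) N →
      Module.Finite (ZMod p) (H1sm (levelsS S) N))
    (h0 : FiniteHom0 S KC) : PsiAdditive S KC := by
  intro A' A A'' f g hfin hA hf hg finj gsurj hex
  have h : RepSES f g :=
    ⟨hf, hg, finj, gsurj, fun n => by
      rw [← LinearMap.mem_ker, ← hex, LinearMap.mem_range]⟩
  have hA' : IsSmooth (levelsS S) A' := isSmooth_of_injective (levelsS S) f hf finj hA
  have hfin' : Module.Finite (ZMod p) A' := Module.Finite.of_injective f finj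
  have hA'' : IsSmooth (levelsS S) A'' := isSmooth_of_surjective (levelsS S) g hg gsurj hA
  have hfin'' : Module.Finite (ZMod p) A'' := Module.Finite.of_surjective g gsurj
  have i1 := hH1 A' hA' hfin'
  have i2 := hH1 A hA hfin
  have i3 := hH1 A'' hA'' hfin''
  have j1 := h0 A' hA' hfin'
  have j2 := h0 A hA hfin
  have j3 := h0 A'' hA'' hfin''
  have c1 := ecadd_psi0 (levelsS S) KC inv hK h hfin' hA hfin hA'' hfin''
    (hinj A hA hfin) (hinj A'' hA'' hfin'') (hsurj A'' hA'' hfin'')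
  have c2 := ecadd_negArch h hp2
  unfold psiK
  rw [ecadd_H0glob_eq, ecadd_H0glob_eq, ecadd_H0glob_eq]
  omega

/-- **(A)** `Ψ` is additive for the complex `D.KC` of a global datum. -/
theorem psiAdditive (hp2 : p ≠ 2) (S : Finset Nat.Primes) (D : GlobalDatum p S)
    (h0 : FiniteHom0 S D.KC) : PsiAdditive S D.KC :=
  psiAdditive_of hp2 S D.KC D.smoothC D.inv
    (fun N hN hfin =>
      ddt_inj_levels (levelsS S) D.KC D.smoothC D.inv D.a2inj D.a1surj D.a1inj N hN hfin)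
    (fun N hN hfin =>
      (ddt_primeTo (levelsS S) D.KC D.smoothC D.inv D.a2inj D.a1surj N hN hfin).2)
    (fun N hN hfin => finite_H1sm_primeTo (levelsS S) D.finH1 N hN hfin) h0

end Psi

end Fermat.Agent.S56.EC
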