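/-
S56, wall W2-EC, step 5, leaf EC5-U (helper54), part B: the logarithmic map of the `S`-units.

`L` a number field, `S` a set of primes of `L`, `X = S ⊔ {infinite places}`.
`sLog S : E_S → ℝ^X`, `u ↦ (-ord_v u)_{v ∈ S}, (mult w · log |u|_w)_{w | ∞}`:
* equivariant for the automorphisms of `L` (if `S` is stable);
* its kernel is the torsion of `E_S`;
* the constant vector `1` is not in the real span of the image (and no multiple of it is in the
  image);
* the image together with `1` spans `ℝ^X`.
-/
import Fermat.Agent.S56.W2.EC.ArtinTate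
import Fermat.Agent.S14.SI.SUnitRankZ
import Fermat.Agent.S14.SI.GalVal

set_option autoImplicit false

noncomputable section

namespace Fermat.Agent.S56.EC

open NumberField IsDedekindDomain Fermat.Agent.S14SI

variable {L : Type} [Field L] [NumberField L]

/-! ### The action of the automorphisms on the primes -/

/-- The prime `σ v`. -/
def galPr (σ : L ≃ₐ[ℚ] L) (v : HeightOneSpectrum (𝓞 L)) : HeightOneSpectrum (𝓞 L) :=
  HeightOneSpectrum.equivOfRingEquiv (RingOfIntegers.mapRingEquiv (σ : L ≃+* L)) v

theorem galPr_valuation (σ : L ≃ₐ[ℚ] L) (v : HeightOneSpectrum (𝓞 L)) (x : L) :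
    (galPr σ v).valuation L (σ x) = v.valuation L x :=
  valuation_equivOfRingEquiv (RingOfIntegers.mapRingEquiv (σ : L ≃+* L)) (σ : L ≃+* L)
    (fun _ => rfl) v x

theorem galPr_valuation' (σ : L ≃ₐ[ℚ] L) (v : HeightOneSpectrum (𝓞 L)) (x : L) :
    (galPr σ v).valuation L x = v.valuation L (σ.symm x) := by
  rw [← galPr_valuation σ v (σ.symm x), AlgEquiv.apply_symm_apply]

/-- A prime is determined by its valuation. -/
theorem heightOneSpectrum_ext_valuation {v w : HeightOneSpectrum (𝓞 L)}
    (h : ∀ x : L, v.valuation L x = w.valuation L x) : v = w := by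
  apply HeightOneSpectrum.ext
  ext r
  rw [← HeightOneSpectrum.valuation_lt_one_iff_mem (K := L), ←
    HeightOneSpectrum.valuation_lt_one_iff_mem (K := L), h]

theorem galPr_one (v : HeightOneSpectrum (𝓞 L)) : galPr (1 : L ≃ₐ[ℚ] L) v = v :=
  heightOneSpectrum_ext_valuation fun x => by
    rw [galPr_valuation']; rfl

theorem galPr_mul (σ τ : L ≃ₐ[ℚ] L) (v : HeightOneSpectrum (𝓞 L)) :
    galPr (σ * τ) v = galPr σ (galPr τ v) :=
  heightOneSpectrum_ext_valuation fun x => by
    rw [galPr_valuation', galPr_valuation', galPr_valuation']; rfl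

/-- A finite set of primes of `L` which is stable under the automorphisms of `L`. -/
structure GalStableSet (L : Type) [Field L] [NumberField L] where
  /-- the set of primes -/
  carrier : Set (HeightOneSpectrum (𝓞 L))
  finite : carrier.Finite
  stable : ∀ (σ : L ≃ₐ[ℚ] L), ∀ v ∈ carrier, galPr σ v ∈ carrier

/-- The places in `T`, together with the infinite places. -/
inductive PlaceX (T : GalStableSet L) : Type
  | fin (v : ↥T.carrier) : PlaceX T
  | inf (w : InfinitePlace L) : PlaceX T

namespace PlaceX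

variable (T : GalStableSet L)

/-- `PlaceX T` is a sum. -/
def equivSum : PlaceX T ≃ ↥T.carrier ⊕ InfinitePlace L where
  toFun
    | fin v => Sum.inl v
    | inf w => Sum.inr w
  invFun
    | Sum.inl v => fin v
    | Sum.inr w => inf w
  left_inv := by rintro (v | w) <;> rfl
  right_inv := by rintro (v | w) <;> rfl

instance instFinite : Finite (PlaceX T) := by
  have : Finite ↥T.carrier := T.finite
  exact Finite.of_equiv _ (equivSum T).symm

instance instFintype : Fintype (PlaceX T) := Fintype.ofFinite _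

instance instNonempty : Nonempty (PlaceX T) := ⟨inf (Classical.arbitrary _)⟩

/-- The action of an automorphism on the places. -/
def act (σ : L ≃ₐ[ℚ] L) : PlaceX T → PlaceX T
  | fin v => fin ⟨galPr σ v.1, T.stable σ v.1 v.2⟩
  | inf w => inf (σ • w)

instance instMulAction : MulAction (L ≃ₐ[ℚ] L) (PlaceX T) where
  smul := act T
  one_smul := by
    rintro (v | w)
    · show act T 1 (fin v) = fin v
      simp only [act, galPr_one]
    · show act T 1 (inf w) = inf w
      simp only [act, one_smul]
  mul_smul := by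
    rintro σ τ (v | w)
    · show act T (σ * τ) (fin v) = act T σ (act T τ (fin v))
      simp only [act, galPr_mul]
    · show act T (σ * τ) (inf w) = act T σ (act T τ (inf w))
      simp only [act, mul_smul]

@[simp] lemma smul_fin (σ : L ≃ₐ[ℚ] L) (v : ↥T.carrier) :
    (σ • (fin v : PlaceX T)) = fin ⟨galPr σ v.1, T.stable σ v.1 v.2⟩ := rfl

@[simp] lemma smul_inf (σ : L ≃ₐ[ℚ] L) (w : InfinitePlace L) :
    (σ • (inf w : PlaceX T)) = inf (σ • w) := rfl

end PlaceX

/-! ### The action on the `S`-units -/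

/-- The action of an automorphism on the `S`-units (additive form). -/
def galU (T : GalStableSet L) (σ : L ≃ₐ[ℚ] L) :
    Additive ↥(sUnits L T.carrier) →+ Additive ↥(sUnits L T.carrier) :=
  MonoidHom.toAdditive
    { toFun := fun u => ⟨Units.map (σ : L →* L) u.1, fun v hv => by
        have hv' : galPr σ⁻¹ v ∉ T.carrier := fun h => hv (by
          have := T.stable σ _ h
          rwa [← galPr_mul, mul_inv_cancel, galPr_one] at this)
        have h1 := u.2 (galPr σ⁻¹ v) hv'
        have h2 : (galPr σ⁻¹ v).valuation L ((u.1 : Lˣ) : L) =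
            v.valuation L (σ ((u.1 : Lˣ) : L)) := by
          have := galPr_valuation σ⁻¹ v (σ ((u.1 : Lˣ) : L))
          rwa [show σ⁻¹ (σ ((u.1 : Lˣ) : L)) = ((u.1 : Lˣ) : L) from
            σ.symm_apply_apply _] at this
        rw [h2] at h1
        exact h1⟩
      map_one' := by ext; simp
      map_mul' := fun a b => by ext; simp }

@[simp] lemma galU_coe (T : GalStableSet L) (σ : L ≃ₐ[ℚ] L)
    (u : Additive ↥(sUnits L T.carrier)) :
    (((galU T σ u).toMul : Lˣ) : L) = σ ((u.toMul : Lˣ) : L) := rfl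

lemma galU_one (T : GalStableSet L) (u : Additive ↥(sUnits L T.carrier)) : galU T 1 u = u := by
  apply Additive.toMul.injective
  apply Subtype.ext
  apply Units.ext
  rfl

lemma galU_mul (T : GalStableSet L) (σ τ : L ≃ₐ[ℚ] L) (u : Additive ↥(sUnits L T.carrier)) :
    galU T (σ * τ) u = galU T σ (galU T τ u) := by
  apply Additive.toMul.injective
  apply Subtype.ext
  apply Units.ext
  rfl

/-! ### The logarithmic map -/

/-- The logarithmic map of the `S`-units, as a function. -/
def sLogFun (T : GalStableSet L) (u : Additive ↥(sUnits L T.carrier)) : PlaceX T → ℝ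
  | PlaceX.fin v => ((sUnitOrd T.carrier u v : ℤ) : ℝ)
  | PlaceX.inf w => (w.mult : ℝ) * Real.log (w ((u.toMul : Lˣ) : L))

/-- The logarithmic map of the `S`-units. -/
def sLog (T : GalStableSet L) : Additive ↥(sUnits L T.carrier) →+ (PlaceX T → ℝ) where
  toFun := sLogFun T
  map_zero' := by
    funext x
    rcases x with v | w
    · simp [sLogFun]
    · simp [sLogFun]
  map_add' u u' := by
    funext x
    rcases x with v | w
    · simp [sLogFun]
    · have h1 : ((u.toMul : Lˣ) : L) ≠ 0 := Units.ne_zero _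
      have h2 : ((u'.toMul : Lˣ) : L) ≠ 0 := Units.ne_zero _
      simp only [sLogFun, Pi.add_apply, toMul_add, Subgroup.coe_mul, Units.val_mul, map_mul]
      rw [Real.log_mul, mul_add]
      · exact (InfinitePlace.pos_iff.mpr h1).ne'
      · exact (InfinitePlace.pos_iff.mpr h2).ne'

@[simp] lemma sLog_fin (T : GalStableSet L) (u : Additive ↥(sUnits L T.carrier))
    (v : ↥T.carrier) :
    sLog T u (PlaceX.fin v) = ((sUnitOrd T.carrier u v : ℤ) : ℝ) := rfl

@[simp] lemma sLog_inf (T : GalStableSet L) (u : Additive ↥(sUnits L T.carrier))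
    (w : InfinitePlace L) :
    sLog T u (PlaceX.inf w) = (w.mult : ℝ) * Real.log (w ((u.toMul : Lˣ) : L)) := rfl

/-! ### Equivariance -/

lemma sUnitOrd_eq_of_valuation_eq (T : GalStableSet L) (u u' : Additive ↥(sUnits L T.carrier))
    (v v' : ↥T.carrier)
    (h : (v : HeightOneSpectrum (𝓞 L)).valuation L ((u.toMul : Lˣ) : L) =
      (v' : HeightOneSpectrum (𝓞 L)).valuation L ((u'.toMul : Lˣ) : L)) :
    sUnitOrd T.carrier u v = sUnitOrd T.carrier u' v' := by
  rw [sUnitOrd_apply, sUnitOrd_apply]
  congr 1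
  have h1 := HeightOneSpectrum.valuationOfNeZero_eq (K := L) (v : HeightOneSpectrum (𝓞 L))
    (u.toMul : Lˣ)
  have h2 := HeightOneSpectrum.valuationOfNeZero_eq (K := L) (v' : HeightOneSpectrum (𝓞 L))
    (u'.toMul : Lˣ)
  rw [← h1, ← h2] at h
  exact WithZero.coe_injective h

lemma mult_galSmul (σ : L ≃ₐ[ℚ] L) (w : InfinitePlace L) : (σ • w).mult = w.mult := by
  unfold InfinitePlace.mult
  rw [InfinitePlace.isReal_smul_iff]

/-- The logarithmic map is equivariant. -/
theorem sLog_galU (T : GalStableSet L) (σ : L ≃ₐ[ℚ] L) (u : Additive ↥(sUnits L T.carrier)) :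
    sLog T (galU T σ u) = permFun σ (sLog T u) := by
  funext x
  rw [permFun_apply]
  rcases x with v | w
  · rw [PlaceX.smul_fin, sLog_fin, sLog_fin]
    congr 1
    refine sUnitOrd_eq_of_valuation_eq T _ _ _ _ ?_
    rw [galU_coe]
    have := galPr_valuation σ⁻¹ v.1 (σ ((u.toMul : Lˣ) : L))
    rw [show σ⁻¹ (σ ((u.toMul : Lˣ) : L)) = ((u.toMul : Lˣ) : L) from
      σ.symm_apply_apply _] at this
    exact this.symm
  · rw [PlaceX.smul_inf, sLog_inf, sLog_inf, mult_galSmul, InfinitePlace.smul_apply, galU_coe]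
    rfl

/-! ### The kernel -/

/-- An `S`-unit in the kernel of the logarithmic map is a root of unity. -/
theorem exists_nsmul_eq_zero_of_sLog_eq_zero (T : GalStableSet L) :
    ∃ N : ℕ, 0 < N ∧ ∀ u : Additive ↥(sUnits L T.carrier), sLog T u = 0 → N • u = 0 := by
  refine ⟨Units.torsionOrder L, Units.torsionOrder_pos L, fun u hu => ?_⟩
  -- `u` is a unit of `𝓞 L`
  have hker : u ∈ LinearMap.ker (sUnitOrd T.carrier) := by
    rw [LinearMap.mem_ker]
    funext v
    have := congrFun hu (PlaceX.fin v)
    rw [sLog_fin, Pi.zero_apply] at this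
    rw [Pi.zero_apply]
    exact_mod_cast this
  rw [← sUnitIncl_range] at hker
  obtain ⟨ε, rfl⟩ := hker
  -- `ε` is a root of unity
  have hε : ε.toMul ∈ Units.torsion L := by
    rw [Units.mem_torsion]
    intro w
    have := congrFun hu (PlaceX.inf w)
    rw [sLog_inf, sUnitIncl_apply_coe] at this
    exact NumberField.Units.dirichletUnitTheorem.mult_log_place_eq_zero.mp this
  have hpow : ε.toMul ^ Units.torsionOrder L = 1 := by
    have h1 : (⟨ε.toMul, hε⟩ : Units.torsion L) ^ Nat.card (Units.torsion L) = 1 :=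
      pow_card_eq_one'
    have h2 := congrArg Subtype.val h1
    rw [Units.torsionOrder]
    exact h2
  have : Units.torsionOrder L • ε = 0 := by
    apply Additive.toMul.injective
    rw [toMul_nsmul, hpow]
    rfl
  rw [← map_nsmul, this, map_zero]

/-! ### The constant vector is independent of the image -/

lemma valuation_lt_one_of_sUnitOrd_neg (T : GalStableSet L)
    (u : Additive ↥(sUnits L T.carrier)) (v : ↥T.carrier) (h : sUnitOrd T.carrier u v < 0) :
    (v : HeightOneSpectrum (𝓞 L)).valuation L ((u.toMul : Lˣ) : L) < 1 := by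
  rw [sUnitOrd_apply] at h
  rw [← HeightOneSpectrum.valuationOfNeZero_eq]
  have h1 : (v : HeightOneSpectrum (𝓞 L)).valuationOfNeZero (u.toMul : Lˣ) < 1 := by
    rw [← Multiplicative.toAdd_lt]
    exact h
  exact_mod_cast h1

lemma sLog_ne_const_neg (T : GalStableSet L) (u : Additive ↥(sUnits L T.carrier)) (c : ℝ)
    (hc : c < 0) (h : sLog T u = fun _ => c) : False := by
  -- `u` is integral
  have hval : ∀ v : HeightOneSpectrum (𝓞 L), v.valuation L ((u.toMul : Lˣ) : L) ≤ 1 := by
    intro v
    by_cases hv : v ∈ T.carrier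
    · refine (valuation_lt_one_of_sUnitOrd_neg T u ⟨v, hv⟩ ?_).le
      have := congrFun h (PlaceX.fin ⟨v, hv⟩)
      rw [sLog_fin] at this
      have h2 : ((sUnitOrd T.carrier u ⟨v, hv⟩ : ℤ) : ℝ) < 0 := by rw [this]; exact hc
      exact_mod_cast h2
    · exact (u.toMul.2 v hv).le
  obtain ⟨a, ha⟩ := HeightOneSpectrum.mem_integers_of_valuation_le_one L
    ((u.toMul : Lˣ) : L) hval
  have ha0 : a ≠ 0 := by
    rintro rfl
    rw [map_zero] at ha
    exact Units.ne_zero _ ha.symm
  have hw : ∀ w : InfinitePlace L, w (a : L) < 1 := by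
    intro w
    have := congrFun h (PlaceX.inf w)
    rw [sLog_inf] at this
    have hpos : 0 < w ((u.toMul : Lˣ) : L) := InfinitePlace.pos_iff.mpr (Units.ne_zero _)
    have hlog : Real.log (w ((u.toMul : Lˣ) : L)) < 0 := by
      by_contra hcon
      rw [not_lt] at hcon
      have : 0 ≤ (w.mult : ℝ) * Real.log (w ((u.toMul : Lˣ) : L)) :=
        mul_nonneg (Nat.cast_nonneg _) hcon
      linarith
    have := (Real.log_neg_iff hpos).mp hlog
    rwa [← ha] at this
  have h1 := InfinitePlace.one_le_of_lt_one (w := Classical.arbitrary (InfinitePlace L)) ha0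
    (fun z _ => hw z)
  exact absurd (hw _) (not_lt.mpr h1)

/-- No nonzero multiple of the constant vector `1` lies in the image of the logarithmic map. -/
theorem sLog_eq_const (T : GalStableSet L) (u : Additive ↥(sUnits L T.carrier)) (c : ℝ)
    (h : sLog T u = fun _ => c) : c = 0 := by
  rcases lt_trichotomy c 0 with hc | hc | hc
  · exact (sLog_ne_const_neg T u c hc h).elim
  · exact hc
  · refine (sLog_ne_const_neg T (-u) (-c) (by linarith) ?_).elim
    rw [map_neg, h]
    rfl

/-! ### Spanning -/

/-- For `v ∈ T` there is an `S`-unit with negative order at `v`, order `0` at the other primes,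
and nonnegative archimedean sum. -/
lemma exists_sUnit_generator (T : GalStableSet L) (v : ↥T.carrier) :
    ∃ a : Additive ↥(sUnits L T.carrier), sUnitOrd T.carrier a v < 0 ∧
      (∀ v' : ↥T.carrier, v' ≠ v → sUnitOrd T.carrier a v' = 0) ∧
      0 ≤ ∑ w : InfinitePlace L, (w.mult : ℝ) * Real.log (w ((a.toMul : Lˣ) : L)) := by
  obtain ⟨π, h, hh, hπ0, hπ⟩ := sUnit_exists_generator (v : HeightOneSpectrum (𝓞 L))
  have hπK : algebraMap (𝓞 L) L π ≠ 0 := by
    rw [Ne, map_eq_zero_iff _ (RingOfIntegers.coe_injective)]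
    exact hπ0
  have hmem : Units.mk0 (algebraMap (𝓞 L) L π) hπK ∈ sUnits L T.carrier := by
    intro w hw
    exact sUnit_valuation_generator_of_ne hπ (fun hwv => hw (hwv ▸ v.2))
  refine ⟨Additive.ofMul ⟨_, hmem⟩, ?_, ?_, ?_⟩
  · have hne : sUnitOrd T.carrier (Additive.ofMul ⟨_, hmem⟩) v ≠ 0 := by
      rw [Ne, sUnitOrd_apply_eq_zero_iff]
      exact sUnit_valuation_generator_self hh hπ
    have hle : sUnitOrd T.carrier (Additive.ofMul ⟨_, hmem⟩) v ≤ 0 := by
      rw [sUnitOrd_apply]
      have h1 : (v : HeightOneSpectrum (𝓞 L)).valuation L (algebraMap (𝓞 L) L π) ≤ 1 :=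
        HeightOneSpectrum.valuation_le_one _ _
      have h2 := HeightOneSpectrum.valuationOfNeZero_eq (K := L) (v : HeightOneSpectrum (𝓞 L))
        (Units.mk0 (algebraMap (𝓞 L) L π) hπK)
      rw [Units.val_mk0] at h2
      rw [← h2] at h1
      have h3 : (v : HeightOneSpectrum (𝓞 L)).valuationOfNeZero
          (Units.mk0 (algebraMap (𝓞 L) L π) hπK) ≤ 1 := by exact_mod_cast h1
      rw [← Multiplicative.toAdd_le] at h3
      exact h3
    exact lt_of_le_of_ne hle hne
  · intro w hw
    rw [sUnitOrd_apply_eq_zero_iff]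
    exact sUnit_valuation_generator_of_ne hπ (fun hwv => hw (Subtype.ext hwv))
  · show 0 ≤ ∑ w : InfinitePlace L, (w.mult : ℝ) * Real.log (w (algebraMap (𝓞 L) L π))
    have h1 : ∑ w : InfinitePlace L, (w.mult : ℝ) * Real.log (w (algebraMap (𝓞 L) L π)) =
        Real.log (∏ w : InfinitePlace L, w (algebraMap (𝓞 L) L π) ^ w.mult) := by
      rw [Real.log_prod]
      · refine Finset.sum_congr rfl fun w _ => ?_
        rw [Real.log_pow]
      · intro w _
        exact pow_ne_zero _ (InfinitePlace.pos_iff.mpr hπK).ne'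
    rw [h1, InfinitePlace.prod_eq_abs_norm]
    apply Real.log_nonneg
    have h2 : (1 : ℝ) ≤ |Algebra.norm ℚ (π : L)| := by
      rw [← Algebra.coe_norm_int, ← Int.cast_one, ← Int.cast_abs, Rat.cast_intCast, Int.cast_le]
      exact Int.one_le_abs (Algebra.norm_ne_zero_iff.mpr hπ0)
    exact_mod_cast h2

section Span

open NumberField.Units NumberField.Units.dirichletUnitTheorem

open scoped Classical

variable (T : GalStableSet L)

/-- The real span of the image of the logarithmic map and of the constant vector `1`. -/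
def logSpan : Submodule ℝ (PlaceX T → ℝ) :=
  Submodule.span ℝ (Set.range (sLog T) ∪ {fun _ => (1 : ℝ)})

lemma sLog_mem_logSpan (u : Additive ↥(sUnits L T.carrier)) : sLog T u ∈ logSpan T :=
  Submodule.subset_span (Or.inl ⟨u, rfl⟩)

lemma one_mem_logSpan : (fun _ => (1 : ℝ)) ∈ logSpan T :=
  Submodule.subset_span (Or.inr rfl)

/-- The vector `e_w - e_{w₀}`. -/
def infDiff (w : InfinitePlace L) : PlaceX T → ℝ
  | PlaceX.fin _ => 0
  | PlaceX.inf w' => (if w' = w then 1 else 0) - (if w' = w₀ then 1 else 0)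

/-- Extension of a vector of the `logSpace` to a vector on all places with sum `0`. -/
def extInf : logSpace L →ₗ[ℝ] (PlaceX T → ℝ) :=
  ∑ w' : {w : InfinitePlace L // w ≠ w₀},
    (LinearMap.proj (R := ℝ) (φ := fun _ : {w : InfinitePlace L // w ≠ w₀} => ℝ) w').smulRight
      (infDiff T w'.1)

lemma extInf_apply (g : logSpace L) (x : PlaceX T) :
    extInf T g x = ∑ w' : {w : InfinitePlace L // w ≠ w₀}, g w' * infDiff T w'.1 x := by
  simp [extInf, LinearMap.sum_apply, Finset.sum_apply]

/-- A vector with zero finite coordinates and zero archimedean sum is the extension of its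
restriction. -/
lemma eq_extInf (f : PlaceX T → ℝ) (hfin : ∀ v, f (PlaceX.fin v) = 0)
    (hsum : ∑ w : InfinitePlace L, f (PlaceX.inf w) = 0) :
    f = extInf T (fun w' => f (PlaceX.inf w'.1)) := by
  classical
  funext x
  rw [extInf_apply]
  rcases x with v | w
  · rw [hfin]
    simp [infDiff]
  · by_cases hw : w = w₀
    · subst hw
      have h1 : ∀ w' : {w : InfinitePlace L // w ≠ w₀},
          f (PlaceX.inf w'.1) * infDiff T w'.1 (PlaceX.inf w₀) = - f (PlaceX.inf w'.1) := by
        intro w'
        have e : infDiff T w'.1 (PlaceX.inf w₀) = -1 := by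
          show (if w₀ = w'.1 then (1 : ℝ) else 0) - (if w₀ = w₀ then 1 else 0) = -1
          rw [if_neg (fun h : w₀ = w'.1 => w'.2 h.symm), if_pos rfl]
          ring
        rw [e]
        ring
      simp only [h1, Finset.sum_neg_distrib]
      rw [Fintype.sum_eq_add_sum_subtype_ne _ (w₀ : InfinitePlace L)] at hsum
      linarith
    · have h1 : ∀ w' : {w : InfinitePlace L // w ≠ w₀},
          f (PlaceX.inf w'.1) * infDiff T w'.1 (PlaceX.inf w) =
            if w' = ⟨w, hw⟩ then f (PlaceX.inf w) else 0 := by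
        intro w'
        have e : infDiff T w'.1 (PlaceX.inf w) = if w = w'.1 then (1 : ℝ) else 0 := by
          show (if w = w'.1 then (1 : ℝ) else 0) - (if w = w₀ then 1 else 0) = _
          rw [if_neg hw, sub_zero]
        rw [e]
        by_cases h : w' = ⟨w, hw⟩
        · subst h
          simp
        · rw [if_neg h, if_neg (fun h' : w = w'.1 => h (Subtype.ext h'.symm)), mul_zero]
      simp only [h1]
      rw [Finset.sum_ite_eq' Finset.univ (⟨w, hw⟩ : {w : InfinitePlace L // w ≠ w₀})]
      simp

/-- The logarithmic map of a unit is the extension of Mathlib's logarithmic embedding. -/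
lemma sLog_sUnitIncl (ε : Additive (𝓞 L)ˣ) :
    sLog T (sUnitIncl T.carrier ε) = extInf T (logEmbedding L ε) := by
  refine eq_extInf T _ (fun v => ?_) ?_
  · rw [sLog_fin]
    have : sUnitIncl T.carrier ε ∈ LinearMap.ker (sUnitOrd T.carrier) := by
      rw [← sUnitIncl_range]
      exact LinearMap.mem_range_self _ _
    rw [LinearMap.mem_ker] at this
    rw [this]
    simp
  · exact sum_mult_mul_log ε.toMul

/-- Vectors with zero finite coordinates and zero archimedean sum are in the span
(Dirichlet's unit theorem). -/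
lemma mem_logSpan_of_sum_eq_zero (f : PlaceX T → ℝ) (hfin : ∀ v, f (PlaceX.fin v) = 0)
    (hsum : ∑ w : InfinitePlace L, f (PlaceX.inf w) = 0) : f ∈ logSpan T := by
  rw [eq_extInf T f hfin hsum]
  have hg : (fun w' : {w : InfinitePlace L // w ≠ w₀} => f (PlaceX.inf w'.1)) ∈
      Submodule.span ℝ (unitLattice L : Set (logSpace L)) := by
    rw [unitLattice_span_eq_top]
    exact Submodule.mem_top
  have h1 := Submodule.apply_mem_span_image_of_mem_span (extInf T) hg
  refine Submodule.span_le.mpr ?_ h1
  rintro _ ⟨g, hg', rfl⟩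
  obtain ⟨ε, -, rfl⟩ := hg'
  show extInf T (logEmbedding L ε) ∈ logSpan T
  rw [← sLog_sUnitIncl]
  exact sLog_mem_logSpan T _

/-- **The image of the logarithmic map and the constant vector `1` span `ℝ^X`.** -/
theorem logSpan_eq_top : logSpan T = ⊤ := by
  classical
  haveI : Fintype ↥T.carrier := T.finite.fintype
  choose a ha1 ha2 ha3 using exists_sUnit_generator T
  set c : ↥T.carrier → ℝ := fun v => ((sUnitOrd T.carrier (a v) v : ℤ) : ℝ) with hc
  have hcneg : ∀ v, c v < 0 := fun v => by
    have := ha1 v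
    simp only [hc]
    exact_mod_cast this
  have hkill : ∀ (f : PlaceX T → ℝ) (v0 : ↥T.carrier),
      (f - ∑ v, (f (PlaceX.fin v) / c v) • sLog T (a v)) (PlaceX.fin v0) = 0 := by
    intro f v0
    simp only [Pi.sub_apply, Finset.sum_apply, Pi.smul_apply, smul_eq_mul, sLog_fin]
    rw [Finset.sum_eq_single v0]
    · have : c v0 ≠ 0 := (hcneg v0).ne
      show f (PlaceX.fin v0) - f (PlaceX.fin v0) / c v0 * c v0 = 0
      field_simp
      ring
    · intro v _ hv
      rw [ha2 v v0 (Ne.symm hv)]
      simp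
    · intro h
      exact absurd (Finset.mem_univ v0) h
  have hsub : ∀ f : PlaceX T → ℝ,
      (f - ∑ v, (f (PlaceX.fin v) / c v) • sLog T (a v)) ∈ logSpan T → f ∈ logSpan T := by
    intro f hf
    have h1 : ∑ v, (f (PlaceX.fin v) / c v) • sLog T (a v) ∈ logSpan T :=
      Submodule.sum_mem _ fun v _ => Submodule.smul_mem _ _ (sLog_mem_logSpan T _)
    have := Submodule.add_mem _ hf h1
    simpa using this
  -- the vector `t`
  set t : PlaceX T → ℝ := (fun _ => (1 : ℝ)) - ∑ v, ((1 : ℝ) / c v) • sLog T (a v) with ht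
  have ht_mem : t ∈ logSpan T :=
    Submodule.sub_mem _ (one_mem_logSpan T)
      (Submodule.sum_mem _ fun v _ => Submodule.smul_mem _ _ (sLog_mem_logSpan T _))
  have ht_fin : ∀ v0, t (PlaceX.fin v0) = 0 := fun v0 => hkill (fun _ => 1) v0
  have ht_sum : 0 < ∑ w : InfinitePlace L, t (PlaceX.inf w) := by
    have h0 : ∑ w : InfinitePlace L, t (PlaceX.inf w) =
        Fintype.card (InfinitePlace L) - ∑ v, (1 / c v) *
          ∑ w : InfinitePlace L, (w.mult : ℝ) * Real.log (w (((a v).toMul : Lˣ) : L)) := by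
      simp only [ht, Pi.sub_apply, Finset.sum_apply, Pi.smul_apply, smul_eq_mul, sLog_inf,
        Finset.sum_sub_distrib, Finset.sum_const, Finset.card_univ, nsmul_eq_mul, mul_one]
      congr 1
      rw [Finset.sum_comm]
      refine Finset.sum_congr rfl fun v _ => ?_
      rw [Finset.mul_sum]
    rw [h0]
    have h1 : (0 : ℝ) < Fintype.card (InfinitePlace L) := by exact_mod_cast Fintype.card_pos
    have h2 : ∑ v, (1 / c v) *
        ∑ w : InfinitePlace L, (w.mult : ℝ) * Real.log (w (((a v).toMul : Lˣ) : L)) ≤ 0 :=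
      Finset.sum_nonpos fun v _ => mul_nonpos_of_nonpos_of_nonneg
        (div_neg_of_pos_of_neg one_pos (hcneg v)).le (ha3 v)
    linarith
  have hstep3 : ∀ f : PlaceX T → ℝ, (∀ v, f (PlaceX.fin v) = 0) → f ∈ logSpan T := by
    intro f hf
    set r : ℝ := (∑ w : InfinitePlace L, f (PlaceX.inf w)) /
      (∑ w : InfinitePlace L, t (PlaceX.inf w)) with hr
    have h1 : f - r • t ∈ logSpan T := by
      refine mem_logSpan_of_sum_eq_zero T _ (fun v => by simp [hf, ht_fin]) ?_
      simp only [Pi.sub_apply, Pi.smul_apply, smul_eq_mul, Finset.sum_sub_distrib,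
        ← Finset.mul_sum]
      rw [hr]
      field_simp
      ring
    have := Submodule.add_mem _ h1 (Submodule.smul_mem _ r ht_mem)
    simpa using this
  rw [eq_top_iff]
  intro f _
  exact hsub f (hstep3 _ (hkill f))

end Span

end Fermat.Agent.S56.EC
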