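/-
S56, wall W2-EC, step 5, leaf EC5-L (helper54), part D: permutation modules and trivial modules.

* `PermMod act R` : `R^X` with `(c • f) x = f ((act c)⁻¹ x)`, for `act : C →* Equiv.Perm X`;
  `permObj p act : FinCMod p C` : `𝔽_p^X`;
* `chiTop_permMod` : `χ(ℤ^X) = d(𝔽_p^X)`;
* `TrivMod C R` : `R` with the trivial action, `trivObj p C : FinCMod p C` : `𝔽_p`;
  `chiTop_trivMod` : `χ(ℤ) = d(𝔽_p)`;
* `IsAdditive.d_permObj_congr`, `IsAdditive.d_permObj_sum` : bookkeeping for `X ≃ Y`, `X ⊕ Y`.
-/
import Fermat.Agent.S56.W2.EC.ChiLemmas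

set_option autoImplicit false

noncomputable section

namespace Fermat.Agent.S56.EC

variable {p : ℕ} {C : Type} [Group C]

/-! ### Permutation modules -/

/-- The permutation module `R^X` of an action `act : C →* Equiv.Perm X`. -/
def PermMod {X : Type} (_act : C →* Equiv.Perm X) (R : Type) : Type := X → R

namespace PermMod

variable {X : Type} (act : C →* Equiv.Perm X) (R : Type) [AddCommGroup R]

instance : AddCommGroup (PermMod act R) := inferInstanceAs (AddCommGroup (X → R))

instance : DistribMulAction C (PermMod act R) where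
  smul c f := fun x => f ((act c)⁻¹ x)
  one_smul f := by
    funext x
    show f ((act 1)⁻¹ x) = f x
    rw [map_one, inv_one, Equiv.Perm.one_apply]
  mul_smul c c' f := by
    funext x
    show f ((act (c * c'))⁻¹ x) = f ((act c')⁻¹ ((act c)⁻¹ x))
    rw [map_mul, mul_inv_rev, Equiv.Perm.mul_apply]
  smul_zero c := rfl
  smul_add c f g := rfl

variable {act R}

lemma smul_apply (c : C) (f : PermMod act R) (x : X) : (c • f) x = f ((act c)⁻¹ x) := rfl

lemma add_apply (f g : PermMod act R) (x : X) : (f + g) x = f x + g x := rfl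

lemma zero_apply (x : X) : (0 : PermMod act R) x = 0 := rfl

lemma nsmul_apply (n : ℕ) (f : PermMod act R) (x : X) : (n • f) x = n • f x := rfl

omit [AddCommGroup R] in
@[ext] lemma ext {f g : PermMod act R} (h : ∀ x, f x = g x) : f = g := funext h

instance [Finite X] : Module.Finite ℤ (PermMod act ℤ) := by
  have h : AddGroup.FG (X → ℤ) := by
    have : Fintype X := Fintype.ofFinite X
    exact Module.Finite.iff_addGroup_fg.mp inferInstance
  exact Module.Finite.iff_addGroup_fg.mpr h

end PermMod

/-- `𝔽_p^X` as a `FinCMod`. -/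
def permObj (p : ℕ) [NeZero p] {X : Type} [Finite X] (act : C →* Equiv.Perm X) : FinCMod p C :=
  { carrier := PermMod act (ZMod p)
    isFinite := inferInstanceAs (Finite (X → ZMod p))
    killed := fun f => by
      funext x
      show p • f x = 0
      rw [nsmul_eq_mul, ZMod.natCast_self, zero_mul] }

/-- **`χ(ℤ^X) = d(𝔽_p^X)`.** -/
theorem chiTop_permMod [NeZero p] {d : FinCMod p C → ℤ} (hd : IsAdditive d) (hp : p ≠ 0)
    {X : Type} [Finite X] (act : C →* Equiv.Perm X) :
    chiTop d hp (PermMod act ℤ) = d (permObj p act) := by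
  let π : PermMod act ℤ →+ (permObj p act).carrier :=
    { toFun := fun f => (fun x => ((f x : ℤ) : ZMod p) : PermMod act (ZMod p))
      map_zero' := by
        funext x
        show (((0 : ℤ) : ZMod p)) = 0
        exact Int.cast_zero
      map_add' := fun f g => by
        funext x
        show (((f x + g x : ℤ)) : ZMod p) = (f x : ZMod p) + (g x : ZMod p)
        exact Int.cast_add _ _ }
  have hπ : ∀ (f : PermMod act ℤ) (x : X), (π f : PermMod act (ZMod p)) x = ((f x : ℤ) : ZMod p) :=
    fun _ _ => rfl
  have h1 : d (modObj (C := C) (PermMod act ℤ) hp) = d (permObj p act) := by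
    refine hd.d_modObj_eq hp (permObj p act) π ?_ (fun c f => rfl) ?_
    · intro g
      refine ⟨(fun x => ((g : PermMod act (ZMod p)) x).val : PermMod act ℤ), ?_⟩
      funext x
      show (((((g : PermMod act (ZMod p)) x).val : ℕ) : ℤ) : ZMod p) = (g : PermMod act (ZMod p)) x
      rw [Int.cast_natCast, ZMod.natCast_zmod_val]
    · intro f hf
      have hdiv : ∀ x, (p : ℤ) ∣ f x := by
        intro x
        rw [← ZMod.intCast_zmod_eq_zero_iff_dvd]
        have := congrFun hf x
        exact this
      refine ⟨(fun x => f x / (p : ℤ) : PermMod act ℤ), ?_⟩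
      funext x
      show p • (f x / (p : ℤ)) = f x
      rw [nsmul_eq_mul]
      exact Int.mul_ediv_cancel' (hdiv x)
  have h2 : d (torObj (C := C) (PermMod act ℤ) hp) = 0 := by
    refine hd.d_torObj_eq_zero hp (fun f hf => ?_)
    funext x
    have h := congrFun hf x
    have h' : p • f x = 0 := h
    rw [nsmul_eq_mul] at h'
    rcases mul_eq_zero.mp h' with h0 | h0
    · exact absurd (by exact_mod_cast h0) hp
    · exact h0
  rw [chiTop_eq, h1, h2, sub_zero]

/-- Equivariant bijections of the sets give the same class. -/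
theorem IsAdditive.d_permObj_congr [NeZero p] {d : FinCMod p C → ℤ} (hd : IsAdditive d)
    {X Y : Type} [Finite X] [Finite Y] (act : C →* Equiv.Perm X) (act' : C →* Equiv.Perm Y)
    (e : X ≃ Y) (he : ∀ (c : C) (x : X), e (act c x) = act' c (e x)) :
    d (permObj p act) = d (permObj p act') := by
  let φ : PermMod act (ZMod p) →+ PermMod act' (ZMod p) :=
    { toFun := fun f => (fun y => f (e.symm y) : PermMod act' (ZMod p))
      map_zero' := rfl
      map_add' := fun _ _ => rfl }
  have he' : ∀ (c : C) (y : Y), e.symm ((act' c)⁻¹ y) = (act c)⁻¹ (e.symm y) := by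
    intro c y
    apply (act c).injective
    apply e.injective
    have h1 : act' c ((act' c)⁻¹ y) = y := by
      rw [← Equiv.Perm.mul_apply, mul_inv_cancel, Equiv.Perm.one_apply]
    have h2 : act c ((act c)⁻¹ (e.symm y)) = e.symm y := by
      rw [← Equiv.Perm.mul_apply, mul_inv_cancel, Equiv.Perm.one_apply]
    rw [he, Equiv.apply_symm_apply, h1, h2, Equiv.apply_symm_apply]
  have h1 : ∀ (c : C) (f : PermMod act (ZMod p)), φ (c • f) = c • φ f := by
    intro c f
    funext y
    show f ((act c)⁻¹ (e.symm ((y)))) = f (e.symm ((act' c)⁻¹ y))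
    rw [he']
  have h2 : Function.Bijective φ := by
    constructor
    · intro f g hfg
      funext x
      have := congrFun hfg (e x)
      have h3 : f (e.symm (e x)) = g (e.symm (e x)) := this
      rwa [Equiv.symm_apply_apply] at h3
    · intro g
      refine ⟨(fun x => g (e x) : PermMod act (ZMod p)), ?_⟩
      funext y
      show g (e (e.symm y)) = g y
      rw [Equiv.apply_symm_apply]
  exact hd.eq_of_bijective (permObj p act) (permObj p act') φ h1 h2

/-- The action on a disjoint union. -/
def sumAct {X Y : Type} (act : C →* Equiv.Perm X) (act' : C →* Equiv.Perm Y) :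
    C →* Equiv.Perm (X ⊕ Y) :=
  (Equiv.Perm.sumCongrHom X Y).comp (act.prod act')

lemma sumAct_inl {X Y : Type} (act : C →* Equiv.Perm X) (act' : C →* Equiv.Perm Y) (c : C)
    (x : X) : sumAct act act' c (Sum.inl x) = Sum.inl (act c x) := rfl

lemma sumAct_inr {X Y : Type} (act : C →* Equiv.Perm X) (act' : C →* Equiv.Perm Y) (c : C)
    (y : Y) : sumAct act act' c (Sum.inr y) = Sum.inr (act' c y) := rfl

lemma sumAct_inv_inl {X Y : Type} (act : C →* Equiv.Perm X) (act' : C →* Equiv.Perm Y) (c : C)
    (x : X) : (sumAct act act' c)⁻¹ (Sum.inl x) = Sum.inl ((act c)⁻¹ x) := by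
  rw [← map_inv, sumAct_inl, map_inv]

lemma sumAct_inv_inr {X Y : Type} (act : C →* Equiv.Perm X) (act' : C →* Equiv.Perm Y) (c : C)
    (y : Y) : (sumAct act act' c)⁻¹ (Sum.inr y) = Sum.inr ((act' c)⁻¹ y) := by
  rw [← map_inv, sumAct_inr, map_inv]

/-- **`d(𝔽_p^{X ⊕ Y}) = d(𝔽_p^X) + d(𝔽_p^Y)`.** -/
theorem IsAdditive.d_permObj_sum [NeZero p] {d : FinCMod p C → ℤ} (hd : IsAdditive d)
    {X Y : Type} [Finite X] [Finite Y] (act : C →* Equiv.Perm X) (act' : C →* Equiv.Perm Y) :
    d (permObj p (sumAct act act')) = d (permObj p act) + d (permObj p act') := by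
  -- extension by zero from `X`, restriction to `Y`
  let i : PermMod act (ZMod p) →+ PermMod (sumAct act act') (ZMod p) :=
    { toFun := fun f => (fun z => Sum.elim f (fun _ => 0) z : PermMod (sumAct act act') (ZMod p))
      map_zero' := by
        funext z
        rcases z with x | y <;> rfl
      map_add' := fun f g => by
        funext z
        rcases z with x | y
        · rfl
        · show (0 : ZMod p) = 0 + 0
          rw [add_zero] }
  let q : PermMod (sumAct act act') (ZMod p) →+ PermMod act' (ZMod p) :=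
    { toFun := fun f => (fun y => f (Sum.inr y) : PermMod act' (ZMod p))
      map_zero' := rfl
      map_add' := fun _ _ => rfl }
  have h1 : ∀ (c : C) (f : PermMod act (ZMod p)), i (c • f) = c • i f := by
    intro c f
    funext z
    rcases z with x | y
    · show f ((act c)⁻¹ x) = Sum.elim f (fun _ => 0) ((sumAct act act' c)⁻¹ (Sum.inl x))
      rw [sumAct_inv_inl]
      rfl
    · show (0 : ZMod p) = Sum.elim f (fun _ => 0) ((sumAct act act' c)⁻¹ (Sum.inr y))
      rw [sumAct_inv_inr]
      rfl
  have h2 : ∀ (c : C) (f : PermMod (sumAct act act') (ZMod p)), q (c • f) = c • q f := by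
    intro c f
    funext y
    show f ((sumAct act act' c)⁻¹ (Sum.inr y)) = f (Sum.inr ((act' c)⁻¹ y))
    rw [sumAct_inv_inr]
  have h3 : Function.Injective i := by
    intro f g hfg
    funext x
    exact congrFun hfg (Sum.inl x)
  have h4 : Function.Surjective q := by
    intro g
    refine ⟨(fun z => Sum.elim (fun _ => 0) g z : PermMod (sumAct act act') (ZMod p)), ?_⟩
    funext y
    rfl
  have h5 : ∀ e : PermMod (sumAct act act') (ZMod p), q e = 0 ↔ e ∈ i.range := by
    intro e
    constructor
    · intro h
      refine ⟨(fun x => e (Sum.inl x) : PermMod act (ZMod p)), ?_⟩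
      funext z
      rcases z with x | y
      · rfl
      · show (0 : ZMod p) = e (Sum.inr y)
        exact (congrFun h y).symm
    · rintro ⟨f, rfl⟩
      funext y
      rfl
  exact hd (permObj p act) (permObj p (sumAct act act')) (permObj p act') i q h1 h2 h3 h4 h5

/-! ### Trivial modules -/

/-- `R` with the trivial action of `C`. -/
def TrivMod (_C : Type) (R : Type) : Type := R

namespace TrivMod

variable (C) (R : Type) [AddCommGroup R]

instance : AddCommGroup (TrivMod C R) := inferInstanceAs (AddCommGroup R)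

instance : DistribMulAction C (TrivMod C R) where
  smul _ x := x
  one_smul _ := rfl
  mul_smul _ _ _ := rfl
  smul_zero _ := rfl
  smul_add _ _ _ := rfl

variable {C R}

lemma smul_eq (c : C) (x : TrivMod C R) : c • x = x := rfl

/-- `R → TrivMod C R`. -/
def of : R →+ TrivMod C R := AddMonoidHom.id R

/-- `TrivMod C R → R`. -/
def val : TrivMod C R →+ R := AddMonoidHom.id R

@[simp] lemma val_of (r : R) : val (of (C := C) r) = r := rfl

@[simp] lemma of_val (x : TrivMod C R) : of (val x) = x := rfl

lemma val_injective : Function.Injective (val : TrivMod C R → R) := fun _ _ h => h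

instance : Module.Finite ℤ (TrivMod C ℤ) := by
  have h : AddGroup.FG ℤ := Module.Finite.iff_addGroup_fg.mp inferInstance
  exact Module.Finite.iff_addGroup_fg.mpr h

end TrivMod

/-- `𝔽_p` with the trivial action, as a `FinCMod`. -/
def trivObj (p : ℕ) [NeZero p] (C : Type) [Group C] : FinCMod p C :=
  { carrier := TrivMod C (ZMod p)
    isFinite := inferInstanceAs (Finite (ZMod p))
    killed := fun x => by
      apply TrivMod.val_injective
      rw [map_nsmul, map_zero, nsmul_eq_mul, ZMod.natCast_self, zero_mul] }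

/-- **`χ(ℤ) = d(𝔽_p)`** (trivial action). -/
theorem chiTop_trivMod [NeZero p] {d : FinCMod p C → ℤ} (hd : IsAdditive d) (hp : p ≠ 0) :
    chiTop d hp (TrivMod C ℤ) = d (trivObj p C) := by
  let π : TrivMod C ℤ →+ TrivMod C (ZMod p) :=
    (TrivMod.of (C := C) (R := ZMod p)).comp ((Int.castAddHom (ZMod p)).comp TrivMod.val)
  have hπ : ∀ n : TrivMod C ℤ, TrivMod.val (π n) = ((TrivMod.val n : ℤ) : ZMod p) := fun _ => rfl
  have h1 : d (modObj (C := C) (TrivMod C ℤ) hp) = d (trivObj p C) := by
    have hs : Function.Surjective π := by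
      intro g
      refine ⟨TrivMod.of (((TrivMod.val g : ZMod p).val : ℕ) : ℤ), ?_⟩
      apply TrivMod.val_injective
      rw [hπ, TrivMod.val_of, Int.cast_natCast, ZMod.natCast_zmod_val]
    have hk : ∀ n : TrivMod C ℤ, π n = 0 → ∃ m : TrivMod C ℤ, p • m = n := by
      intro n hn
      have hn' : ((TrivMod.val n : ℤ) : ZMod p) = 0 := by
        rw [← hπ, hn, map_zero]
      have hdiv : (p : ℤ) ∣ TrivMod.val n := (ZMod.intCast_zmod_eq_zero_iff_dvd _ _).mp hn'
      refine ⟨TrivMod.of (TrivMod.val n / (p : ℤ)), ?_⟩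
      apply TrivMod.val_injective
      rw [map_nsmul, TrivMod.val_of, nsmul_eq_mul]
      exact Int.mul_ediv_cancel' hdiv
    exact hd.d_modObj_eq hp (trivObj p C) π hs (fun c f => rfl) hk
  have h2 : d (torObj (C := C) (TrivMod C ℤ) hp) = 0 := by
    refine hd.d_torObj_eq_zero hp (fun n hn => ?_)
    apply TrivMod.val_injective
    have h' : p • (TrivMod.val n : ℤ) = 0 := by
      rw [← map_nsmul, hn, map_zero]
    rw [nsmul_eq_mul] at h'
    rcases mul_eq_zero.mp h' with h0 | h0
    · exact absurd (by exact_mod_cast h0) hp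
    · rw [h0, map_zero]
  rw [chiTop_eq, h1, h2, sub_zero]

end Fermat.Agent.S56.EC
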