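/-
S56, wall W2-EC, step 5, leaf EC5-U (helper54), part C: the equivariant `S`-unit theorem in
isogeny form (Artin–Tate, Herbrand).

`L` a number field, `T` a finite set of primes of `L` stable under the automorphisms of `L`,
`X = T ⊔ {infinite places}`, `E_T` the `T`-units.  There is an additive map
`F : ℤ^X → E_T × ℤ` which is injective, has finite index, and is equivariant for all
automorphisms of `L` (permutation action on `ℤ^X`, Galois action on `E_T`, trivial action on `ℤ`).

Consequence (with the lattice lemma, `LatticeMod.lean`): in the Grothendieck group of finite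
`𝔽_p[C]`-modules, `[E_T / p] - [E_T[p]] + [𝔽_p] = [𝔽_p[X]]`, for every group `C` acting on `L`.
-/
import Fermat.Agent.S56.W2.EC.UnitLog

set_option autoImplicit false

noncomputable section

namespace Fermat.Agent.S56.EC

open NumberField IsDedekindDomain Fermat.Agent.S14SI

variable {L : Type} [Field L] [NumberField L] (T : GalStableSet L)

/-- The lattice `log E_T + ℤ · 1` in `ℝ^X`. -/
def logLattice : AddSubgroup (PlaceX T → ℝ) :=
  (sLog T).range ⊔ AddSubgroup.zmultiples (fun _ => (1 : ℝ))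

lemma mem_logLattice_iff (v : PlaceX T → ℝ) :
    v ∈ logLattice T ↔
      ∃ (u : Additive ↥(sUnits L T.carrier)) (n : ℤ), v = sLog T u + n • (fun _ => (1 : ℝ)) := by
  unfold logLattice
  rw [AddSubgroup.mem_sup]
  constructor
  · rintro ⟨_, ⟨u, rfl⟩, z, hz, rfl⟩
    obtain ⟨n, rfl⟩ := AddSubgroup.mem_zmultiples_iff.mp hz
    exact ⟨u, n, rfl⟩
  · rintro ⟨u, n, rfl⟩
    exact ⟨_, ⟨u, rfl⟩, _, AddSubgroup.mem_zmultiples_iff.mpr ⟨n, rfl⟩, rfl⟩

lemma span_logLattice : Submodule.span ℝ (logLattice T : Set (PlaceX T → ℝ)) = ⊤ := by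
  rw [eq_top_iff, ← logSpan_eq_top T]
  unfold logSpan
  refine Submodule.span_mono ?_
  rintro v (⟨u, rfl⟩ | hv)
  · exact (mem_logLattice_iff T _).mpr ⟨u, 0, by simp⟩
  · rw [Set.mem_singleton_iff] at hv
    subst hv
    exact (mem_logLattice_iff T _).mpr ⟨0, 1, by simp⟩

lemma permFun_const (σ : L ≃ₐ[ℚ] L) (c : ℝ) :
    permFun σ (fun _ : PlaceX T => c) = fun _ => c := rfl

lemma permFun_mem_logLattice (σ : L ≃ₐ[ℚ] L) (v : PlaceX T → ℝ) (hv : v ∈ logLattice T) :
    permFun σ v ∈ logLattice T := by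
  obtain ⟨u, n, rfl⟩ := (mem_logLattice_iff T v).mp hv
  refine (mem_logLattice_iff T _).mpr ⟨galU T σ u, n, ?_⟩
  rw [permFun_add, sLog_galU]
  rfl

/-- Uniqueness of the decomposition in `log E_T + ℤ · 1`. -/
lemma logLattice_decomp_unique (u u' : Additive ↥(sUnits L T.carrier)) (n n' : ℤ)
    (h : sLog T u + n • (fun _ => (1 : ℝ)) = sLog T u' + n' • (fun _ => (1 : ℝ))) :
    n = n' ∧ sLog T (u - u') = 0 := by
  have h1 : sLog T (u - u') = fun _ => ((n' - n : ℤ) : ℝ) := by
    rw [map_sub]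
    funext x
    have := congrFun h x
    have e : ∀ k : ℤ, (k • (fun _ : PlaceX T => (1 : ℝ))) x = (k : ℝ) := fun k => by
      rw [Pi.smul_apply, zsmul_eq_mul, mul_one]
    rw [Pi.add_apply, Pi.add_apply, e, e] at this
    simp only [Pi.sub_apply, Int.cast_sub]
    linarith
  have h2 := sLog_eq_const T _ _ h1
  have h3 : n' - n = 0 := by exact_mod_cast h2
  refine ⟨by omega, ?_⟩
  rw [h1, h2]
  rfl

/-- **Equivariant `S`-unit theorem, family form**: there are `T`-units `u x` and integers `n x`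
(`x ∈ X`), permuted by the automorphisms of `L` (up to torsion, killed by `N`), such that the
vectors `log (u x) + n x · 1` are linearly independent. -/
theorem exists_sUnit_family :
    ∃ (N : ℕ) (u : PlaceX T → Additive ↥(sUnits L T.carrier)) (n : PlaceX T → ℤ), 0 < N ∧
      (∀ u₀ : Additive ↥(sUnits L T.carrier), sLog T u₀ = 0 → N • u₀ = 0) ∧
      (∀ (σ : L ≃ₐ[ℚ] L) (x : PlaceX T), N • galU T σ (u x) = N • u (σ • x)) ∧
      (∀ (σ : L ≃ₐ[ℚ] L) (x : PlaceX T), n (σ • x) = n x) ∧
      LinearIndependent ℝ (fun x => sLog T (u x) + n x • (fun _ : PlaceX T => (1 : ℝ))) := by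
  classical
  obtain ⟨N, hN, hker⟩ := exists_nsmul_eq_zero_of_sLog_eq_zero T
  haveI : Fintype (L ≃ₐ[ℚ] L) := Fintype.ofFinite _
  obtain ⟨y, hyM, hyeq, hyli⟩ := exists_equivariant_linearIndependent (C := L ≃ₐ[ℚ] L)
    (logLattice T) (span_logLattice T) (fun σ v hv => permFun_mem_logLattice T σ v hv)
  choose u n hun using fun x => (mem_logLattice_iff T (y x)).mp (hyM x)
  have hy : y = fun x => sLog T (u x) + n x • (fun _ : PlaceX T => (1 : ℝ)) := funext hun
  refine ⟨N, u, n, hN, hker, ?_, ?_, ?_⟩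
  · intro σ x
    have h1 := hyeq σ x
    rw [hun x, hun (σ • x), permFun_add, ← sLog_galU] at h1
    have h2 : permFun σ (n x • (fun _ : PlaceX T => (1 : ℝ))) =
        n x • (fun _ : PlaceX T => (1 : ℝ)) := rfl
    rw [h2] at h1
    obtain ⟨-, h3⟩ := logLattice_decomp_unique T _ _ _ _ h1
    have := hker _ h3
    rwa [nsmul_sub, sub_eq_zero] at this
  · intro σ x
    have h1 := hyeq σ x
    rw [hun x, hun (σ • x), permFun_add, ← sLog_galU] at h1
    have h2 : permFun σ (n x • (fun _ : PlaceX T => (1 : ℝ))) =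
        n x • (fun _ : PlaceX T => (1 : ℝ)) := rfl
    rw [h2] at h1
    exact (logLattice_decomp_unique T _ _ _ _ h1).1.symm
  · rw [← hy]
    exact hyli

end Fermat.Agent.S56.EC
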