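/-
S56, wall W2-EC, step 5, leaf EC5-U (helper54), part D: the equivariant `S`-unit theorem as a
map.  `exists_sUnit_isogeny T`: an additive map `F : ℤ^X → E_T × ℤ`, injective, of finite index,
equivariant for all automorphisms of `L`.
-/
import Fermat.Agent.S56.W2.EC.UnitIsogeny

set_option autoImplicit false

noncomputable section

namespace Fermat.Agent.S56.EC

open NumberField IsDedekindDomain Fermat.Agent.S14SI Module

variable {L : Type} [Field L] [NumberField L] (T : GalStableSet L)

/-- The map `ℤ^X → E_T × ℤ` attached to a family. -/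
def famMap (N : ℕ) (u : PlaceX T → Additive ↥(sUnits L T.carrier)) (n : PlaceX T → ℤ) :
    (PlaceX T → ℤ) →+ Additive ↥(sUnits L T.carrier) × ℤ where
  toFun a := (N • ∑ x, a x • u x, N * ∑ x, a x * n x)
  map_zero' := by simp
  map_add' a b := by
    refine Prod.ext ?_ ?_
    · show N • ∑ x, (a x + b x) • u x = N • ∑ x, a x • u x + N • ∑ x, b x • u x
      simp only [add_zsmul, Finset.sum_add_distrib, nsmul_add]
    · simp only [Pi.add_apply, add_mul, Finset.sum_add_distrib, mul_add, Prod.snd_add]

lemma famMap_fst (N : ℕ) (u : PlaceX T → Additive ↥(sUnits L T.carrier)) (n : PlaceX T → ℤ)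
    (a : PlaceX T → ℤ) : (famMap T N u n a).1 = N • ∑ x, a x • u x := rfl

lemma famMap_snd (N : ℕ) (u : PlaceX T → Additive ↥(sUnits L T.carrier)) (n : PlaceX T → ℤ)
    (a : PlaceX T → ℤ) : (famMap T N u n a).2 = N * ∑ x, a x * n x := rfl

/-- The rank of `E_T × ℤ` is the number of places in `X`. -/
lemma finrank_sUnits_prod :
    Module.Finite ℤ (Additive ↥(sUnits L T.carrier) × ℤ) ∧
      finrank ℤ (Additive ↥(sUnits L T.carrier) × ℤ) = Fintype.card (PlaceX T) := by
  classical
  obtain ⟨hfin, hrank⟩ := sUnitRankZ L T.carrier T.finite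
  haveI := hfin
  refine ⟨inferInstance, ?_⟩
  have h1 : finrank ℤ (Additive ↥(sUnits L T.carrier) × ℤ) =
      finrank ℤ (Additive ↥(sUnits L T.carrier)) + 1 := by
    have := Submodule.finrank_quotient_add_finrank
      (LinearMap.ker (LinearMap.snd ℤ (Additive ↥(sUnits L T.carrier)) ℤ))
    have e1 : finrank ℤ ((Additive ↥(sUnits L T.carrier) × ℤ) ⧸
        LinearMap.ker (LinearMap.snd ℤ (Additive ↥(sUnits L T.carrier)) ℤ)) = 1 := by
      rw [LinearEquiv.finrank_eq ((LinearMap.snd ℤ (Additive ↥(sUnits L T.carrier)) ℤ).quotKerEquivOfSurjective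
        LinearMap.snd_surjective)]
      exact Module.finrank_self ℤ
    have e2 : finrank ℤ (LinearMap.ker (LinearMap.snd ℤ (Additive ↥(sUnits L T.carrier)) ℤ)) =
        finrank ℤ (Additive ↥(sUnits L T.carrier)) := by
      rw [LinearMap.ker_snd]
      exact LinearMap.finrank_range_of_inj LinearMap.inl_injective
    rw [e1, e2] at this
    omega
  haveI : Fintype ↥T.carrier := T.finite.fintype
  have h2 : Fintype.card (PlaceX T) = Fintype.card ↥T.carrier + Fintype.card (InfinitePlace L) := by
    rw [Fintype.card_congr (PlaceX.equivSum T), Fintype.card_sum]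
  have h3 : T.carrier.ncard = Fintype.card ↥T.carrier := by
    rw [← Nat.card_coe_set_eq, Nat.card_eq_fintype_card]
  rw [h1, h2, hrank, h3, Nat.card_eq_fintype_card]
  omega

/-- **Equivariant `S`-unit theorem, isogeny form.** -/
theorem exists_sUnit_isogeny :
    ∃ F : (PlaceX T → ℤ) →+ Additive ↥(sUnits L T.carrier) × ℤ,
      Function.Injective F ∧
      (∀ (σ : L ≃ₐ[ℚ] L) (a : PlaceX T → ℤ),
        F (fun x => a (σ⁻¹ • x)) = (galU T σ (F a).1, (F a).2)) ∧
      F.range.FiniteIndex := by
  classical
  obtain ⟨N, u, n, hN, hker, hu, hn, hli⟩ := exists_sUnit_family T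
  have hinj : Function.Injective (famMap T N u n) := by
    rw [injective_iff_map_eq_zero]
    intro a ha
    have h1 : N • ∑ x, a x • u x = 0 := congrArg Prod.fst ha
    have h2 : (N : ℤ) * ∑ x, a x * n x = 0 := congrArg Prod.snd ha
    have h2' : ∑ x, a x * n x = 0 := by
      rcases mul_eq_zero.mp h2 with h | h
      · exact absurd (by exact_mod_cast h) hN.ne'
      · exact h
    have h1' : ∑ x, (a x : ℝ) • sLog T (u x) = 0 := by
      have := congrArg (sLog T) h1
      rw [map_nsmul, map_sum, map_zero] at this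
      simp only [map_zsmul] at this
      have hN' : (N : ℝ) ≠ 0 := by exact_mod_cast hN.ne'
      have h3 : (N : ℝ) • ∑ x, (a x : ℝ) • sLog T (u x) = 0 := by
        rw [← this, Nat.cast_smul_eq_nsmul]
        congr 1
        refine Finset.sum_congr rfl fun x _ => ?_
        rw [Int.cast_smul_eq_zsmul]
      exact (smul_eq_zero.mp h3).resolve_left hN'
    have h3 : ∑ x, (a x : ℝ) • (sLog T (u x) + n x • (fun _ : PlaceX T => (1 : ℝ))) = 0 := by
      simp only [smul_add, Finset.sum_add_distrib, h1', zero_add]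
      have : ∀ x, (a x : ℝ) • n x • (fun _ : PlaceX T => (1 : ℝ)) =
          ((a x * n x : ℤ) : ℝ) • (fun _ : PlaceX T => (1 : ℝ)) := by
        intro x
        rw [← Int.cast_smul_eq_zsmul ℝ (n x), smul_smul, Int.cast_mul]
      simp only [this, ← Finset.sum_smul, ← Int.cast_sum, h2', Int.cast_zero, zero_smul]
    have h4 := Fintype.linearIndependent_iff.mp hli (fun x => (a x : ℝ)) h3
    funext x
    exact_mod_cast h4 x
  refine ⟨famMap T N u n, hinj, ?_, ?_⟩
  · intro σ a
    refine Prod.ext ?_ ?_
    · show N • ∑ x, a (σ⁻¹ • x) • u x = galU T σ (N • ∑ x, a x • u x)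
      rw [map_nsmul, map_sum]
      simp only [map_zsmul]
      rw [← Finset.sum_nsmul, ← Finset.sum_nsmul]
      have hcomm : ∀ (k : ℤ) (v : Additive ↥(sUnits L T.carrier)), N • (k • v) = k • (N • v) := by
        intro k v
        rw [← natCast_zsmul, ← natCast_zsmul, smul_smul, smul_smul, mul_comm]
      refine Fintype.sum_equiv (MulAction.toPerm σ⁻¹) _ _ fun x => ?_
      simp only [MulAction.toPerm_apply]
      rw [hcomm, hcomm, hu σ (σ⁻¹ • x), smul_inv_smul]
    · show (N : ℤ) * ∑ x, a (σ⁻¹ • x) * n x = N * ∑ x, a x * n x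
      congr 1
      refine Fintype.sum_equiv (MulAction.toPerm σ⁻¹) _ _ fun x => ?_
      simp only [MulAction.toPerm_apply]
      have := hn σ (σ⁻¹ • x)
      rw [smul_inv_smul] at this
      rw [this]
  · -- finite index, from the ranks
    obtain ⟨hfin, hrank⟩ := finrank_sUnits_prod T
    haveI := hfin
    set F' : (PlaceX T → ℤ) →ₗ[ℤ] Additive ↥(sUnits L T.carrier) × ℤ :=
      (famMap T N u n).toIntLinearMap with hF'
    have hF'inj : Function.Injective F' := hinj
    have h1 : finrank ℤ (LinearMap.range F') = Fintype.card (PlaceX T) := by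
      rw [LinearMap.finrank_range_of_inj hF'inj, Module.finrank_fintype_fun_eq_card]
    have h2 := Submodule.finrank_quotient_add_finrank (LinearMap.range F')
    rw [h1, hrank] at h2
    have h3 : finrank ℤ ((Additive ↥(sUnits L T.carrier) × ℤ) ⧸ LinearMap.range F') = 0 := by
      omega
    have h4 : Module.IsTorsion ℤ ((Additive ↥(sUnits L T.carrier) × ℤ) ⧸ LinearMap.range F') :=
      Module.finrank_eq_zero_iff_isTorsion.mp h3
    have h5 : Finite ((Additive ↥(sUnits L T.carrier) × ℤ) ⧸ LinearMap.range F') :=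
      Module.finite_of_fg_torsion _ h4
    have h6 : (LinearMap.range F').toAddSubgroup = (famMap T N u n).range := by
      ext y
      simp [F']
    rw [← h6]
    exact @AddSubgroup.finiteIndex_of_finite_quotient _ _ _ h5

end Fermat.Agent.S56.EC
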