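/-
S56, wall W2-EC, step 5, leaf EC5-U/L (helper54), part E: the class of the `S`-units modulo `p`
(Dirichlet–Herbrand).

`L` a number field, `T` a finite set of primes of `L` stable under `Aut(L/ℚ)`, `C` a group acting on
`L` through `ρ : C →* (L ≃ₐ[ℚ] L)`, `d` an additive function on finite `𝔽_p[C]`-modules.  Then

  `d(E_T / p) - d(E_T[p]) + d(𝔽_p) = d(𝔽_p[T ⊔ S_∞(L)])`,

`E_T` the `T`-units of `L` (`unit_chi`); universal form `unit_class` (any `A ≅ E_T/p`, `B ≅ E_T[p]`).
-/
import Fermat.Agent.S56.W2.EC.PermMod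
import Fermat.Agent.S56.W2.EC.UnitIsogenyMap

set_option autoImplicit false

noncomputable section

namespace Fermat.Agent.S56.EC

open NumberField IsDedekindDomain Fermat.Agent.S14SI Module

variable {p : ℕ} {C : Type} [Group C]
variable {L : Type} [Field L] [NumberField L]

/-- The action of `C` on the places `T ⊔ S_∞(L)` through `ρ`. -/
def placeAct (T : GalStableSet L) (ρ : C →* (L ≃ₐ[ℚ] L)) : C →* Equiv.Perm (PlaceX T) :=
  (MulAction.toPermHom (L ≃ₐ[ℚ] L) (PlaceX T)).comp ρ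

lemma placeAct_apply (T : GalStableSet L) (ρ : C →* (L ≃ₐ[ℚ] L)) (c : C) (x : PlaceX T) :
    placeAct T ρ c x = ρ c • x := rfl

lemma placeAct_inv_apply (T : GalStableSet L) (ρ : C →* (L ≃ₐ[ℚ] L)) (c : C) (x : PlaceX T) :
    (placeAct T ρ c)⁻¹ x = (ρ c)⁻¹ • x := by
  rw [← map_inv, placeAct_apply, map_inv]

/-- The `T`-units of `L` as a `C`-module (written additively). -/
def UnitMod (T : GalStableSet L) (_ρ : C →* (L ≃ₐ[ℚ] L)) : Type :=
  Additive ↥(sUnits L T.carrier)

namespace UnitMod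

variable (T : GalStableSet L) (ρ : C →* (L ≃ₐ[ℚ] L))

instance : AddCommGroup (UnitMod T ρ) :=
  inferInstanceAs (AddCommGroup (Additive ↥(sUnits L T.carrier)))

/-- `E_T → UnitMod`. -/
def of : Additive ↥(sUnits L T.carrier) →+ UnitMod T ρ := AddMonoidHom.id _

/-- `UnitMod → E_T`. -/
def val : UnitMod T ρ →+ Additive ↥(sUnits L T.carrier) := AddMonoidHom.id _

variable {T ρ}

@[simp] lemma val_of (u : Additive ↥(sUnits L T.carrier)) : val T ρ (of T ρ u) = u := rfl

@[simp] lemma of_val (u : UnitMod T ρ) : of T ρ (val T ρ u) = u := rfl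

lemma val_injective : Function.Injective (val T ρ) := fun _ _ h => h

variable (T ρ)

instance : DistribMulAction C (UnitMod T ρ) where
  smul c u := of T ρ (galU T (ρ c) (val T ρ u))
  one_smul u := by
    show of T ρ (galU T (ρ 1) (val T ρ u)) = u
    rw [map_one, galU_one, of_val]
  mul_smul c c' u := by
    show of T ρ (galU T (ρ (c * c')) (val T ρ u)) =
      of T ρ (galU T (ρ c) (val T ρ (of T ρ (galU T (ρ c') (val T ρ u)))))
    rw [map_mul, galU_mul, val_of]
  smul_zero c := by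
    show of T ρ (galU T (ρ c) (val T ρ 0)) = 0
    rw [map_zero, map_zero, map_zero]
  smul_add c u v := by
    show of T ρ (galU T (ρ c) (val T ρ (u + v))) =
      of T ρ (galU T (ρ c) (val T ρ u)) + of T ρ (galU T (ρ c) (val T ρ v))
    rw [map_add, map_add, map_add]

variable {T ρ}

lemma smul_def (c : C) (u : UnitMod T ρ) : c • u = of T ρ (galU T (ρ c) (val T ρ u)) := rfl

lemma val_smul (c : C) (u : UnitMod T ρ) : val T ρ (c • u) = galU T (ρ c) (val T ρ u) := rfl

instance : Module.Finite ℤ (UnitMod T ρ) := by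
  obtain ⟨hfin, -⟩ := sUnitRankZ L T.carrier T.finite
  have h : AddGroup.FG (Additive ↥(sUnits L T.carrier)) := Module.Finite.iff_addGroup_fg.mp hfin
  exact Module.Finite.iff_addGroup_fg.mpr h

end UnitMod

/-- **Dirichlet–Herbrand modulo `p`**: `χ(E_T) + d(𝔽_p) = d(𝔽_p[T ⊔ S_∞])`. -/
theorem unit_chi [NeZero p] {d : FinCMod p C → ℤ} (hd : IsAdditive d) (hp : p ≠ 0)
    (T : GalStableSet L) (ρ : C →* (L ≃ₐ[ℚ] L)) :
    chiTop d hp (UnitMod T ρ) + d (trivObj p C) = d (permObj p (placeAct T ρ)) := by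
  obtain ⟨F, hFinj, hFeq, hFidx⟩ := exists_sUnit_isogeny T
  -- `F` as a map of `C`-modules
  let f : PermMod (placeAct T ρ) ℤ →+ UnitMod T ρ × TrivMod C ℤ :=
    ((UnitMod.of T ρ).prodMap (TrivMod.of (C := C) (R := ℤ))).comp F
  have hf : ∀ a : PermMod (placeAct T ρ) ℤ,
      f a = (UnitMod.of T ρ (F a).1, TrivMod.of (C := C) (F a).2) := fun _ => rfl
  have hfinj : Function.Injective f := hFinj
  have hfeq : ∀ (c : C) (a : PermMod (placeAct T ρ) ℤ), f (c • a) = c • f a := by
    intro c a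
    have h1 : (c • a : PermMod (placeAct T ρ) ℤ) = fun x => a ((ρ c)⁻¹ • x) := by
      funext x
      rw [PermMod.smul_apply, placeAct_inv_apply]
    rw [hf, h1, hFeq (ρ c) a]
    rfl
  have hfrange : f.range.index ≠ 0 := by
    have h2 : f.range = F.range := by
      ext y
      constructor
      · rintro ⟨a, rfl⟩
        exact ⟨a, rfl⟩
      · rintro ⟨a, rfl⟩
        exact ⟨a, rfl⟩
    have := hFidx
    have h3 : F.range.index ≠ 0 := AddSubgroup.FiniteIndex.index_ne_zero
    have h4 : f.range.index = F.range.index := by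
      rw [h2]
      rfl
    rw [h4]
    exact h3
  have key := chiTop_eq_of_injective hd hp f hfinj hfeq hfrange
  rw [chiTop_permMod hd hp, chiTop_prod hd hp, chiTop_trivMod hd hp] at key
  exact key.symm

/-- **Dirichlet–Herbrand modulo `p`, universal form.**  `A ≅ E_T / p`, `B ≅ E_T[p]`:
`d A - d B + d(𝔽_p) = d(𝔽_p[T ⊔ S_∞])`. -/
theorem unit_class [NeZero p] {d : FinCMod p C → ℤ} (hd : IsAdditive d)
    (T : GalStableSet L) (ρ : C →* (L ≃ₐ[ℚ] L)) (A B : FinCMod p C)
    (π : Additive ↥(sUnits L T.carrier) →+ A.carrier) (hπ : Function.Surjective π)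
    (hπC : ∀ (c : C) (u : Additive ↥(sUnits L T.carrier)), π (galU T (ρ c) u) = c • π u)
    (hπker : ∀ u : Additive ↥(sUnits L T.carrier), π u = 0 →
      ∃ w : Additive ↥(sUnits L T.carrier), p • w = u)
    (ι : B.carrier →+ Additive ↥(sUnits L T.carrier)) (hι : Function.Injective ι)
    (hιC : ∀ (c : C) (b : B.carrier), ι (c • b) = galU T (ρ c) (ι b))
    (hιrange : ∀ u : Additive ↥(sUnits L T.carrier), p • u = 0 → ∃ b : B.carrier, ι b = u) :
    d A - d B + d (trivObj p C) = d (permObj p (placeAct T ρ)) := by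
  have hp : p ≠ 0 := NeZero.ne p
  have h1 : d (modObj (C := C) (UnitMod T ρ) hp) = d A :=
    hd.d_modObj_eq hp A (π.comp (UnitMod.val T ρ)) (fun a => by
      obtain ⟨u, hu⟩ := hπ a
      exact ⟨UnitMod.of T ρ u, hu⟩) (fun c u => hπC c (UnitMod.val T ρ u)) (fun u hu => by
      obtain ⟨w, hw⟩ := hπker (UnitMod.val T ρ u) hu
      exact ⟨UnitMod.of T ρ w, hw⟩)
  have h2 : d (torObj (C := C) (UnitMod T ρ) hp) = d B :=
    hd.d_torObj_eq hp B ((UnitMod.of T ρ).comp ι) hι (fun c b => hιC c b) (fun u hu => by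
      obtain ⟨b, hb⟩ := hιrange (UnitMod.val T ρ u) hu
      exact ⟨b, hb⟩)
  have key := unit_chi hd hp T ρ
  rw [chiTop_eq, h1, h2] at key
  exact key

end Fermat.Agent.S56.EC
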