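/-
S56, wall W2-EC, leaf (F) (helper74; statement FIXED by helper58).

`Hom_G(N, K_C) = HH⁰(homCx N KC)` is finite for finite smooth `N`.

* `finhom_ptors_finite`  : the `p`-torsion of the smooth units of a field is finite;
* `finhom_kerd_finite`   : `ker d_K` is finite when `C[p]` is (`UCData p K C I Q`);
* `finhom_finite_coindPi`: `Hom_G(N, ∏ coInd K_i)` with `d = 0` is determined by the values at `1`
                           (Frobenius reciprocity in degree `0`), hence finite;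
* `finiteHom0`           : second-variable sequence (`ecl_finite_HH0_KC`, helper32).
-/
import Fermat.Agent.S56.W2.EC.Pack
import Fermat.Agent.S56.W2.EC.LowerAbs
import Fermat.Agent.F4.DDT.Basic
import Fermat.Agent.S56.W2.EC.Sh.Hom

set_option autoImplicit false
set_option linter.style.haveILetI false

namespace Fermat.Agent.S56.EC

open Fermat.Agent.F4 ExtCitation CategoryTheory groupCohomology

/-- The `p`-torsion of the smooth units of a field is finite. -/
lemma finhom_ptors_finite {Γ : Type} [Group Γ] {Ω : Type} [Field Ω] (𝓛 : Levels Γ)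
    (act : Γ →* RingAut Ω) (n : ℕ) (hn : n ≠ 0) :
    {x : smUnits 𝓛 act | (n : ℤ) • x = 0}.Finite := by
  haveI : NeZero n := ⟨hn⟩
  have hfin : ((rootsOfUnity n Ω : Subgroup Ωˣ) : Set Ωˣ).Finite :=
    Set.finite_coe_iff.1 (inferInstanceAs (Finite ↥(rootsOfUnity n Ω)))
  have hsub : {x : smUnits 𝓛 act | (n : ℤ) • x = 0} ⊆
      (smUnits.val (𝓛 := 𝓛) (act := act)) ⁻¹' ((rootsOfUnity n Ω : Subgroup Ωˣ) : Set Ωˣ) := by
    intro x hx
    have h1 : smUnits.val ((n : ℤ) • x) = 1 := by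
      rw [show (n : ℤ) • x = 0 from hx]; rfl
    rw [smUnits.val_zsmul, zpow_natCast] at h1
    exact (mem_rootsOfUnity n _).2 h1
  exact Set.Finite.subset (Set.Finite.preimage (smUnits.val_injective.injOn) hfin) hsub

/-- `ker d_K` is finite when the `p`-torsion of `C` is. -/
lemma finhom_kerd_finite {G : Type} [Group G] {p : ℕ} [Fact p.Prime] {K : Cx (ZMod p) G}
    {C I Q : Rep.{0} ℤ G} (dat : UCData p K C I Q)
    (hC : {c : C | (p : ℤ) • c = 0}.Finite) : {t : K.K0 | K.d t = 0}.Finite := by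
  have hsub : {t : K.K0 | K.d t = 0} ⊆ dat.i0 ⁻¹' (dat.ι '' {c : C | (p : ℤ) • c = 0}) := by
    intro t ht
    have h1 : dat.π (dat.i0 t) = 0 := by
      rw [dat.comm, show K.d t = 0 from ht, map_zero]
    obtain ⟨c, hc⟩ := (dat.exact _).1 h1
    refine ⟨c, ?_, hc⟩
    apply dat.ι_inj
    rw [map_zsmul, hc, ← map_zsmul, map_zero]
    have : (p : ℤ) • t = 0 := by
      rw [Int.cast_smul_eq_zsmul (ZMod p) (p : ℤ) t |>.symm]
      simp
    rw [this, map_zero]
  exact Set.Finite.subset (Set.Finite.preimage (dat.i0_inj.injOn) (hC.image _)) hsub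


section CoindPi

variable {k G : Type} [Field k] [Group G] {ι : Type} {D : ι → Type} [∀ i, Group (D i)]
  (r : ∀ i, D i →* G) (𝓤 : Levels G) (K : ∀ i, Cx k (D i)) (N : Rep.{0} k G)

/-- The value at `1` of the `i`-th component of `f n`. -/
def finhomEv (f : (homCx N (coindPiCx r 𝓤 K)).K0) (i : ι) (n : N) (g : G) : (K i).K0 :=
  coindPiFun0 r 𝓤 K (ecShOfHom N (coindPiCx r 𝓤 K) f n) i g

lemma finhomEv_ext {f f' : (homCx N (coindPiCx r 𝓤 K)).K0}
    (h : ∀ i n g, finhomEv r 𝓤 K N f i n g = finhomEv r 𝓤 K N f' i n g) : f = f' := by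
  refine LinearMap.ext fun n => funext fun i => Subtype.ext (funext fun g => ?_)
  exact h i n g

/-- Frobenius reciprocity: an equivariant map into `∏ coInd K` is determined by the values
at `1`. -/
lemma finhomEv_equivariant {f : (homCx N (coindPiCx r 𝓤 K)).K0}
    (hf : f ∈ HH0 (homCx N (coindPiCx r 𝓤 K))) (i : ι) (n : N) (g : G) :
    finhomEv r 𝓤 K N f i n g = finhomEv r 𝓤 K N f i (N.ρ g n) 1 := by
  have h1 := ((ecSh_mem_HH0_iff N (coindPiCx r 𝓤 K) f).1 hf).1 g n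
  have h2 : finhomEv r 𝓤 K N f i (N.ρ g n) 1 =
      coindPiFun0 r 𝓤 K ((coindPiCx r 𝓤 K).K0.ρ g (ecShOfHom N (coindPiCx r 𝓤 K) f n)) i 1 := by
    unfold finhomEv
    rw [h1]
  rw [h2]
  show _ = coindPiFun0 r 𝓤 K (ecShOfHom N (coindPiCx r 𝓤 K) f n) i (1 * g)
  rw [one_mul]
  rfl

lemma finhomEv_d {f : (homCx N (coindPiCx r 𝓤 K)).K0}
    (hf : f ∈ HH0 (homCx N (coindPiCx r 𝓤 K))) (i : ι) (n : N) (g : G) :
    (K i).d (finhomEv r 𝓤 K N f i n g) = 0 := by
  have h1 := ((ecSh_mem_HH0_iff N (coindPiCx r 𝓤 K) f).1 hf).2 n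
  have h2 := congrFun (congrArg Subtype.val (congrFun h1 i)) g
  exact h2

/-- `Hom_G(N, ∏ coInd K_i)` (with `d = 0`) is finite as soon as `N` and the `ker d_{K_i}` are. -/
theorem finhom_finite_coindPi [Finite ι] [Finite N]
    (hK : ∀ i, {t : (K i).K0 | (K i).d t = 0}.Finite) :
    Finite ↥(HH0 (homCx N (coindPiCx r 𝓤 K))) := by
  haveI : ∀ x : ι × N, Finite ↥{t : (K x.1).K0 | (K x.1).d t = 0} := fun x =>
    (hK x.1).to_subtype
  let Φ : ↥(HH0 (homCx N (coindPiCx r 𝓤 K))) →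
      (∀ x : ι × N, ↥{t : (K x.1).K0 | (K x.1).d t = 0}) :=
    fun f x => ⟨finhomEv r 𝓤 K N f.1 x.1 x.2 1, finhomEv_d r 𝓤 K N f.2 x.1 x.2 1⟩
  refine Finite.of_injective Φ ?_
  intro f f' h
  apply Subtype.ext
  apply finhomEv_ext r 𝓤 K N
  intro i n g
  rw [finhomEv_equivariant r 𝓤 K N f.2, finhomEv_equivariant r 𝓤 K N f'.2]
  exact congrArg Subtype.val (congrFun h (i, N.ρ g n))

end CoindPi

/-- `Hom_G(N, K_J)` is finite. -/
theorem finhom_finite_KJ {p : ℕ} [Fact p.Prime] {S : Finset Nat.Primes}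
    {hpS : pPrime p ∈ S} (Pk : ECPack p S hpS) (N : Rep.{0} (ZMod p) GQ)
    (hfin : Module.Finite (ZMod p) N) : Finite ↥(HH0 (homCx N Pk.KJ)) := by
  haveI : Finite N := Module.finite_of_finite (ZMod p)
  refine finhom_finite_coindPi (fun q : ↥S => primeLocalToGlobal q.1) (levelsS S)
    (fun q => (Pk.loc q).K) N fun q => ?_
  exact finhom_kerd_finite (Pk.P q).dat
    (finhom_ptors_finite _ _ p (Fact.out : p.Prime).ne_zero)

/-- **(F)** finiteness of `Hom_G(N, K_C)`. -/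
theorem finiteHom0 {p : ℕ} [Fact p.Prime] {S : Finset Nat.Primes}
    {hpS : pPrime p ∈ S} (Pk : ECPack p S hpS) : FiniteHom0 S Pk.KC := by
  intro N hN hfin
  haveI := hfin
  haveI : Finite ↥(HH0 (homCx N Pk.datum.KJ)) := finhom_finite_KJ Pk N hfin
  haveI : Module.Finite (ZMod p) ↥(HH0 (homCx N Pk.datum.KJ)) :=
    Module.Finite.of_finite
  haveI : Module.Finite (ZMod p) (homRep N (Fp1 p)) :=
    inferInstanceAs (Module.Finite (ZMod p) (N →ₗ[ZMod p] Fp1 p))
  exact ecl_finite_HH0_KC Pk.datum N hN hfin (homRep N (Fp1 p))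
    (homRep_smooth (levelsS S) N (Fp1 p) hN hfin (isSmooth_Fp1 S hpS))
    (LinearEquiv.refl (ZMod p) _) (fun g m n => rfl)

end Fermat.Agent.S56.EC
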