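/-
S56, wall W2-EC, step (E), local part (helper32; sub-architect helper58).

The two Shapiro inputs of `ecLowerAbs` (`EC/LowerAbs.lean`) from their sources:

* `EclSh1Inj D` : Shapiro in degree `1`, injectivity, for `D.KJ` (fact (R1) of helper1);
* `EclSh0Inj D` : Shapiro in degree `0` for `D.KJ`, as an injection of the product of the local
  `HH⁰` (fact (R2) of helper1);
* `ecl_hSh1` : `EclSh1Inj D` ⇒ the classes of `Ш¹_S(A)` die in `HH¹(Hom(A^*(1), KJ))`;
* `eclLocInj`, `ecl_hSh0` : `EclSh0Inj D` ⇒ `Σ_v dim H⁰(G_v, A) ≤ dim Hom_G(A^*(1), KJ)`;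
* `ecLower_of` : the conclusion of `ECLower` from `Ψ = 0`, `FiniteHom0`, `EclSh1Inj`, `EclSh0Inj`.
-/
import Fermat.Agent.S56.W2.EC.LowerAbs

set_option autoImplicit false
set_option linter.style.haveILetI false

open CategoryTheory groupCohomology ExtCitation Module

namespace Fermat.Agent.S56.EC

open Fermat.Agent.F4

variable {p : ℕ} [Fact p.Prime] {S : Finset Nat.Primes} (D : GlobalDatum p S)

/-- **Shapiro in degree `1`, injectivity** (the shape of `D.shapiro2`, one degree lower): a class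
of `HH¹(Hom(N, KJ))` which is locally trivial is trivial. -/
def EclSh1Inj : Prop :=
  ∀ (N : Rep.{0} (ZMod p) GQ), IsSmooth (levelsS S) N → Module.Finite (ZMod p) N →
    ∀ z : ↥(ZZ1 (levelsS S) (homCx N D.KJ)),
      (∀ q : ↥S, (homCxPost (Rep.res (primeLocalToGlobal q.1) N) (D.ev q)).onT1
            (resHomT1 (primeLocalToGlobal q.1) N D.KJ z.1)
          ∈ BB1 (homCx (Rep.res (primeLocalToGlobal q.1) N) (D.loc q).K)) →
        (z : T1 (homCx N D.KJ)) ∈ BB1 (homCx N D.KJ)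

/-- **Shapiro in degree `0`**: the product of the local `HH⁰` embeds into `HH⁰(Hom(N, KJ))`. -/
def EclSh0Inj : Prop :=
  ∀ (N : Rep.{0} (ZMod p) GQ), IsSmooth (levelsS S) N → Module.Finite (ZMod p) N →
    ∃ Φ : ((q : ↥S) → ↥(HH0 (homCx (Rep.res (primeLocalToGlobal q.1) N) (D.loc q).K)))
        →ₗ[ZMod p] ↥(HH0 (homCx N D.KJ)), Function.Injective Φ

section Sh1

variable {D}
variable (A : Rep.{0} (ZMod p) GQ)
  (θ : A ≃ₗ[ZMod p] (A.dualTwist (cycloChar p) →ₗ[ZMod p] Fp1 p))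
  (hθ : ∀ (g : GQ) (m : A) (m' : A.dualTwist (cycloChar p)),
    θ (A.ρ g m) m' = (Fp1 p).ρ g (θ m ((A.dualTwist (cycloChar p)).ρ g⁻¹ m')))

/-- The element `ε ∘ θ a` of `Hom(A^*(1), K_q⁰)`. -/
noncomputable def eclLocElt (q : ↥S) (a : A) :
    (homCx (Rep.res (primeLocalToGlobal q.1) (A.dualTwist (cycloChar p))) (D.loc q).K).K0 :=
  ((D.loc q).ε.f0 : Fp1 p →ₗ[ZMod p] (D.loc q).K.K0).comp (θ a)

lemma eclLocElt_apply (q : ↥S) (a : A) (n : A.dualTwist (cycloChar p)) :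
    (eclLocElt A θ q a : A.dualTwist (cycloChar p) →ₗ[ZMod p] (D.loc q).K.K0) n =
      (D.loc q).ε.f0 (θ a n) := rfl

include hθ in
/-- `h • (ε ∘ θ a) = ε ∘ θ (h a)`. -/
lemma eclLocElt_ρ (q : ↥S) (a : A) (h : primeLocalGaloisGroup q.1) :
    (homCx (Rep.res (primeLocalToGlobal q.1) (A.dualTwist (cycloChar p))) (D.loc q).K).K0.ρ h
        (eclLocElt A θ q a) =
      eclLocElt A θ q (A.ρ (primeLocalToGlobal q.1 h) a) := by
  refine LinearMap.ext fun n => ?_
  show (D.loc q).K.K0.ρ h ((D.loc q).ε.f0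
      (θ a ((A.dualTwist (cycloChar p)).ρ (primeLocalToGlobal q.1 h⁻¹) n))) =
    (D.loc q).ε.f0 (θ (A.ρ (primeLocalToGlobal q.1 h) a) n)
  rw [hθ, map_inv]
  exact ((D.loc q).ε.comm0 h
    (θ a ((A.dualTwist (cycloChar p)).ρ (primeLocalToGlobal q.1 h)⁻¹ n))).symm

/-- `d (ε ∘ θ a) = 0`. -/
lemma eclLocElt_d (q : ↥S) (a : A) :
    (homCx (Rep.res (primeLocalToGlobal q.1) (A.dualTwist (cycloChar p))) (D.loc q).K).d
      (eclLocElt A θ q a) = 0 := by
  refine LinearMap.ext fun n => ?_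
  have h1 := (D.loc q).ε.commd (θ a n)
  have h2 : (D.loc q).ε.f1 ((locMu p q.1).d (θ a n)) = 0 := map_zero _
  exact h1.symm.trans h2

/-- A class of `Ш¹_S(A)` restricts to a coboundary at every `q ∈ S`. -/
lemma ecl_sha_coboundary (y : ↥(Z1 (levelsS S) A))
    (hy : H1smπ (levelsS S) A y ∈ sha1sm S A) (q : ↥S) :
    ∃ a : A, ∀ h : primeLocalGaloisGroup q.1,
      y.1 (primeLocalToGlobal q.1 h) = A.ρ (primeLocalToGlobal q.1 h) a - a := by
  have h1 : locSm1Total S A (H1smπ (levelsS S) A y) = 0 := hy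
  have h2 : locSm1 S A q.1 (H1smπ (levelsS S) A y) = 0 := congrFun h1 q
  have h3 : H1smπ (locLevelsS S q.1) (Rep.res (primeLocalToGlobal q.1) A)
      (Z1res (levelsS S) A (primeLocalToGlobal q.1) y) = 0 := h2
  rw [H1smπ_eq_zero_iff] at h3
  obtain ⟨a, ha⟩ := h3
  exact ⟨a, fun h => (congrFun ha h).symm⟩

include hθ in
/-- **`hSh1`**: the classes of `Ш¹_S(A)` die in `HH¹(Hom(A^*(1), KJ))`. -/
theorem ecl_hSh1 (hR1 : EclSh1Inj D) (hA' : IsSmooth (levelsS S) (A.dualTwist (cycloChar p)))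
    (hfin' : Module.Finite (ZMod p) (A.dualTwist (cycloChar p)))
    (y : ↥(Z1 (levelsS S) A)) (hy : H1smπ (levelsS S) A y ∈ sha1sm S A) :
    (homCxPost (A.dualTwist (cycloChar p)) D.f).t1 (ptToHom1 θ y.1) ∈
      BB1 (homCx (A.dualTwist (cycloChar p)) D.KJ) := by
  have hz := hR1 _ hA' hfin' ((homCxPost (A.dualTwist (cycloChar p)) D.f).zz1 (levelsS S)
    ((eclPhi θ hθ).zz1 (levelsS S) ((ecaddZ1 (levelsS S) A).symm y))) (fun q => by
      obtain ⟨a, ha⟩ := ecl_sha_coboundary A y hy q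
      rw [mem_BB1_iff]
      refine ⟨eclLocElt A θ q a, ?_⟩
      rw [D0_apply, eclLocElt_d]
      refine Prod.ext (funext fun h => ?_) ?_
      · show (homCx (Rep.res (primeLocalToGlobal q.1) (A.dualTwist (cycloChar p)))
            (D.loc q).K).K0.ρ h (eclLocElt A θ q a) - eclLocElt A θ q a = _
        rw [eclLocElt_ρ A θ hθ]
        refine LinearMap.ext fun n => ?_
        show (D.loc q).ε.f0 (θ (A.ρ (primeLocalToGlobal q.1 h) a) n) -
            (D.loc q).ε.f0 (θ a n) =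
          (D.ev q).f0 (D.f.f0 (θ (y.1 (primeLocalToGlobal q.1 h)) n))
        have e1 : θ (y.1 (primeLocalToGlobal q.1 h)) n =
            θ (A.ρ (primeLocalToGlobal q.1 h) a) n - θ a n := by
          rw [ha h, map_sub, LinearMap.sub_apply]
        rw [D.ev_f, e1]
        exact (map_sub (D.loc q).ε.f0 _ _).symm
      · refine LinearMap.ext fun n => ?_
        have h0 : D.f.f1 (0 : (Cx.deg0 (Fp1 p)).K1) = 0 := map_zero _
        show (0 : (D.loc q).K.K1) =
          (D.ev q).f1 (show (D.KJ.res (primeLocalToGlobal q.1)).K1 from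
            D.f.f1 (0 : (Cx.deg0 (Fp1 p)).K1))
        rw [h0]
        exact (map_zero (D.ev q).f1).symm)
  have e : (((homCxPost (A.dualTwist (cycloChar p)) D.f).zz1 (levelsS S)
      ((eclPhi θ hθ).zz1 (levelsS S) ((ecaddZ1 (levelsS S) A).symm y)) :
        ↥(ZZ1 (levelsS S) (homCx (A.dualTwist (cycloChar p)) D.KJ))) :
          T1 (homCx (A.dualTwist (cycloChar p)) D.KJ)) =
      (homCxPost (A.dualTwist (cycloChar p)) D.f).t1 (ptToHom1 θ y.1) := by
    exact congrArg (homCxPost (A.dualTwist (cycloChar p)) D.f).t1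
      (eclHH1_symm_mk_coe (levelsS S) θ hθ y)
  rw [← e]
  exact hz

end Sh1

section Sh0

variable {D}
variable (A : Rep.{0} (ZMod p) GQ)
  (θ : A ≃ₗ[ZMod p] (A.dualTwist (cycloChar p) →ₗ[ZMod p] Fp1 p))
  (hθ : ∀ (g : GQ) (m : A) (m' : A.dualTwist (cycloChar p)),
    θ (A.ρ g m) m' = (Fp1 p).ρ g (θ m ((A.dualTwist (cycloChar p)).ρ g⁻¹ m')))

include hθ in
/-- `ε ∘ θ a ∈ Hom_{D_q}(A^*(1), K_q)` for `a ∈ H⁰(G_q, A)`. -/
lemma eclLocElt_mem (q : ↥S) (a : A) (ha : a ∈ H0loc A q.1) :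
    eclLocElt A θ q a ∈
      HH0 (homCx (Rep.res (primeLocalToGlobal q.1) (A.dualTwist (cycloChar p))) (D.loc q).K) := by
  rw [HH0, LinearMap.mem_ker, D0_apply, eclLocElt_d]
  refine Prod.ext (funext fun h => ?_) rfl
  show (homCx (Rep.res (primeLocalToGlobal q.1) (A.dualTwist (cycloChar p)))
      (D.loc q).K).K0.ρ h (eclLocElt A θ q a) - eclLocElt A θ q a = 0
  rw [eclLocElt_ρ A θ hθ, ha h, sub_self]

lemma eclLocElt_add (q : ↥S) (a b : A) :
    eclLocElt (D := D) A θ q (a + b) = eclLocElt A θ q a + eclLocElt A θ q b := by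
  refine LinearMap.ext fun n => ?_
  have e1 : θ (a + b) n = θ a n + θ b n := by rw [map_add, LinearMap.add_apply]
  show (D.loc q).ε.f0 (θ (a + b) n) = (D.loc q).ε.f0 (θ a n) + (D.loc q).ε.f0 (θ b n)
  rw [e1]
  exact map_add (D.loc q).ε.f0 _ _

lemma eclLocElt_smul (q : ↥S) (c : ZMod p) (a : A) :
    eclLocElt (D := D) A θ q (c • a) = c • eclLocElt A θ q a := by
  refine LinearMap.ext fun n => ?_
  have e1 : θ (c • a) n = c • θ a n := by rw [map_smul, LinearMap.smul_apply]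
  show (D.loc q).ε.f0 (θ (c • a) n) = c • (D.loc q).ε.f0 (θ a n)
  rw [e1]
  exact map_smul (D.loc q).ε.f0 _ _

lemma eclLocElt_injective (q : ↥S) : Function.Injective (eclLocElt (D := D) A θ q) := by
  intro a b hab
  refine θ.injective (LinearMap.ext fun n => ?_)
  exact (D.loc q).ε_inj (LinearMap.congr_fun hab n)

/-- The local injection `H⁰(G_q, A) → Hom_{D_q}(A^*(1), K_q)`, `a ↦ ε ∘ θ a`. -/
noncomputable def eclLocInj (q : ↥S) :
    ↥(H0loc A q.1) →ₗ[ZMod p]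
      ↥(HH0 (homCx (Rep.res (primeLocalToGlobal q.1) (A.dualTwist (cycloChar p)))
        (D.loc q).K)) where
  toFun a := ⟨eclLocElt A θ q a.1, eclLocElt_mem A θ hθ q a.1 a.2⟩
  map_add' a b := Subtype.ext (eclLocElt_add A θ q a.1 b.1)
  map_smul' c a := Subtype.ext (eclLocElt_smul A θ q c a.1)

lemma eclLocInj_injective (q : ↥S) : Function.Injective (eclLocInj (D := D) A θ hθ q) := by
  intro a b hab
  exact Subtype.ext (eclLocElt_injective A θ q (congrArg Subtype.val hab))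

include hθ in
/-- **`hSh0`**: `Σ_{v ∈ S} dim H⁰(G_v, A) ≤ dim Hom_G(A^*(1), KJ)`. -/
theorem ecl_hSh0 (hR0 : EclSh0Inj D) (hA' : IsSmooth (levelsS S) (A.dualTwist (cycloChar p)))
    (hfin' : Module.Finite (ZMod p) (A.dualTwist (cycloChar p)))
    [hfin : Module.Finite (ZMod p) A]
    (hJ : Module.Finite (ZMod p) ↥(HH0 (homCx (A.dualTwist (cycloChar p)) D.KJ))) :
    ∑ v ∈ S, finrank (ZMod p) ↥(H0loc A v) ≤
      finrank (ZMod p) ↥(HH0 (homCx (A.dualTwist (cycloChar p)) D.KJ)) := by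
  obtain ⟨Φ, hΦ⟩ := hR0 _ hA' hfin'
  have e1 : ∑ v ∈ S, finrank (ZMod p) ↥(H0loc A v) =
      ∑ q : ↥S, finrank (ZMod p) ↥(H0loc A q.1) :=
    (Finset.sum_coe_sort S (fun v => finrank (ZMod p) ↥(H0loc A v))).symm
  rw [e1, ← Module.finrank_pi_fintype (ZMod p) (M := fun q : ↥S => ↥(H0loc A q.1))]
  refine LinearMap.finrank_le_finrank_of_injective
    (f := Φ.comp (LinearMap.pi fun q : ↥S =>
      (eclLocInj (D := D) A θ hθ q).comp (LinearMap.proj q))) ?_
  refine hΦ.comp ?_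
  intro a b hab
  funext q
  exact eclLocInj_injective A θ hθ q (congrFun hab q)

end Sh0

/-- **(E), abstract form**: the conclusion of `ECLower` from Tate's formula `Ψ = 0`, the
finiteness of `Hom_G(-, KC)` and Shapiro's lemma for `KJ` in degrees `0` and `1`. -/
theorem ecLower_of (hp2 : p ≠ 2) (hpS : pPrime p ∈ S) (hR1 : EclSh1Inj D) (hR0 : EclSh0Inj D)
    (h0 : FiniteHom0 S D.KC) (hΨ : PsiZero S D.KC) (A : Rep.{0} (ZMod p) GQ)
    (hfin : Module.Finite (ZMod p) A) (hsm : IsSmooth (levelsS S) A) :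
    Finite (H1sm (levelsS S) (A.dualTwist (cycloChar p))) ∧
    Nat.card (H0glob (A.dualTwist (cycloChar p))) * Nat.card (sha1sm S A) *
        (∏ v ∈ S, Nat.card (H0loc A v)) * Nat.card (H0arch A)
      ≤ Nat.card (H1sm (levelsS S) (A.dualTwist (cycloChar p))) * Nat.card (H0glob A) := by
  have hA' : IsSmooth (levelsS S) (A.dualTwist (cycloChar p)) := isSmooth_dualTwist S hpS A hsm
  have hfin' : Module.Finite (ZMod p) (A.dualTwist (cycloChar p)) := by
    show Module.Finite (ZMod p) (Module.Dual (ZMod p) A)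
    infer_instance
  obtain ⟨θ, hθ⟩ := exists_dualTwistEquiv A
  have hC := h0 _ hA' hfin'
  have hJ : Module.Finite (ZMod p) ↥(HH0 (homCx (A.dualTwist (cycloChar p)) D.KJ)) :=
    ecl_finite_HH0_KJ D _ A θ hθ
  exact ecLowerAbs D hp2 hpS A hfin hsm θ hθ (hΨ _ hA' hfin') hC
    (ecl_hSh0 A θ hθ hR0 hA' hfin' hJ)
    (fun y hy => ecl_hSh1 A θ hθ hR1 hA' hfin' y hy)

end Fermat.Agent.S56.EC
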