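/-
S56, wall W2-EC, leaf (E) — DONE (helper32).  Statement FIXED (helper58).

`ECLower` from Tate's formula `Ψ = 0`.  With `N = A.dualTwist (cycloChar p)`, `A ≅ Hom(N, μ_p)`
(`exists_dualTwistEquiv`, `F4/PT/Bridge.lean`):
 * `h¹(N) = h⁰(N) + dim Hom_G(N, K_C) + dim N^{c = -1}`                       (`Ψ(N) = 0`);
 * `dim N^{c = -1} = dim A^{c = 1} = dim H0arch A`   (`cycloChar p complexConjugation = -1`);
 * second-variable long exact sequence of `0 → μ_p → KJ → KC → 0` in degrees `0, 1`: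
   `0 → Hom_G(N, μ_p) → Hom_G(N, KJ) → Hom_G(N, KC) → HH¹(homCx N μ_p) → HH¹(homCx N KJ)`, so
   `dim Hom_G(N, KC) = dim Hom_G(N, KJ) - dim Hom_G(N, μ_p) + dim ker(HH¹(N, μ_p) → HH¹(N, KJ))`;
 * `Hom_G(N, μ_p) ≅ H0glob A`;  `dim Hom_G(N, KJ) ≥ Σ_{v ∈ S} dim H0loc A v`  (Shapiro in degree 0
   for `KJ = ∏ coInd K_v`, and `ε_v : μ_p → K_v` injective);
 * `HH¹(homCx N μ_p) ≅ H¹(G_S, A)`, and the image of `sha1sm S A` dies in `HH¹(homCx N KJ)`
   (Shapiro in degree 1, injectivity, for `KJ = ∏ coInd K_v`);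
 * `Nat.card = p ^ finrank`.

Proof: `ecLowerAbs` (`EC/LowerAbs.lean`: the count), `ecLower_of` (`EC/LowerLoc.lean`: the two
Shapiro inputs in the shape needed), and Shapiro's lemma for `KJ` in degrees `0`, `1`
(`EC/Rich/Sh0.lean`, `EC/Rich/Sh1Inj.lean`, helper1).
-/
import Fermat.Agent.S56.W2.EC.Pack
import Fermat.Agent.S56.W2.EC.LowerLoc
import Fermat.Agent.S56.W2.EC.Rich.Sh0

set_option autoImplicit false

namespace Fermat.Agent.S56.EC

open Fermat.Agent.F4 ExtCitation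

/-- Shapiro in degree `1` (injectivity) for the datum of a pack. -/
lemma eclSh1Inj_pack {p : ℕ} [Fact p.Prime] {S : Finset Nat.Primes}
    {hpS : pPrime p ∈ S} (Pk : ECPack p S hpS) : EclSh1Inj Pk.datum :=
  fun N hN hfin z h => ecR_coind_shapiro1inj Pk.loc N hN hfin z h

/-- Shapiro in degree `0` for the datum of a pack. -/
lemma eclSh0Inj_pack {p : ℕ} [Fact p.Prime] {S : Finset Nat.Primes}
    {hpS : pPrime p ∈ S} (Pk : ECPack p S hpS) : EclSh0Inj Pk.datum :=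
  fun _ hN _ => ⟨(ecR_hh0KJ Pk.loc hN).symm.toLinearMap, (ecR_hh0KJ Pk.loc hN).symm.injective⟩

/-- **(E)** the lower bound `ECLower` from Tate's formula. -/
theorem ecLower_of_psiZero {p : ℕ} [Fact p.Prime] (hp2 : p ≠ 2) {S : Finset Nat.Primes}
    {hpS : pPrime p ∈ S} (Pk : ECPack p S hpS) (h0 : FiniteHom0 S Pk.KC)
    (hΨ : PsiZero S Pk.KC) (A : Rep.{0} (ZMod p) GQ) (hfin : Module.Finite (ZMod p) A)
    (hsm : IsSmooth (levelsS S) A) :
    Finite (H1sm (levelsS S) (A.dualTwist (cycloChar p))) ∧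
    Nat.card (H0glob (A.dualTwist (cycloChar p))) * Nat.card (sha1sm S A) *
        (∏ v ∈ S, Nat.card (H0loc A v)) * Nat.card (H0arch A)
      ≤ Nat.card (H1sm (levelsS S) (A.dualTwist (cycloChar p))) * Nat.card (H0glob A) :=
  ecLower_of Pk.datum hp2 hpS (eclSh1Inj_pack Pk) (eclSh0Inj_pack Pk) h0 hΨ A hfin hsm

end Fermat.Agent.S56.EC
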