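/-
S56, wall W2-EC (helper58): existence of the rich global datum `ECPack` — the proof of
`Fermat.Agent.F4Cf.globalDatum_of_packs` (`F4/Cf/Final.lean`), keeping the data.
-/
import Fermat.Agent.S56.W2.EC.Pack

set_option autoImplicit false

namespace Fermat.Agent.S56.EC

open Fermat.Agent.F4 Fermat.Agent.F4Cf ExtCitation CategoryTheory groupCohomology

variable {p : ℕ} [Fact p.Prime] {S : Finset Nat.Primes}

/-- Rescaling the invariants of a local pack. -/
noncomputable def rescalePack {φ : Fp1 p →+ EsRep S} {q : Nat.Primes} (P : LocPack p S φ q)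
    (c : (ZMod p)ˣ) : LocPack p S φ q where
  loc := rescaleLoc P.loc c
  I := P.I
  Q := P.Q
  dat := P.dat
  smoothI := P.smoothI
  compat := P.compat

set_option maxHeartbeats 3200000 in
/-- **The rich global datum exists** (LOC + GLOB). -/
theorem nonempty_ecPack (hp2 : p ≠ 2) (hpS : pPrime p ∈ S) : Nonempty (ECPack p S hpS) := by
  classical
  obtain ⟨φ, hinj, hcomm, hsurj⟩ := exists_rootMap (p := p) (S := S) hpS
  have hφ : IsRootMap φ := ⟨hinj, hcomm, hsurj⟩
  have P : ∀ q : ↥S, LocPack p S φ q.1 := fun q =>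
    (Fermat.Agent.F4.Loc.nonempty_locPack hpS φ hφ q.1).some
  -- the algebra
  have hQ := quotHyp_of_packs hpS hφ P
  have hIJ := smooth_piCoind (S := S) (fun q => (P q).I)
  have hIC : IsSmooth (levelsS S) hQ.IC := hQ.smoothIC hIJ
  have DC : UCData p (coindKC (fun q => (P q).loc) (isSmooth_Fp1 S hpS)) (Crep S) hQ.IC _ :=
    (Fermat.Agent.F4Cf.datJ (fun q => (P q).loc) (fun q => (P q).dat)
      (fun q => (P q).smoothI)).quot0 hQ
  -- the class formation
  have h := pcf_Crep p S hp2 hpS
  have hχ := exists_char_GQ (S := S) hp2 hpS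
  have hfin : ∀ U : Subgroup GQ, (levelsS S).IsOpen U → ¬ p ∣ U.index →
      Module.Finite (ZMod p) ↥(Z1 ((levelsS S).sub U) (Rep.trivial (ZMod p) ↥U (ZMod p))) := by
    intro U hU _
    have := Fermat.Agent.F4Fin.finH1 (p := p) S U hU
    exact Module.Finite.equiv (shH1Equiv U hU)
  -- the invariant
  obtain ⟨inv, hinv⟩ := exists_injective_of_KF1
    (DC.kF1_of_H1p0 hIC (h1slack h).h1p0 (f1sm h))
  -- reciprocity
  have hA2 : ∀ (W : Subgroup GQ) [Fintype (GQ ⧸ W)] (hW : (levelsS S).IsOpen W),
      A2InjU W (coindKC (fun q => (P q).loc) (isSmooth_Fp1 S hpS)) inv hW :=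
    fun W _ hW => a2injU_all DC hIC h inv hinv hχ hfin W hW
  have hT3 : T3 (coindDatum hpS (fun q => (P q).loc)) inv := by
    intro q
    obtain ⟨U, V, σ, j, hV, hc, hj, hsupp, hnn⟩ := dict_local hp2 hpS q
    exact t3_of_nonNorm hpS (fun q => (P q).loc) (fun q => (P q).dat) (fun q => (P q).smoothI)
      hQ h inv hA2 q U V σ hV hc j hj hsupp hnn
  obtain ⟨c, hc⟩ := exists_rescale_recip (coindDatum hpS (fun q => (P q).loc)) inv hT3
  -- the pack
  exact ⟨{ φ := φ
           hφ := hφ
           P := fun q => rescalePack (P q) (c q)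
           inv := inv
           inv_inj := hinv
           recip := fun z => by
             refine (hc z).trans (Finset.sum_congr rfl fun q _ => ?_)
             rfl
           a2inj := fun U hU hidx => a2inj_of_PCF DC hIC h inv hinv hχ U hU hidx
           a1surj := fun U hU hidx =>
             a1surj_of_PCF DC hIC h inv hinv hχ U hU hidx (hfin U hU hidx)
           a1inj := fun V hV =>
             a1inj_of_PCF DC hIC h inv hinv hχ hfin V ((levelsS S).isOpen_of_mem hV)
           finH1 := fun U hU _ => Fermat.Agent.F4Fin.finH1 (p := p) S U hU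
           pcf := h }⟩

end Fermat.Agent.S56.EC
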