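/-
S56, wall W2-EC (sub-architect: helper58): Tate's global Euler characteristic, in the form
`ECLower` of `S56/W2/Interfaces.lean`.  ASSEMBLY (sorry-free in this file).

  `ecLower`  ⇐  `nonempty_ecPack`     (EC/PackExists.lean: the rich global datum, LOC + GLOB)
             +  `finiteHom0`          (F, EC/FinHom.lean)
             +  `psiAdditive`         (A, EC/Additive.lean, helper32: DONE)
             +  `psiCoindZero`        (C + D, EC/Cyclic/Main.lean, helper56; Shapiro helper48,
                                       units helper54)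
             +  `brauerInduction`     (B, EC/Brauer/Main.lean, helper58)
             +  `psiZero_of`          (T, EC/Tate.lean: glue)
             +  `ecLower_of_psiZero`  (E, EC/Lower.lean).
Definitions: EC/Defs.lean (`psiK`, …), EC/Pack.lean (`ECPack`).
-/
import Fermat.Agent.F4.Glob.Main
import Fermat.Agent.S56.W2.EC.PackExists
import Fermat.Agent.S56.W2.EC.FinHom
import Fermat.Agent.S56.W2.EC.Additive
import Fermat.Agent.S56.W2.EC.Cyclic.Main
import Fermat.Agent.S56.W2.EC.Brauer.Main
import Fermat.Agent.S56.W2.EC.Tate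
import Fermat.Agent.S56.W2.EC.Lower

set_option autoImplicit false

namespace Fermat.Agent.S56

open Fermat.Agent.F4 ExtCitation

/-- **Wall W2-EC**. -/
theorem ecLower (p : ℕ) [Fact p.Prime] (hp2 : p ≠ 2) : ECLower p := by
  intro S A hpS hfin hsm
  obtain ⟨Pk⟩ := EC.nonempty_ecPack (p := p) (S := S) hp2 hpS
  have h0 := EC.finiteHom0 Pk
  have hA : EC.PsiAdditive S Pk.KC := EC.psiAdditive hp2 S Pk.datum h0
  have hΨ : EC.PsiZero S Pk.KC :=
    EC.psiZero_of hpS Pk.KC hA (EC.psiCoindZero hp2 Pk) (fun Γ _ _ => EC.brauerInduction p Γ)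
  exact EC.ecLower_of_psiZero hp2 Pk h0 hΨ A hfin hsm

end Fermat.Agent.S56
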