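/-
S56, wall W2-EC, step 5, leaf EC5-U (helper54), part A: the Artin–Tate lemma.

A full lattice `M` in the permutation representation `ℝ^X` of a finite group `C` which is stable
under `C` contains a permutation sublattice: there are `y x ∈ M` (`x ∈ X`), linearly independent,
with `c • y x = y (c • x)`.  (Proof: round `t • e_x` to `M`, average over `C`, diagonal dominance.)
-/
import Mathlib

set_option autoImplicit false

noncomputable section

namespace Fermat.Agent.S56.EC

open Finset

section Perm

variable {C X : Type*} [Group C] [MulAction C X]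

/-- The permutation action of `c` on functions: `(permFun c v) x = v (c⁻¹ • x)`. -/
def permFun (c : C) (v : X → ℝ) : X → ℝ := fun x => v (c⁻¹ • x)

@[simp] lemma permFun_apply (c : C) (v : X → ℝ) (x : X) : permFun c v x = v (c⁻¹ • x) := rfl

lemma permFun_one (v : X → ℝ) : permFun (1 : C) v = v := by
  funext x; simp

lemma permFun_mul (c d : C) (v : X → ℝ) : permFun (c * d) v = permFun c (permFun d v) := by
  funext x; simp [mul_smul]

lemma permFun_zero (c : C) : permFun c (0 : X → ℝ) = 0 := rfl

lemma permFun_add (c : C) (v w : X → ℝ) : permFun c (v + w) = permFun c v + permFun c w := rfl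

lemma permFun_neg (c : C) (v : X → ℝ) : permFun c (-v) = -permFun c v := rfl

lemma permFun_sub (c : C) (v w : X → ℝ) : permFun c (v - w) = permFun c v - permFun c w := rfl

lemma permFun_smul (c : C) (a : ℝ) (v : X → ℝ) : permFun c (a • v) = a • permFun c v := rfl

lemma permFun_sum {ι : Type*} (c : C) (s : Finset ι) (f : ι → X → ℝ) :
    permFun c (∑ i ∈ s, f i) = ∑ i ∈ s, permFun c (f i) := by
  funext x
  simp [Finset.sum_apply]

lemma permFun_single [DecidableEq X] (c : C) (x : X) (a : ℝ) :
    permFun c (Pi.single x a) = Pi.single (c • x) a := by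
  funext x'
  simp only [permFun_apply, Pi.single_apply]
  by_cases h : x' = c • x
  · subst h; simp
  · rw [if_neg h, if_neg]
    intro h'
    exact h (by rw [← h', smul_inv_smul])

/-- `permFun c` as a linear equivalence. -/
def permLin (c : C) : (X → ℝ) ≃ₗ[ℝ] (X → ℝ) where
  toFun := permFun c
  invFun := permFun c⁻¹
  map_add' := permFun_add c
  map_smul' := permFun_smul c
  left_inv v := by rw [← permFun_mul, inv_mul_cancel, permFun_one]
  right_inv v := by rw [← permFun_mul, mul_inv_cancel, permFun_one]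

@[simp] lemma permLin_apply (c : C) (v : X → ℝ) : permLin c v = permFun c v := rfl

lemma abs_permFun_le [Fintype X] (c : C) (v : X → ℝ) (x : X) : |permFun c v x| ≤ ‖v‖ := by
  rw [permFun_apply, ← Real.norm_eq_abs]
  exact norm_le_pi_norm v _

end Perm

section Main

variable {C X : Type*} [Group C] [MulAction C X] [Fintype C] [Fintype X]

/-- relative density of a spanning additive subgroup: every vector is at bounded distance. -/
theorem exists_bound_approx (M : AddSubgroup (X → ℝ))
    (hM : Submodule.span ℝ (M : Set (X → ℝ)) = ⊤) :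
    ∃ B : ℝ, 0 ≤ B ∧ ∀ v : X → ℝ, ∃ m ∈ M, ‖v - m‖ ≤ B := by
  classical
  have hs : ⊤ ≤ Submodule.span ℝ (M : Set (X → ℝ)) := hM.ge
  let b := Module.Basis.ofSpan hs
  have : Fintype ((linearIndepOn_empty ℝ id).extend (Set.empty_subset (M : Set (X → ℝ)))) :=
    FiniteDimensional.fintypeBasisIndex b
  have hbM : ∀ i, b i ∈ M := fun i => Module.Basis.ofSpan_subset hs ⟨i, rfl⟩
  have hle : Submodule.span ℤ (Set.range b) ≤ AddSubgroup.toIntSubmodule M := by
    rw [Submodule.span_le]
    rintro _ ⟨i, rfl⟩
    exact hbM i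
  refine ⟨∑ i, ‖b i‖, Finset.sum_nonneg fun i _ => norm_nonneg _, fun v => ?_⟩
  refine ⟨(ZSpan.floor b v : X → ℝ), hle (ZSpan.floor b v).2, ?_⟩
  have := ZSpan.norm_fract_le b v
  rwa [ZSpan.fract_apply] at this

/-- **Artin–Tate lemma**: a `C`-stable additive subgroup `M` of `ℝ^X` which spans `ℝ^X` contains
a linearly independent family `y x` (`x ∈ X`) permuted by `C` like `X`. -/
theorem exists_equivariant_linearIndependent (M : AddSubgroup (X → ℝ))
    (hM : Submodule.span ℝ (M : Set (X → ℝ)) = ⊤)
    (hstab : ∀ (c : C), ∀ v ∈ M, permFun c v ∈ M) :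
    ∃ y : X → (X → ℝ), (∀ x, y x ∈ M) ∧ (∀ (c : C) (x : X), permFun c (y x) = y (c • x)) ∧
      LinearIndependent ℝ y := by
  classical
  obtain ⟨B, hB0, hB⟩ := exists_bound_approx M hM
  set t : ℝ := (Fintype.card X + 1) * B + 1 with ht
  choose z hzM hz using fun x : X => hB (t • Pi.single x (1 : ℝ))
  -- the averaged family
  let y : X → (X → ℝ) := fun x => ∑ g : C, permFun g (z (g⁻¹ • x))
  have hyM : ∀ x, y x ∈ M := fun x =>
    AddSubgroup.sum_mem _ fun g _ => hstab g _ (hzM _)
  have hyeq : ∀ (c : C) (x : X), permFun c (y x) = y (c • x) := by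
    intro c x
    show permFun c (∑ g : C, permFun g (z (g⁻¹ • x))) = ∑ g : C, permFun g (z (g⁻¹ • (c • x)))
    rw [permFun_sum]
    refine Fintype.sum_equiv (Equiv.mulLeft c) _ _ fun g => ?_
    rw [← permFun_mul]
    simp only [Equiv.coe_mulLeft, mul_inv_rev, mul_smul, inv_smul_smul]
  -- the error terms
  let r : X → (X → ℝ) := fun x => t • Pi.single x (1 : ℝ) - z x
  have hr : ∀ x, ‖r x‖ ≤ B := hz
  have hzr : ∀ x, z x = t • Pi.single x (1 : ℝ) - r x := fun x => by simp [r]
  let δ : X → (X → ℝ) := fun x => ∑ g : C, permFun g (r (g⁻¹ • x))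
  have hyδ : ∀ x, y x = (Fintype.card C * t) • Pi.single x (1 : ℝ) - δ x := by
    intro x
    show ∑ g : C, permFun g (z (g⁻¹ • x)) = _
    have : ∀ g : C, permFun g (z (g⁻¹ • x)) =
        t • Pi.single x (1 : ℝ) - permFun g (r (g⁻¹ • x)) := by
      intro g
      rw [hzr, permFun_sub, permFun_smul, permFun_single, smul_inv_smul]
    simp only [this, Finset.sum_sub_distrib, Finset.sum_const, Finset.card_univ, δ]
    congr 1
    rw [← Nat.cast_smul_eq_nsmul ℝ, smul_smul]
  have hδ : ∀ x x', |δ x x'| ≤ Fintype.card C * B := by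
    intro x x'
    show |(∑ g : C, permFun g (r (g⁻¹ • x))) x'| ≤ _
    rw [Finset.sum_apply]
    refine (Finset.abs_sum_le_sum_abs _ _).trans ?_
    calc ∑ g : C, |permFun g (r (g⁻¹ • x)) x'| ≤ ∑ _g : C, B :=
          Finset.sum_le_sum fun g _ => (abs_permFun_le g _ x').trans (hr _)
      _ = Fintype.card C * B := by simp
  have hC : (1 : ℝ) ≤ Fintype.card C := by
    exact_mod_cast Fintype.card_pos
  refine ⟨y, hyM, hyeq, ?_⟩
  -- diagonal dominance
  have hdet : (Matrix.of y).det ≠ 0 := by
    refine det_ne_zero_of_sum_row_lt_diag fun x => ?_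
    have hdiag : Fintype.card C * t - Fintype.card C * B ≤ ‖Matrix.of y x x‖ := by
      rw [Matrix.of_apply, hyδ, Real.norm_eq_abs]
      have h1 : (((Fintype.card C * t : ℝ) • (Pi.single x (1 : ℝ) : X → ℝ) - δ x : X → ℝ)) x =
          Fintype.card C * t - δ x x := by simp
      rw [h1]
      have := hδ x x
      have h2 : Fintype.card C * t - δ x x ≤ |Fintype.card C * t - δ x x| := le_abs_self _
      have h3 : δ x x ≤ |δ x x| := le_abs_self _
      linarith
    have hoff : ∀ x' ∈ Finset.univ.erase x, ‖Matrix.of y x x'‖ ≤ Fintype.card C * B := by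
      intro x' hx'
      have hne : x' ≠ x := Finset.ne_of_mem_erase hx'
      rw [Matrix.of_apply, hyδ, Real.norm_eq_abs]
      have h1 : (((Fintype.card C * t : ℝ) • (Pi.single x (1 : ℝ) : X → ℝ) - δ x : X → ℝ)) x' =
          - δ x x' := by
        simp [hne]
      rw [h1, abs_neg]
      exact hδ x x'
    calc ∑ x' ∈ Finset.univ.erase x, ‖Matrix.of y x x'‖
        ≤ ∑ _x' ∈ Finset.univ.erase x, (Fintype.card C * B : ℝ) := Finset.sum_le_sum hoff
      _ = ((Fintype.card X - 1 : ℕ) : ℝ) * (Fintype.card C * B) := by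
          rw [Finset.sum_const, Finset.card_erase_of_mem (Finset.mem_univ x), Finset.card_univ,
            nsmul_eq_mul]
      _ ≤ (Fintype.card X : ℝ) * (Fintype.card C * B) := by
          have : ((Fintype.card X - 1 : ℕ) : ℝ) ≤ (Fintype.card X : ℝ) := by
            exact_mod_cast Nat.sub_le _ _
          exact mul_le_mul_of_nonneg_right this (by positivity)
      _ < Fintype.card C * t - Fintype.card C * B := by
          rw [ht]
          nlinarith
      _ ≤ ‖Matrix.of y x x‖ := hdiag
  exact Matrix.linearIndependent_rows_of_det_ne_zero hdet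

end Main

end Fermat.Agent.S56.EC
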