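/-
S56, wall W2-EC, step 5, leaf EC5-L (helper54), part B: the lattice lemma.

`M` a finitely generated abelian group with an action of `C`, `d` an additive invariant of finite
`𝔽_p[C]`-modules.  For a `C`-stable subgroup `B` put `χ(B) = d(B / pB) - d(B[p])`.  Then
`χ(A) = χ(B)` for `C`-stable subgroups `A ≤ B` with `[B : A]` finite (`chi_eq_of_relIndex_ne_zero`).
-/
import Fermat.Agent.S56.W2.EC.FinCMod

set_option autoImplicit false

noncomputable section

namespace Fermat.Agent.S56.EC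

variable {p : ℕ} {C : Type} [Group C]
variable {M : Type} [AddCommGroup M] [DistribMulAction C M]

/-- A `C`-stable subgroup. -/
structure StabSub (C : Type) [Group C] (M : Type) [AddCommGroup M] [DistribMulAction C M] where
  /-- the subgroup -/
  sub : AddSubgroup M
  stable : ∀ (c : C) (x : M), x ∈ sub → c • x ∈ sub

lemma smul_nsmul_comm' (c : C) (n : ℕ) (x : M) : c • (n • x) = n • (c • x) :=
  map_nsmul (DistribSMul.toAddMonoidHom M c) n x

/-- The subgroup `p B`. -/
def pMul (p : ℕ) (B : AddSubgroup M) : AddSubgroup M := B.map (nsmulAddMonoidHom p)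

lemma mem_pMul {B : AddSubgroup M} {x : M} : x ∈ pMul p B ↔ ∃ b ∈ B, p • b = x := by
  unfold pMul
  rw [AddSubgroup.mem_map]
  rfl

lemma nsmul_mem_pMul {B : AddSubgroup M} {b : M} (hb : b ∈ B) : p • b ∈ pMul p B :=
  mem_pMul.mpr ⟨b, hb, rfl⟩

lemma pMul_le (B : AddSubgroup M) : pMul p B ≤ B := by
  intro x hx
  obtain ⟨b, hb, rfl⟩ := mem_pMul.mp hx
  exact B.nsmul_mem hb p

lemma pMul_mono {A B : AddSubgroup M} (h : A ≤ B) : pMul p A ≤ pMul p B :=
  AddSubgroup.map_mono h

/-- The subgroup `B[p]`. -/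
def pTor (p : ℕ) (B : AddSubgroup M) : AddSubgroup M := B ⊓ (nsmulAddMonoidHom p : M →+ M).ker

lemma mem_pTor {B : AddSubgroup M} {x : M} : x ∈ pTor p B ↔ x ∈ B ∧ p • x = 0 := by
  unfold pTor
  rw [AddSubgroup.mem_inf, AddMonoidHom.mem_ker]
  rfl

namespace StabSub

variable (B : StabSub C M)

lemma stable_pMul (c : C) (x : M) (hx : x ∈ pMul p B.sub) : c • x ∈ pMul p B.sub := by
  obtain ⟨b, hb, rfl⟩ := mem_pMul.mp hx
  rw [smul_nsmul_comm']
  exact nsmul_mem_pMul (B.stable c b hb)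

lemma stable_pTor (c : C) (x : M) (hx : x ∈ pTor p B.sub) : c • x ∈ pTor p B.sub := by
  obtain ⟨h1, h2⟩ := mem_pTor.mp hx
  refine mem_pTor.mpr ⟨B.stable c x h1, ?_⟩
  rw [← smul_nsmul_comm', h2, smul_zero]

/-- `B / pB`. -/
def modQ (p : ℕ) : SubQ p C M where
  bot := pMul p B.sub
  top := B.sub
  le := pMul_le B.sub
  stable_bot := B.stable_pMul
  stable_top := B.stable
  killed := fun _ hx => nsmul_mem_pMul hx

/-- `B[p]`. -/
def torQ (p : ℕ) : SubQ p C M where
  bot := ⊥
  top := pTor p B.sub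
  le := bot_le
  stable_bot := fun c x hx => by
    rw [AddSubgroup.mem_bot] at hx ⊢
    rw [hx, smul_zero]
  stable_top := B.stable_pTor
  killed := fun x hx => by
    rw [AddSubgroup.mem_bot]
    exact (mem_pTor.mp hx).2

end StabSub

variable [Module.Finite ℤ M]

/-- `χ(B) = d(B / pB) - d(B[p])`. -/
def chi (d : FinCMod p C → ℤ) (hp : p ≠ 0) (B : StabSub C M) : ℤ :=
  d ((B.modQ p).obj hp) - d ((B.torQ p).obj hp)

/-- **Step (a)**: `B = A + pB` and multiplication by `p` is injective on `B / A`. -/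
theorem chi_eq_of_primeTo {d : FinCMod p C → ℤ} (hd : IsAdditive d) (hp : p ≠ 0)
    (A B : StabSub C M) (hAB : A.sub ≤ B.sub)
    (hsurj : ∀ b ∈ B.sub, ∃ a ∈ A.sub, ∃ b' ∈ B.sub, b = a + p • b')
    (hinj : ∀ b ∈ B.sub, p • b ∈ A.sub → b ∈ A.sub) :
    chi d hp A = chi d hp B := by
  unfold chi
  have h1 : d ((A.modQ p).obj hp) = d ((B.modQ p).obj hp) := by
    refine hd.subQ_map hp _ _ (AddMonoidHom.id M) (fun _ _ => rfl) (fun x hx => hAB hx) ?_ ?_
    · intro x hx
      constructor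
      · intro h
        obtain ⟨b, hb, hbx⟩ := mem_pMul.mp h
        have hbA : b ∈ A.sub := hinj b hb (by rw [hbx]; exact hx)
        exact mem_pMul.mpr ⟨b, hbA, hbx⟩
      · intro h
        exact pMul_mono hAB h
    · intro y hy
      obtain ⟨a, ha, b', hb', rfl⟩ := hsurj y hy
      refine ⟨a, ha, ?_⟩
      simp only [AddMonoidHom.id_apply, add_sub_cancel_left]
      exact nsmul_mem_pMul hb'
  have h2 : d ((A.torQ p).obj hp) = d ((B.torQ p).obj hp) := by
    refine hd.subQ_congr hp _ _ rfl ?_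
    show pTor p A.sub = pTor p B.sub
    ext x
    rw [mem_pTor, mem_pTor]
    constructor
    · rintro ⟨h, h'⟩
      exact ⟨hAB h, h'⟩
    · rintro ⟨h, h'⟩
      exact ⟨hinj x h (by rw [h']; exact A.sub.zero_mem), h'⟩
  rw [h1, h2]

/-- **Step (b)**: `pB ≤ A ≤ B`. -/
theorem chi_eq_of_pMul_le {d : FinCMod p C → ℤ} (hd : IsAdditive d) (hp : p ≠ 0)
    (A B : StabSub C M) (hAB : A.sub ≤ B.sub) (hpB : pMul p B.sub ≤ A.sub) :
    chi d hp A = chi d hp B := by
  -- the subquotients
  let QBA : SubQ p C M :=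
    { bot := A.sub, top := B.sub, le := hAB, stable_bot := A.stable, stable_top := B.stable
      killed := fun x hx => hpB (nsmul_mem_pMul hx) }
  let QApB : SubQ p C M :=
    { bot := pMul p B.sub, top := A.sub, le := hpB, stable_bot := B.stable_pMul
      stable_top := A.stable
      killed := fun x hx => pMul_mono hAB (nsmul_mem_pMul hx) }
  let QpBpA : SubQ p C M :=
    { bot := pMul p A.sub, top := pMul p B.sub, le := pMul_mono hAB
      stable_bot := A.stable_pMul, stable_top := B.stable_pMul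
      killed := fun x hx => nsmul_mem_pMul (hpB hx) }
  have hstabAT : ∀ (c : C) (x : M), x ∈ A.sub ⊔ pTor p B.sub → c • x ∈ A.sub ⊔ pTor p B.sub := by
    intro c x hx
    obtain ⟨a, ha, t, ht, rfl⟩ := AddSubgroup.mem_sup.mp hx
    rw [smul_add]
    exact AddSubgroup.mem_sup.mpr ⟨_, A.stable c a ha, _, B.stable_pTor c t ht, rfl⟩
  have hATle : A.sub ⊔ pTor p B.sub ≤ B.sub :=
    sup_le hAB (fun x hx => (mem_pTor.mp hx).1)
  let QBAT : SubQ p C M :=
    { bot := A.sub ⊔ pTor p B.sub, top := B.sub, le := hATle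
      stable_bot := hstabAT, stable_top := B.stable
      killed := fun x hx => le_sup_left (a := A.sub) (hpB (nsmul_mem_pMul hx)) }
  let QATA : SubQ p C M :=
    { bot := A.sub, top := A.sub ⊔ pTor p B.sub, le := le_sup_left
      stable_bot := A.stable, stable_top := hstabAT
      killed := fun x hx => hpB (nsmul_mem_pMul (hATle hx)) }
  let QBtAt : SubQ p C M :=
    { bot := pTor p A.sub, top := pTor p B.sub
      le := fun x hx => mem_pTor.mpr ⟨hAB (mem_pTor.mp hx).1, (mem_pTor.mp hx).2⟩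
      stable_bot := A.stable_pTor, stable_top := B.stable_pTor
      killed := fun x hx => by
        rw [(mem_pTor.mp hx).2]
        exact (pTor p A.sub).zero_mem }
  -- (1) chain `pB ≤ A ≤ B`
  have e1 : d ((B.modQ p).obj hp) = d (QApB.obj hp) + d (QBA.obj hp) :=
    hd.subQ_chain hp QApB QBA (B.modQ p) rfl rfl rfl
  -- (2) chain `pA ≤ pB ≤ A`
  have e2 : d ((A.modQ p).obj hp) = d (QpBpA.obj hp) + d (QApB.obj hp) :=
    hd.subQ_chain hp QpBpA QApB (A.modQ p) rfl rfl rfl
  -- (3) multiplication by `p` : `B / (A + B[p]) ≅ pB / pA`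
  have e3 : d (QBAT.obj hp) = d (QpBpA.obj hp) := by
    refine hd.subQ_map hp QBAT QpBpA (nsmulAddMonoidHom p) (fun c x => ?_) (fun x hx => ?_)
      (fun x hx => ?_) (fun y hy => ?_)
    · show p • (c • x) = c • (p • x)
      rw [smul_nsmul_comm']
    · exact nsmul_mem_pMul hx
    · show p • x ∈ pMul p A.sub ↔ x ∈ A.sub ⊔ pTor p B.sub
      constructor
      · intro h
        obtain ⟨a, ha, hax⟩ := mem_pMul.mp h
        refine AddSubgroup.mem_sup.mpr ⟨a, ha, x - a, ?_, by abel⟩
        refine mem_pTor.mpr ⟨B.sub.sub_mem hx (hAB ha), ?_⟩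
        rw [nsmul_sub, hax, sub_self]
      · intro h
        obtain ⟨a, ha, t, ht, rfl⟩ := AddSubgroup.mem_sup.mp h
        rw [nsmul_add, (mem_pTor.mp ht).2, add_zero]
        exact nsmul_mem_pMul ha
    · obtain ⟨b, hb, rfl⟩ := mem_pMul.mp hy
      refine ⟨b, hb, ?_⟩
      show p • b - p • b ∈ pMul p A.sub
      rw [sub_self]
      exact (pMul p A.sub).zero_mem
  -- (4) chain `A ≤ A + B[p] ≤ B`
  have e4 : d (QBA.obj hp) = d (QATA.obj hp) + d (QBAT.obj hp) :=
    hd.subQ_chain hp QATA QBAT QBA rfl rfl rfl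
  -- (5) `B[p] / A[p] ≅ (A + B[p]) / A`
  have e5 : d (QBtAt.obj hp) = d (QATA.obj hp) := by
    refine hd.subQ_map hp QBtAt QATA (AddMonoidHom.id M) (fun _ _ => rfl) (fun x hx => ?_)
      (fun x hx => ?_) (fun y hy => ?_)
    · exact le_sup_right (a := A.sub) hx
    · show x ∈ A.sub ↔ x ∈ pTor p A.sub
      rw [mem_pTor]
      exact ⟨fun h => ⟨h, (mem_pTor.mp hx).2⟩, fun h => h.1⟩
    · obtain ⟨a, ha, t, ht, rfl⟩ := AddSubgroup.mem_sup.mp hy
      refine ⟨t, ht, ?_⟩
      show a + t - t ∈ A.sub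
      rw [add_sub_cancel_right]
      exact ha
  -- (6) chain `0 ≤ A[p] ≤ B[p]`
  have e6 : d ((B.torQ p).obj hp) = d ((A.torQ p).obj hp) + d (QBtAt.obj hp) :=
    hd.subQ_chain hp (A.torQ p) QBtAt (B.torQ p) rfl rfl rfl
  unfold chi
  linarith

omit [DistribMulAction C M] [Module.Finite ℤ M] in
/-- On a finite quotient `B / A` with `B = A + pB`, multiplication by `p` is injective. -/
lemma pinj_of_psurj (A B : AddSubgroup M) (hfin : A.relIndex B ≠ 0)
    (hsurj : ∀ b ∈ B, ∃ a ∈ A, ∃ b' ∈ B, b = a + p • b') :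
    ∀ b ∈ B, p • b ∈ A → b ∈ A := by
  haveI : (A.addSubgroupOf B).FiniteIndex := ⟨hfin⟩
  haveI : Finite (↥B ⧸ A.addSubgroupOf B) := AddSubgroup.finite_quotient_of_finiteIndex
  set f : (↥B ⧸ A.addSubgroupOf B) →+ (↥B ⧸ A.addSubgroupOf B) := nsmulAddMonoidHom p with hf
  have hfs : Function.Surjective f := by
    intro q
    obtain ⟨b, rfl⟩ := QuotientAddGroup.mk_surjective q
    obtain ⟨a, ha, b', hb', hb⟩ := hsurj b b.2
    refine ⟨QuotientAddGroup.mk ⟨b', hb'⟩, ?_⟩
    show p • (QuotientAddGroup.mk ⟨b', hb'⟩ : ↥B ⧸ A.addSubgroupOf B) = QuotientAddGroup.mk b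
    rw [← QuotientAddGroup.mk_nsmul, QuotientAddGroup.eq]
    show -(p • (⟨b', hb'⟩ : ↥B) : ↥B).1 + b.1 ∈ A
    have : -(p • b') + (b : M) = a := by rw [hb]; abel
    rw [show ((p • (⟨b', hb'⟩ : ↥B) : ↥B) : M) = p • b' from rfl, this]
    exact ha
  have hfi : Function.Injective f := Finite.injective_iff_surjective.mpr hfs
  intro b hb hpb
  have h0 : f (QuotientAddGroup.mk ⟨b, hb⟩) = 0 := by
    show p • (QuotientAddGroup.mk ⟨b, hb⟩ : ↥B ⧸ A.addSubgroupOf B) = 0
    rw [← QuotientAddGroup.mk_nsmul, QuotientAddGroup.eq_zero_iff]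
    exact hpb
  have h1 := hfi (h0.trans (map_zero f).symm)
  rw [QuotientAddGroup.eq_zero_iff] at h1
  exact h1

/-- **Lattice lemma**: `χ(A) = χ(B)` for stable subgroups `A ≤ B` with `[B : A]` finite. -/
theorem chi_eq_of_relIndex_ne_zero {d : FinCMod p C → ℤ} (hd : IsAdditive d) (hp : p ≠ 0)
    (A : StabSub C M) :
    ∀ (n : ℕ) (B : StabSub C M), A.sub ≤ B.sub → A.sub.relIndex B.sub = n → n ≠ 0 →
      chi d hp A = chi d hp B := by
  intro n
  induction n using Nat.strong_induction_on with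
  | _ n ih =>
    intro B hAB hn hn0
    -- the intermediate subgroup `A + pB`
    let B' : StabSub C M :=
      { sub := A.sub ⊔ pMul p B.sub
        stable := by
          intro c x hx
          obtain ⟨a, ha, t, ht, rfl⟩ := AddSubgroup.mem_sup.mp hx
          rw [smul_add]
          exact AddSubgroup.mem_sup.mpr ⟨_, A.stable c a ha, _, B.stable_pMul c t ht, rfl⟩ }
    have hAB' : A.sub ≤ B'.sub := le_sup_left
    have hB'B : B'.sub ≤ B.sub := sup_le hAB (pMul_le B.sub)
    by_cases hBB' : B.sub ≤ B'.sub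
    · -- `B = A + pB`
      have hsurj : ∀ b ∈ B.sub, ∃ a ∈ A.sub, ∃ b' ∈ B.sub, b = a + p • b' := by
        intro b hb
        obtain ⟨a, ha, t, ht, rfl⟩ := AddSubgroup.mem_sup.mp (hBB' hb)
        obtain ⟨b', hb', rfl⟩ := mem_pMul.mp ht
        exact ⟨a, ha, b', hb', rfl⟩
      exact chi_eq_of_primeTo hd hp A B hAB hsurj
        (pinj_of_psurj A.sub B.sub (hn ▸ hn0) hsurj)
    · have hmul := AddSubgroup.relIndex_mul_relIndex A.sub B'.sub B.sub hAB' hB'B
      rw [hn] at hmul
      have h1 : B'.sub.relIndex B.sub ≠ 1 := fun h => hBB' (AddSubgroup.relIndex_eq_one.mp h)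
      have h0 : B'.sub.relIndex B.sub ≠ 0 := fun h => hn0 (by rw [← hmul, h, mul_zero])
      have h0' : A.sub.relIndex B'.sub ≠ 0 := fun h => hn0 (by rw [← hmul, h, zero_mul])
      have hlt : A.sub.relIndex B'.sub < n := by
        have h2 : 2 ≤ B'.sub.relIndex B.sub := by omega
        have h3 : 1 ≤ A.sub.relIndex B'.sub := by omega
        nlinarith
      have e1 := ih _ hlt B' hAB' rfl h0'
      have e2 := chi_eq_of_pMul_le hd hp B' B hB'B le_sup_right
      rw [e1, e2]

/-! ### The lattice lemma for maps -/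

omit [Module.Finite ℤ M] in
/-- The whole module as a stable subgroup. -/
def StabSub.top (C : Type) [Group C] (M : Type) [AddCommGroup M] [DistribMulAction C M] :
    StabSub C M where
  sub := ⊤
  stable := fun _ _ _ => AddSubgroup.mem_top _

/-- `χ(M) = d(M / pM) - d(M[p])`. -/
def chiTop (d : FinCMod p C → ℤ) (hp : p ≠ 0) (M : Type) [AddCommGroup M]
    [DistribMulAction C M] [Module.Finite ℤ M] : ℤ :=
  chi d hp (StabSub.top C M)

variable {M' : Type} [AddCommGroup M'] [DistribMulAction C M'] [Module.Finite ℤ M']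

/-- **Lattice lemma, map form**: an injective equivariant map `f : M' → M` of finitely generated
abelian groups with finite cokernel preserves `χ = d(M / pM) - d(M[p])`. -/
theorem chiTop_eq_of_injective {d : FinCMod p C → ℤ} (hd : IsAdditive d) (hp : p ≠ 0)
    (f : M' →+ M) (hf : Function.Injective f) (hfeq : ∀ (c : C) (x : M'), f (c • x) = c • f x)
    (hfin : f.range.index ≠ 0) :
    chiTop d hp M' = chiTop d hp M := by
  -- the image of `f`
  let R : StabSub C M :=
    { sub := f.range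
      stable := by
        rintro c _ ⟨x, rfl⟩
        exact ⟨c • x, hfeq c x⟩ }
  have e1 : chi d hp (StabSub.top C M') = chi d hp R := by
    unfold chi
    have h1 : d (((StabSub.top C M').modQ p).obj hp) = d ((R.modQ p).obj hp) := by
      refine hd.subQ_map hp _ _ f hfeq (fun x _ => ⟨x, rfl⟩) (fun x _ => ?_) (fun y hy => ?_)
      · show f x ∈ pMul p f.range ↔ x ∈ pMul p (⊤ : AddSubgroup M')
        constructor
        · intro h
          obtain ⟨_, ⟨y, rfl⟩, hy⟩ := mem_pMul.mp h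
          rw [← map_nsmul] at hy
          exact mem_pMul.mpr ⟨y, AddSubgroup.mem_top _, hf hy⟩
        · intro h
          obtain ⟨y, -, rfl⟩ := mem_pMul.mp h
          rw [map_nsmul]
          exact nsmul_mem_pMul ⟨y, rfl⟩
      · obtain ⟨x, rfl⟩ := hy
        refine ⟨x, AddSubgroup.mem_top _, ?_⟩
        rw [sub_self]
        exact (pMul p f.range).zero_mem
    have h2 : d (((StabSub.top C M').torQ p).obj hp) = d ((R.torQ p).obj hp) := by
      refine hd.subQ_map hp _ _ f hfeq (fun x hx => ?_) (fun x _ => ?_) (fun y hy => ?_)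
      · refine mem_pTor.mpr ⟨⟨x, rfl⟩, ?_⟩
        rw [← map_nsmul, (mem_pTor.mp hx).2, map_zero]
      · show f x ∈ (⊥ : AddSubgroup M) ↔ x ∈ (⊥ : AddSubgroup M')
        rw [AddSubgroup.mem_bot, AddSubgroup.mem_bot]
        exact ⟨fun h => hf (h.trans (map_zero f).symm), fun h => by rw [h, map_zero]⟩
      · obtain ⟨⟨x, rfl⟩, hx⟩ := mem_pTor.mp hy
        refine ⟨x, mem_pTor.mpr ⟨AddSubgroup.mem_top _, ?_⟩, ?_⟩
        · rw [← map_nsmul] at hx
          exact hf (hx.trans (map_zero f).symm)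
        · rw [sub_self]
          exact AddSubgroup.zero_mem _
    rw [h1, h2]
  have e2 : chi d hp R = chi d hp (StabSub.top C M) :=
    chi_eq_of_relIndex_ne_zero hd hp R _ (StabSub.top C M) le_top rfl (by
      show f.range.relIndex ⊤ ≠ 0
      rw [AddSubgroup.relIndex_top_right]
      exact hfin)
  unfold chiTop
  rw [e1, e2]

end Fermat.Agent.S56.EC
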