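/-
S56, wall W2-EC, step 5, leaf EC5-L (helper54), part C: computing `χ(M) = d(M/pM) - d(M[p])`.

* `IsAdditive.d_modObj_eq` / `IsAdditive.d_torObj_eq` : universal forms, `d(M/pM) = d A` for every
  equivariant surjection `M → A` with kernel `pM`, `d(M[p]) = d B` for every equivariant injection
  `B → M` with image `M[p]`;
* `chiTop_eq_zero_of_finite` : `χ(M) = 0` for finite `M` (so `d(M/pM) = d(M[p])`);
* `chiTop_prod` : `χ(M × N) = χ(M) + χ(N)`;
* `PermMod act R` : the permutation module `R^X` for `act : C →* Equiv.Perm X`; `permObj p act`: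
  `𝔽_p^X` as a `FinCMod`; `chiTop_permMod` : `χ(ℤ^X) = d(𝔽_p^X)`;
* `TrivMod C R` : `R` with the trivial action, `trivObj p C` : `𝔽_p`; `chiTop_trivMod`.
-/
import Fermat.Agent.S56.W2.EC.LatticeMod

set_option autoImplicit false

noncomputable section

namespace Fermat.Agent.S56.EC

variable {p : ℕ} {C : Type} [Group C]

section Univ

variable (M : Type) [AddCommGroup M] [DistribMulAction C M] [Module.Finite ℤ M]

/-- `M / pM` as a `FinCMod`. -/
def modObj (hp : p ≠ 0) : FinCMod p C := ((StabSub.top C M).modQ p).obj hp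

/-- `M[p]` as a `FinCMod`. -/
def torObj (hp : p ≠ 0) : FinCMod p C := ((StabSub.top C M).torQ p).obj hp

lemma chiTop_eq (d : FinCMod p C → ℤ) (hp : p ≠ 0) :
    chiTop d hp M = d (modObj (C := C) M hp) - d (torObj (C := C) M hp) := rfl

variable {M}

/-- **Universal form of `M / pM`.** -/
theorem IsAdditive.d_modObj_eq {d : FinCMod p C → ℤ} (hd : IsAdditive d) (hp : p ≠ 0)
    (A : FinCMod p C) (π : M →+ A.carrier) (hπ : Function.Surjective π)
    (hC : ∀ (c : C) (x : M), π (c • x) = c • π x)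
    (hker : ∀ x : M, π x = 0 → ∃ y : M, p • y = x) :
    d (modObj (C := C) M hp) = d A := by
  set Q : SubQ p C M := (StabSub.top C M).modQ p with hQ
  have hle : Q.bot.addSubgroupOf Q.top ≤ (π.comp Q.top.subtype).ker := by
    intro x hx
    rw [AddSubgroup.mem_addSubgroupOf] at hx
    obtain ⟨b, -, hb⟩ := mem_pMul.mp hx
    rw [AddMonoidHom.mem_ker]
    show π (x : M) = 0
    rw [← hb, map_nsmul]
    exact A.killed _
  let φ : Q.Carrier →+ A.carrier := QuotientAddGroup.lift _ (π.comp Q.top.subtype) hle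
  have hφ : ∀ x : ↥Q.top, φ (Q.cls x) = π (x : M) := fun x => rfl
  have h1 : ∀ (c : C) (y : Q.Carrier), φ (c • y) = c • φ y := by
    intro c y
    obtain ⟨x, rfl⟩ := Q.cls_surjective y
    rw [SubQ.smul_cls, hφ, hφ]
    exact hC c x
  have h2 : Function.Injective φ := by
    rw [injective_iff_map_eq_zero]
    intro y hy
    obtain ⟨x, rfl⟩ := Q.cls_surjective y
    rw [hφ] at hy
    rw [SubQ.cls_eq_zero_iff]
    obtain ⟨z, hz⟩ := hker _ hy
    exact mem_pMul.mpr ⟨z, AddSubgroup.mem_top _, hz⟩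
  have h3 : Function.Surjective φ := by
    intro a
    obtain ⟨x, rfl⟩ := hπ a
    exact ⟨Q.cls ⟨x, AddSubgroup.mem_top _⟩, rfl⟩
  exact hd.eq_of_bijective (Q.obj hp) A φ h1 ⟨h2, h3⟩

/-- **Universal form of `M[p]`.** -/
theorem IsAdditive.d_torObj_eq {d : FinCMod p C → ℤ} (hd : IsAdditive d) (hp : p ≠ 0)
    (B : FinCMod p C) (ι : B.carrier →+ M) (hι : Function.Injective ι)
    (hC : ∀ (c : C) (b : B.carrier), ι (c • b) = c • ι b)
    (hrange : ∀ x : M, p • x = 0 → ∃ b : B.carrier, ι b = x) :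
    d (torObj (C := C) M hp) = d B := by
  set Q : SubQ p C M := (StabSub.top C M).torQ p with hQ
  have hmem : ∀ b : B.carrier, ι b ∈ Q.top := fun b =>
    mem_pTor.mpr ⟨AddSubgroup.mem_top _, by rw [← map_nsmul, B.killed, map_zero]⟩
  let φ : B.carrier →+ Q.Carrier := Q.cls.comp (ι.codRestrict Q.top hmem)
  have hφ : ∀ b : B.carrier, φ b = Q.cls ⟨ι b, hmem b⟩ := fun b => rfl
  have h1 : ∀ (c : C) (b : B.carrier), φ (c • b) = c • φ b := by
    intro c b
    rw [hφ, hφ, SubQ.smul_cls]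
    congr 1
    exact Subtype.ext (hC c b)
  have h2 : Function.Injective φ := by
    rw [injective_iff_map_eq_zero]
    intro b hb
    rw [hφ, SubQ.cls_eq_zero_iff] at hb
    have hb' : ι b = 0 := (AddSubgroup.mem_bot).mp hb
    exact hι (hb'.trans (map_zero ι).symm)
  have h3 : Function.Surjective φ := by
    intro y
    obtain ⟨x, rfl⟩ := Q.cls_surjective y
    obtain ⟨b, hb⟩ := hrange (x : M) (mem_pTor.mp x.2).2
    refine ⟨b, ?_⟩
    rw [hφ]
    congr 1
    exact Subtype.ext hb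
  exact (hd.eq_of_bijective B (Q.obj hp) φ h1 ⟨h2, h3⟩).symm

/-- `d(M[p]) = 0` if `M` has no `p`-torsion. -/
theorem IsAdditive.d_torObj_eq_zero {d : FinCMod p C → ℤ} (hd : IsAdditive d) (hp : p ≠ 0)
    (htf : ∀ x : M, p • x = 0 → x = 0) : d (torObj (C := C) M hp) = 0 := by
  have hsub : Subsingleton ((StabSub.top C M).torQ p).Carrier := by
    refine ⟨fun a b => ?_⟩
    obtain ⟨x, rfl⟩ := ((StabSub.top C M).torQ p).cls_surjective a
    obtain ⟨y, rfl⟩ := ((StabSub.top C M).torQ p).cls_surjective b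
    have hx : (x : M) = 0 := htf _ (mem_pTor.mp x.2).2
    have hy : (y : M) = 0 := htf _ (mem_pTor.mp y.2).2
    have : x = y := Subtype.ext (hx.trans hy.symm)
    rw [this]
  have : Subsingleton (torObj (C := C) M hp).carrier := hsub
  exact hd.eq_zero_of_subsingleton _

/-- `d(M/pM) = 0` if `M = pM`. -/
theorem IsAdditive.d_modObj_eq_zero {d : FinCMod p C → ℤ} (hd : IsAdditive d) (hp : p ≠ 0)
    (hdiv : ∀ x : M, ∃ y : M, p • y = x) : d (modObj (C := C) M hp) = 0 := by
  have hsub : Subsingleton ((StabSub.top C M).modQ p).Carrier := by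
    refine ⟨fun a b => ?_⟩
    obtain ⟨x, rfl⟩ := ((StabSub.top C M).modQ p).cls_surjective a
    obtain ⟨y, rfl⟩ := ((StabSub.top C M).modQ p).cls_surjective b
    rw [SubQ.cls_eq_cls_iff]
    obtain ⟨z, hz⟩ := hdiv ((x : M) - (y : M))
    exact mem_pMul.mpr ⟨z, AddSubgroup.mem_top _, hz⟩
  have : Subsingleton (modObj (C := C) M hp).carrier := hsub
  exact hd.eq_zero_of_subsingleton _

end Univ

section Finite

variable {M : Type} [AddCommGroup M] [DistribMulAction C M] [Module.Finite ℤ M]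

/-- `χ` of a subsingleton is `0`. -/
theorem chiTop_eq_zero_of_subsingleton {d : FinCMod p C → ℤ} (hd : IsAdditive d) (hp : p ≠ 0)
    [Subsingleton M] : chiTop d hp M = 0 := by
  rw [chiTop_eq, hd.d_torObj_eq_zero hp (fun x _ => Subsingleton.elim _ _),
    hd.d_modObj_eq_zero hp (fun x => ⟨0, Subsingleton.elim _ _⟩), sub_zero]

/-- **`χ` of a finite module is `0`**: `d(M/pM) = d(M[p])`. -/
theorem chiTop_eq_zero_of_finite {d : FinCMod p C → ℤ} (hd : IsAdditive d) (hp : p ≠ 0)
    [Finite M] : chiTop d hp M = 0 := by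
  have h := chiTop_eq_of_injective (M := M) (M' := PUnit.{1}) hd hp (0 : PUnit.{1} →+ M)
    (fun a b _ => Subsingleton.elim _ _) (fun c x => (smul_zero c).symm)
    (by
      have : Finite (M ⧸ (0 : PUnit.{1} →+ M).range) := inferInstance
      exact AddSubgroup.index_ne_zero_of_finite)
  rw [← h]
  exact chiTop_eq_zero_of_subsingleton hd hp

/-- `d(M/pM) = d(M[p])` for finite `M`. -/
theorem IsAdditive.d_modObj_eq_d_torObj {d : FinCMod p C → ℤ} (hd : IsAdditive d) (hp : p ≠ 0)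
    [Finite M] : d (modObj (C := C) M hp) = d (torObj (C := C) M hp) := by
  have := chiTop_eq_zero_of_finite (M := M) hd hp
  rw [chiTop_eq] at this
  linarith

end Finite

section Prod

variable {M N : Type} [AddCommGroup M] [DistribMulAction C M] [Module.Finite ℤ M]
  [AddCommGroup N] [DistribMulAction C N] [Module.Finite ℤ N]

/-- `d((M × N)/p) = d(M/p) + d(N/p)`. -/
theorem IsAdditive.d_modObj_prod {d : FinCMod p C → ℤ} (hd : IsAdditive d) (hp : p ≠ 0) :
    d (modObj (C := C) (M × N) hp) = d (modObj (C := C) M hp) + d (modObj (C := C) N hp) := by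
  set QM : SubQ p C M := (StabSub.top C M).modQ p with hQM
  set QN : SubQ p C N := (StabSub.top C N).modQ p with hQN
  set QE : SubQ p C (M × N) := (StabSub.top C (M × N)).modQ p with hQE
  have hi_top : ∀ x ∈ QM.top, (AddMonoidHom.inl M N) x ∈ QE.top := fun _ _ => AddSubgroup.mem_top _
  have hi_bot : ∀ x ∈ QM.bot, (AddMonoidHom.inl M N) x ∈ QE.bot := by
    intro x hx
    obtain ⟨y, -, rfl⟩ := mem_pMul.mp hx
    refine mem_pMul.mpr ⟨(y, 0), AddSubgroup.mem_top _, ?_⟩
    simp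
  have hq_top : ∀ x ∈ QE.top, (AddMonoidHom.snd M N) x ∈ QN.top := fun _ _ => AddSubgroup.mem_top _
  have hq_bot : ∀ x ∈ QE.bot, (AddMonoidHom.snd M N) x ∈ QN.bot := by
    intro x hx
    obtain ⟨y, -, rfl⟩ := mem_pMul.mp hx
    exact mem_pMul.mpr ⟨y.2, AddSubgroup.mem_top _, rfl⟩
  let i : QM.Carrier →+ QE.Carrier := QM.map QE (AddMonoidHom.inl M N) hi_top hi_bot
  let q : QE.Carrier →+ QN.Carrier := QE.map QN (AddMonoidHom.snd M N) hq_top hq_bot
  have h1 : ∀ (c : C) (a : QM.Carrier), i (c • a) = c • i a :=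
    QM.map_smul QE _ hi_top hi_bot (fun c x => by
      show ((c • x, (0 : N)) : M × N) = c • ((x, 0) : M × N)
      rw [Prod.smul_mk, smul_zero])
  have h2 : ∀ (c : C) (e : QE.Carrier), q (c • e) = c • q e :=
    QE.map_smul QN _ hq_top hq_bot (fun c x => rfl)
  have h3 : Function.Injective i := by
    refine QM.map_injective QE _ hi_top hi_bot (fun x _ hx => ?_)
    obtain ⟨y, -, hy⟩ := mem_pMul.mp hx
    refine mem_pMul.mpr ⟨y.1, AddSubgroup.mem_top _, ?_⟩
    exact congrArg Prod.fst hy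
  have h4 : Function.Surjective q := by
    refine QE.map_surjective QN _ hq_top hq_bot (fun y _ => ⟨(0, y), AddSubgroup.mem_top _, ?_⟩)
    show y - y ∈ QN.bot
    rw [sub_self]
    exact QN.bot.zero_mem
  have h5 : ∀ e : QE.Carrier, q e = 0 ↔ e ∈ i.range := by
    intro e
    constructor
    · intro h
      obtain ⟨x, rfl⟩ := QE.cls_surjective e
      rw [SubQ.map_eq_zero_iff] at h
      obtain ⟨n', -, hn'⟩ := mem_pMul.mp h
      have hn'' : p • n' = (x : M × N).2 := hn'
      refine ⟨QM.cls ⟨(x : M × N).1, AddSubgroup.mem_top _⟩, ?_⟩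
      show QE.cls ⟨((x : M × N).1, 0), AddSubgroup.mem_top _⟩ = QE.cls x
      rw [SubQ.cls_eq_cls_iff]
      refine mem_pMul.mpr ⟨(0, -n'), AddSubgroup.mem_top _, ?_⟩
      refine Prod.ext ?_ ?_
      · show p • (0 : M) = (x : M × N).1 - (x : M × N).1
        rw [smul_zero, sub_self]
      · show p • (-n') = (0 : N) - (x : M × N).2
        rw [smul_neg, hn'', zero_sub]
    · rintro ⟨a, rfl⟩
      obtain ⟨m, rfl⟩ := QM.cls_surjective a
      show q (QE.cls _) = 0
      rw [SubQ.map_eq_zero_iff]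
      exact QN.bot.zero_mem
  exact hd (QM.obj hp) (QE.obj hp) (QN.obj hp) i q h1 h2 h3 h4 h5

/-- `d((M × N)[p]) = d(M[p]) + d(N[p])`. -/
theorem IsAdditive.d_torObj_prod {d : FinCMod p C → ℤ} (hd : IsAdditive d) (hp : p ≠ 0) :
    d (torObj (C := C) (M × N) hp) = d (torObj (C := C) M hp) + d (torObj (C := C) N hp) := by
  set QM : SubQ p C M := (StabSub.top C M).torQ p with hQM
  set QN : SubQ p C N := (StabSub.top C N).torQ p with hQN
  set QE : SubQ p C (M × N) := (StabSub.top C (M × N)).torQ p with hQE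
  have hi_top : ∀ x ∈ QM.top, (AddMonoidHom.inl M N) x ∈ QE.top := by
    intro x hx
    refine mem_pTor.mpr ⟨AddSubgroup.mem_top _, ?_⟩
    show p • ((x, 0) : M × N) = 0
    rw [Prod.smul_mk, (mem_pTor.mp hx).2, smul_zero]
    rfl
  have hi_bot : ∀ x ∈ QM.bot, (AddMonoidHom.inl M N) x ∈ QE.bot := by
    intro x hx
    have hx0 : x = 0 := AddSubgroup.mem_bot.mp hx
    rw [hx0, map_zero]
    exact QE.bot.zero_mem
  have hq_top : ∀ x ∈ QE.top, (AddMonoidHom.snd M N) x ∈ QN.top := by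
    intro x hx
    refine mem_pTor.mpr ⟨AddSubgroup.mem_top _, ?_⟩
    exact congrArg Prod.snd (mem_pTor.mp hx).2
  have hq_bot : ∀ x ∈ QE.bot, (AddMonoidHom.snd M N) x ∈ QN.bot := by
    intro x hx
    have hx0 : x = 0 := AddSubgroup.mem_bot.mp hx
    rw [hx0, map_zero]
    exact QN.bot.zero_mem
  let i : QM.Carrier →+ QE.Carrier := QM.map QE (AddMonoidHom.inl M N) hi_top hi_bot
  let q : QE.Carrier →+ QN.Carrier := QE.map QN (AddMonoidHom.snd M N) hq_top hq_bot
  have h1 : ∀ (c : C) (a : QM.Carrier), i (c • a) = c • i a :=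
    QM.map_smul QE _ hi_top hi_bot (fun c x => by
      show ((c • x, (0 : N)) : M × N) = c • ((x, 0) : M × N)
      rw [Prod.smul_mk, smul_zero])
  have h2 : ∀ (c : C) (e : QE.Carrier), q (c • e) = c • q e :=
    QE.map_smul QN _ hq_top hq_bot (fun c x => rfl)
  have h3 : Function.Injective i := by
    refine QM.map_injective QE _ hi_top hi_bot (fun x _ hx => ?_)
    have hx0 : ((x, 0) : M × N) = 0 := AddSubgroup.mem_bot.mp hx
    exact AddSubgroup.mem_bot.mpr (congrArg Prod.fst hx0)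
  have h4 : Function.Surjective q := by
    refine QE.map_surjective QN _ hq_top hq_bot (fun y hy => ⟨(0, y), ?_, ?_⟩)
    · refine mem_pTor.mpr ⟨AddSubgroup.mem_top _, ?_⟩
      show p • ((0, y) : M × N) = 0
      rw [Prod.smul_mk, (mem_pTor.mp hy).2, smul_zero]
      rfl
    · show y - y ∈ QN.bot
      rw [sub_self]
      exact QN.bot.zero_mem
  have h5 : ∀ e : QE.Carrier, q e = 0 ↔ e ∈ i.range := by
    intro e
    constructor
    · intro h
      obtain ⟨x, rfl⟩ := QE.cls_surjective e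
      rw [SubQ.map_eq_zero_iff] at h
      have hx2 : (x : M × N).2 = 0 := AddSubgroup.mem_bot.mp h
      have hx1 : p • (x : M × N).1 = 0 := congrArg Prod.fst (mem_pTor.mp x.2).2
      refine ⟨QM.cls ⟨(x : M × N).1, mem_pTor.mpr ⟨AddSubgroup.mem_top _, hx1⟩⟩, ?_⟩
      show QE.cls ⟨((x : M × N).1, 0), _⟩ = QE.cls x
      congr 1
      refine Subtype.ext (Prod.ext rfl ?_)
      show (0 : N) = (x : M × N).2
      rw [hx2]
    · rintro ⟨a, rfl⟩
      obtain ⟨m, rfl⟩ := QM.cls_surjective a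
      show q (QE.cls _) = 0
      rw [SubQ.map_eq_zero_iff]
      exact QN.bot.zero_mem
  exact hd (QM.obj hp) (QE.obj hp) (QN.obj hp) i q h1 h2 h3 h4 h5

/-- **`χ(M × N) = χ(M) + χ(N)`.** -/
theorem chiTop_prod {d : FinCMod p C → ℤ} (hd : IsAdditive d) (hp : p ≠ 0) :
    chiTop d hp (M × N) = chiTop d hp M + chiTop d hp N := by
  rw [chiTop_eq, chiTop_eq, chiTop_eq, hd.d_modObj_prod hp, hd.d_torObj_prod hp]
  ring

end Prod

end Fermat.Agent.S56.EC
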