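/-
S56, wall W2-EC, leaf (T) — DONE (helper83), sorry-free.  Statement FIXED (helper58).

Tate's formula `Ψ(N) = 0` for all finite smooth `N`, from additivity (A), the coinduced case
(C) + (D) and Brauer–Artin induction (B).  Pure glue:
 * `N` finite smooth: there is a level `W ≤ ker(cycloChar p)` acting trivially on `N`
   (`(levelsS S).directed`, `U0_isOpen`); `Γ = G_ℚ ⧸ W` is finite;
 * `d A := psiK S KC (Rep.res (QuotientGroup.mk' W) A)` for `A : Rep (ZMod p) Γ` is additive (A);
 * for `C ≤ Γ` cyclic of order prime to `p` and `U = C.comap (QuotientGroup.mk' W)`: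
   `Rep.res mk (homRep (permRep C) A) ≅ coInd U.subtype (levelsS S) (Rep.res (mk ∘ U.subtype) A)`
   (both are the functions `Γ/C → A`), and `Ψ` is invariant under isomorphisms (A), so
   `d (homRep (permRep C) A) = 0` by (C) + (D);
 * (B) gives `d = 0`; `N ≅ Rep.res mk (N as a representation of Γ)`
   (`Representation.ofQuotient`).
-/
import Fermat.Agent.S56.W2.EC.Defs
import Fermat.Agent.S56.W2.EC.TateGlue.Main

set_option autoImplicit false

namespace Fermat.Agent.S56.EC

open Fermat.Agent.F4 ExtCitation

/-- **(T)** Tate's formula from (A), (B), (C) + (D). -/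
theorem psiZero_of {p : ℕ} [Fact p.Prime] {S : Finset Nat.Primes} (hpS : pPrime p ∈ S)
    (KC : Cx (ZMod p) GQ) (hA : PsiAdditive S KC) (hC : PsiCoindZero S KC)
    (hB : ∀ (Γ : Type) [Group Γ] [Finite Γ], BrauerInduction p Γ) : PsiZero S KC := by
  intro N hN hfin
  obtain ⟨W, hW, hWker, hWfix⟩ := tateGlue_exists_level hpS N hN hfin
  have hnorm : W.Normal := (levelsS S).normal W hW
  have hfi : W.FiniteIndex := (levelsS S).finiteIndex W hW
  have hfq : Finite (GQ ⧸ W) := Subgroup.finite_quotient_of_finiteIndex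
  have htriv : Representation.IsTrivial (N.ρ.comp W.subtype) :=
    ⟨fun g => LinearMap.ext fun n => hWfix g g.2 n⟩
  have h := hB (GQ ⧸ W) (fun A => psiK S KC (Rep.res (QuotientGroup.mk' W) A))
    (tateGlue_additive hA hW)
    (fun C _ hCp A hfinA => tateGlue_perm_zero hA hC hW hWker C hCp A hfinA)
    (N.ofQuotient W) hfin
  exact h

end Fermat.Agent.S56.EC
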